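/-
JAC / S26 track, chapter CURVES (helper64), brick ALG-1 (DIM1): equidimensionality of finitely
generated domains over a field.

* `height_eq_of_isMaximal_mvPolynomial` : every maximal ideal of `K[x_1,…,x_d]` has height `d`.
* `exists_height_eq_trdeg` : for a finitely generated `K`-domain `R` with fraction field `L` there is
  `d : ℕ` with `trdeg K L = d` and every maximal ideal of `R` has height `d`.
* `trdeg_eq_one_of_height_eq_one`, `dimensionLEOne_of_trdeg_eq_one` : one maximal ideal of height
  `1` forces `trdeg = 1`, and `trdeg = 1` forces every nonzero prime to be maximal.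
-/
import Mathlib

set_option autoImplicit false
set_option linter.unusedSectionVars false
set_option linter.style.haveILetI false

namespace Fermat.Agent.JAC.Curves.DimOne64

open Polynomial

section MvPoly

variable (K : Type*) [Field K]

/-- Every maximal ideal of `K[x_1,…,x_d]` has height `d`. -/
theorem height_eq_of_isMaximal_mvPolynomial (d : ℕ) (𝔫 : Ideal (MvPolynomial (Fin d) K))
    [h𝔫 : 𝔫.IsMaximal] : 𝔫.height = d := by
  induction d with
  | zero =>
    have hf : IsField (MvPolynomial (Fin 0) K) :=
      (MvPolynomial.isEmptyAlgEquiv K (Fin 0)).toRingEquiv.toMulEquiv.isField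
        (Field.toIsField K)
    have hbot : 𝔫 = ⊥ := by
      let _ := hf.toField
      rcases Ideal.eq_bot_or_top 𝔫 with h | h
      · exact h
      · exact absurd h h𝔫.ne_top
    rw [hbot, Ideal.height_bot]
    rfl
  | succ d ih =>
    let e : MvPolynomial (Fin (d + 1)) K ≃+* (MvPolynomial (Fin d) K)[X] :=
      (MvPolynomial.finSuccEquiv K d).toRingEquiv
    let P : Ideal (MvPolynomial (Fin d) K)[X] := 𝔫.map (e : _ →+* _)
    have hP : P.IsMaximal := Ideal.map_isMaximal_of_equiv e
    have hp : (P.under (MvPolynomial (Fin d) K)).IsMaximal :=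
      Polynomial.isMaximal_comap_C_of_isJacobsonRing P
    have hlies : P.LiesOver (P.under (MvPolynomial (Fin d) K)) := ⟨rfl⟩
    have h1 := Polynomial.height_eq_height_add_one (P.under (MvPolynomial (Fin d) K)) P
    rw [ih (P.under (MvPolynomial (Fin d) K))] at h1
    have h2 : P.height = 𝔫.height := e.height_map 𝔫
    rw [← h2, h1]
    push_cast
    rfl

end MvPoly

section Domain

variable (K : Type*) [Field K] (R : Type*) [CommRing R] [IsDomain R] [Algebra K R]
  [Algebra.FiniteType K R]

/-- Noether normalisation with going-down: every maximal ideal of a finitely generated domain over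
a field has height the number of Noether variables. -/
theorem exists_height_eq_card_noether :
    ∃ (d : ℕ) (g : MvPolynomial (Fin d) K →ₐ[K] R), Function.Injective g ∧ g.IsIntegral ∧
      ∀ 𝔫 : Ideal R, 𝔫.IsMaximal → 𝔫.height = d := by
  obtain ⟨d, g, hinj, hint⟩ := exists_integral_inj_algHom_of_fg K R
  refine ⟨d, g, hinj, hint, ?_⟩
  intro 𝔫 h𝔫
  letI : Algebra (MvPolynomial (Fin d) K) R := g.toRingHom.toAlgebra
  have hintA : Algebra.IsIntegral (MvPolynomial (Fin d) K) R := ⟨hint⟩
  have hfaith : FaithfulSMul (MvPolynomial (Fin d) K) R :=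
    (faithfulSMul_iff_algebraMap_injective _ _).mpr hinj
  have hnoeth : IsNoetherianRing R := Algebra.FiniteType.isNoetherianRing K R
  set p : Ideal (MvPolynomial (Fin d) K) := 𝔫.under (MvPolynomial (Fin d) K) with hp
  have hpmax : p.IsMaximal := Ideal.isMaximal_comap_of_isIntegral_of_isMaximal 𝔫
  have hlies : 𝔫.LiesOver p := ⟨rfl⟩
  have h1 := Ideal.height_eq_height_add_of_liesOver_of_hasGoingDown p 𝔫
  have hmin : 𝔫 ∈ (p.map (algebraMap (MvPolynomial (Fin d) K) R)).minimalPrimes :=
    Ideal.IsIntegral.mem_minimalPrimes_map_under 𝔫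
  have h2 : (𝔫.map (Ideal.Quotient.mk (p.map (algebraMap (MvPolynomial (Fin d) K) R)))).height
      = 0 := by
    have hle : p.map (algebraMap (MvPolynomial (Fin d) K) R) ≤ 𝔫 := hmin.1.2
    have hprime : (𝔫.map (Ideal.Quotient.mk
        (p.map (algebraMap (MvPolynomial (Fin d) K) R)))).IsPrime :=
      Ideal.map_isPrime_of_surjective Ideal.Quotient.mk_surjective (by rwa [Ideal.mk_ker])
    rw [Ideal.height_eq_zero_iff]
    refine ⟨⟨hprime, bot_le⟩, ?_⟩
    rintro Q ⟨hQ, -⟩ hQle
    -- pull back to `R`
    have hQ' : (Q.comap (Ideal.Quotient.mk (p.map (algebraMap (MvPolynomial (Fin d) K) R)))).IsPrime :=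
      Ideal.comap_isPrime _ _
    have hle1 : p.map (algebraMap (MvPolynomial (Fin d) K) R) ≤
        Q.comap (Ideal.Quotient.mk (p.map (algebraMap (MvPolynomial (Fin d) K) R))) := by
      intro x hx
      rw [Ideal.mem_comap, Ideal.Quotient.eq_zero_iff_mem.mpr hx]
      exact Q.zero_mem
    have hle2 : Q.comap (Ideal.Quotient.mk (p.map (algebraMap (MvPolynomial (Fin d) K) R))) ≤ 𝔫 := by
      have := Ideal.comap_mono (f := Ideal.Quotient.mk
        (p.map (algebraMap (MvPolynomial (Fin d) K) R))) hQle
      rwa [Ideal.comap_map_of_surjective _ Ideal.Quotient.mk_surjective, ← RingHom.ker_eq_comap_bot,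
        Ideal.mk_ker, sup_eq_left.mpr hle] at this
    have h3 := hmin.2 ⟨hQ', hle1⟩ hle2
    have := Ideal.map_mono (f := Ideal.Quotient.mk
      (p.map (algebraMap (MvPolynomial (Fin d) K) R))) h3
    rwa [Ideal.map_comap_of_surjective _ Ideal.Quotient.mk_surjective] at this
  rw [h1, h2, add_zero]
  exact height_eq_of_isMaximal_mvPolynomial K d p

variable (L : Type*) [Field L] [Algebra K L] [Algebra R L] [IsScalarTower K R L]
  [IsFractionRing R L]

/-- **Equidimensionality.** For a finitely generated `K`-domain `R` with fraction field `L`, every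
maximal ideal of `R` has height `trdeg K L`. -/
theorem exists_height_eq_trdeg :
    ∃ d : ℕ, Algebra.trdeg K L = d ∧ ∀ 𝔫 : Ideal R, 𝔫.IsMaximal → 𝔫.height = d := by
  obtain ⟨d, g, hinj, hint, hd⟩ := exists_height_eq_card_noether K R
  refine ⟨d, ?_, hd⟩
  -- the images of the variables form a transcendence basis of `L`
  let x : Fin d → L := fun i => algebraMap R L (g (MvPolynomial.X i))
  have hRL : Function.Injective (algebraMap R L) := IsFractionRing.injective R L
  have hx : AlgebraicIndependent K x := by
    have h1 : AlgebraicIndependent K (fun i : Fin d => g (MvPolynomial.X i)) := by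
      rw [algebraicIndependent_iff_injective_aeval]
      have : (MvPolynomial.aeval fun i : Fin d => g (MvPolynomial.X i)) = g := by
        apply MvPolynomial.algHom_ext
        intro i
        simp
      rw [this]
      exact hinj
    have h2 := h1.map' (f := IsScalarTower.toAlgHom K R L) hRL
    exact h2
  have halg : Algebra.IsAlgebraic (Algebra.adjoin K (Set.range x)) L := by
    -- `R` is integral over `K[g X_i]`, `L` is algebraic over `R`
    constructor
    intro z
    obtain ⟨a, b, hb, rfl⟩ := IsFractionRing.div_surjective (A := R) z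
    have key : ∀ r : R, IsAlgebraic (Algebra.adjoin K (Set.range x)) (algebraMap R L r) := by
      intro r
      have hr : g.toRingHom.IsIntegralElem r := hint r
      obtain ⟨q, hq, hqr⟩ := hr
      -- transport the monic polynomial
      let φ : MvPolynomial (Fin d) K →ₐ[K] Algebra.adjoin K (Set.range x) :=
        MvPolynomial.aeval fun i => ⟨x i, Algebra.subset_adjoin ⟨i, rfl⟩⟩
      have hφ : ∀ m : MvPolynomial (Fin d) K,
          ((φ m : Algebra.adjoin K (Set.range x)) : L) = algebraMap R L (g m) := by
        intro m
        induction m using MvPolynomial.induction_on with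
        | C a =>
          simp only [MvPolynomial.algHom_C, φ]
          rw [← IsScalarTower.algebraMap_apply K R L]
          rfl
        | add p q hp hq => simp only [map_add, Subalgebra.coe_add, hp, hq]
        | mul_X p i hp =>
          simp only [map_mul, Subalgebra.coe_mul, hp]
          congr 1
          simp [φ, x]
      refine ⟨q.map φ.toRingHom, ?_, ?_⟩
      · exact (hq.map _).ne_zero
      · rw [Polynomial.aeval_def, Polynomial.eval₂_map]
        have hcomp : (algebraMap (Algebra.adjoin K (Set.range x)) L).comp φ.toRingHom =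
            (algebraMap R L).comp g.toRingHom := by
          ext m
          · simp only [RingHom.coe_comp, Function.comp_apply, AlgHom.toRingHom_eq_coe,
              RingHom.coe_coe]
            exact hφ (MvPolynomial.C m)
          · simp only [RingHom.coe_comp, Function.comp_apply, AlgHom.toRingHom_eq_coe,
              RingHom.coe_coe]
            exact hφ (MvPolynomial.X _)
        rw [hcomp, ← Polynomial.hom_eval₂, hqr, map_zero]
    have hb0 : algebraMap R L b ≠ 0 := by
      intro h
      exact nonZeroDivisors.ne_zero hb (hRL (by rw [h, map_zero]))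
    rw [div_eq_mul_inv]
    exact (key a).mul ((key b).inv)
  have hbasis : IsTranscendenceBasis K x :=
    (hx.isTranscendenceBasis_iff_isAlgebraic).mpr halg
  have h3 := hbasis.lift_cardinalMk_eq_trdeg
  simp only [Cardinal.mk_fin, Cardinal.lift_natCast, Cardinal.lift_id'] at h3
  exact h3.symm

/-- If one maximal ideal has height one, the transcendence degree is one. -/
theorem trdeg_eq_one_of_height_eq_one (𝔪 : Ideal R) [𝔪.IsMaximal] (h : 𝔪.height = 1) :
    Algebra.trdeg K L = 1 := by
  obtain ⟨d, hd, hall⟩ := exists_height_eq_trdeg K R L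
  have h1 := hall 𝔪 inferInstance
  rw [h] at h1
  have : d = 1 := by exact_mod_cast h1.symm
  rw [hd, this]
  simp

/-- A finitely generated domain over a field whose fraction field has transcendence degree one has
all nonzero primes maximal. -/
theorem dimensionLEOne_of_trdeg_eq_one (h : Algebra.trdeg K L = 1) : Ring.DimensionLEOne R := by
  obtain ⟨d, hd, hall⟩ := exists_height_eq_trdeg K R L
  have hd1 : d = 1 := by
    rw [h] at hd
    exact_mod_cast hd.symm
  subst hd1
  refine ⟨fun {Q} hQ0 hQ => ?_⟩
  obtain ⟨𝔫, h𝔫, hQ𝔫⟩ := Ideal.exists_le_maximal Q hQ.ne_top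
  have h1 : 𝔫.height = 1 := by simpa using hall 𝔫 h𝔫
  by_contra hne
  have hlt : Q < 𝔫 := lt_of_le_of_ne hQ𝔫 (fun heq => hne (heq ▸ h𝔫))
  have h2 := Ideal.height_add_one_le_of_lt_of_isPrime hlt
  rw [h1] at h2
  have h3 : Q.height = 0 := by
    have hlt1 : Q.height < 1 := (ENat.add_one_le_iff' (by simp)).mp h2
    exact Order.lt_one_iff.mp hlt1
  exact hQ0 (Ideal.height_eq_zero_iff_eq_bot.mp h3)

end Domain

/-- **DIM1.** A finitely generated domain over a field with one maximal ideal of height one has
all nonzero primes maximal. -/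
theorem dimensionLEOne_of_height_eq_one (K : Type*) [Field K] (R : Type*) [CommRing R]
    [IsDomain R] [Algebra K R] [Algebra.FiniteType K R] (𝔪 : Ideal R) [𝔪.IsMaximal]
    (h : 𝔪.height = 1) : Ring.DimensionLEOne R :=
  dimensionLEOne_of_trdeg_eq_one K R (FractionRing R)
    (trdeg_eq_one_of_height_eq_one K R (FractionRing R) 𝔪 h)

end Fermat.Agent.JAC.Curves.DimOne64
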