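/-
JAC / S26 track, chapter CURVES (helper64), brick ALG-2: the affine coordinate curves.

`B` a finitely generated formally smooth `K`-algebra, `𝔪` a `K`-rational maximal ideal,
`S = B_𝔪` (any localisation of `B` at `𝔪`, e.g. a stalk), `t` coordinates of `S`.  `curvePrime 𝔪 t i₀ ⊂ B` is the contraction of the local
coordinate ideal `(t_j : j ≠ i₀)`: a prime of `B` contained in `𝔪`, different from `𝔪`, such that
`B ⧸ P` is one-dimensional and `(B ⧸ P)_𝔪` is a discrete valuation ring.
-/
import Mathlib
import Fermat.Agent.JAC.Curves.LocalCurveSmooth64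
import Fermat.Agent.JAC.Curves.DimOne64

set_option autoImplicit false
set_option linter.unusedSectionVars false
set_option linter.style.haveILetI false

namespace Fermat.Agent.JAC.Curves.AffineCurve64

open IsLocalRing
open Fermat.Agent.JAC.Curves.LocalCurveSmooth64 Fermat.Agent.JAC.Curves.DimOne64
open Fermat.Agent.JAC.Div1.SmoothCompletionParam31

section General

variable {B : Type*} [CommRing B] (𝔪 : Ideal B) [𝔪.IsPrime]
  {S : Type*} [CommRing S] [Algebra B S] [IsLocalization.AtPrime S 𝔪] [IsLocalRing S]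
  (I : Ideal S) [hI : I.IsPrime]

/-- The contraction to `B` of an ideal of a `B`-algebra. -/
abbrev contraction (B : Type*) [CommRing B] {S : Type*} [CommRing S] [Algebra B S]
    (I : Ideal S) : Ideal B := I.comap (algebraMap B S)

instance : (contraction B I).IsPrime := Ideal.comap_isPrime _ _

include 𝔪 in
theorem contraction_le : contraction B I ≤ 𝔪 := by
  have h1 : I ≤ maximalIdeal S := le_maximalIdeal hI.ne_top
  have h2 := Ideal.comap_mono (f := algebraMap B S) h1
  have h3 : (maximalIdeal S).comap (algebraMap B S) = 𝔪 :=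
    IsLocalization.AtPrime.under_maximalIdeal S 𝔪 inferInstance
  exact h2.trans_eq h3

include 𝔪 in
theorem map_contraction : (contraction B I).map (algebraMap B S) = I :=
  IsLocalization.map_under 𝔪.primeCompl S I

theorem contraction_ne (hne : I ≠ maximalIdeal S) : contraction B I ≠ 𝔪 := by
  intro h
  apply hne
  rw [← map_contraction 𝔪 I, h]
  exact IsLocalization.AtPrime.map_eq_maximalIdeal 𝔪 S

theorem isPrime_map_mk : (𝔪.map (Ideal.Quotient.mk (contraction B I))).IsPrime :=
  Ideal.map_isPrime_of_surjective Ideal.Quotient.mk_surjective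
    (by rw [Ideal.mk_ker]; exact contraction_le 𝔪 I)

theorem comap_map_mk :
    (𝔪.map (Ideal.Quotient.mk (contraction B I))).comap (Ideal.Quotient.mk (contraction B I))
      = 𝔪 := by
  rw [Ideal.comap_map_of_surjective _ Ideal.Quotient.mk_surjective, ← RingHom.ker_eq_comap_bot,
    Ideal.mk_ker, sup_eq_left.mpr (contraction_le 𝔪 I)]

theorem algebraMapSubmonoid_eq :
    haveI := isPrime_map_mk 𝔪 I
    Algebra.algebraMapSubmonoid (B ⧸ contraction B I) 𝔪.primeCompl =
      (𝔪.map (Ideal.Quotient.mk (contraction B I))).primeCompl := by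
  ext y
  constructor
  · rintro ⟨x, hx, rfl⟩
    intro hmem
    apply hx
    have : x ∈ (𝔪.map (Ideal.Quotient.mk (contraction B I))).comap
        (Ideal.Quotient.mk (contraction B I)) := hmem
    rwa [comap_map_mk] at this
  · intro hy
    obtain ⟨x, rfl⟩ := Ideal.Quotient.mk_surjective y
    refine ⟨x, ?_, rfl⟩
    intro hx
    exact hy (Ideal.mem_map_of_mem _ hx)

/-- `S ⧸ P S` is the localisation of `B ⧸ P` at `𝔪 ⧸ P`. -/
theorem isLocalization_quotient :
    haveI := isPrime_map_mk 𝔪 I
    IsLocalization.AtPrime (S ⧸ (contraction B I).map (algebraMap B S))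
      (𝔪.map (Ideal.Quotient.mk (contraction B I))) := by
  haveI := isPrime_map_mk 𝔪 I
  unfold IsLocalization.AtPrime
  rw [← algebraMapSubmonoid_eq]
  infer_instance

/-- The ring isomorphism `(B ⧸ P)_{𝔪 ⧸ P} ≃ S ⧸ I`. -/
noncomputable def localizationQuotientEquiv :
    haveI := isPrime_map_mk 𝔪 I
    Localization.AtPrime (𝔪.map (Ideal.Quotient.mk (contraction B I))) ≃+* S ⧸ I :=
  haveI := isPrime_map_mk 𝔪 I
  haveI := isLocalization_quotient 𝔪 I
  ((IsLocalization.algEquiv (𝔪.map (Ideal.Quotient.mk (contraction B I))).primeCompl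
    (Localization.AtPrime (𝔪.map (Ideal.Quotient.mk (contraction B I))))
    (S ⧸ (contraction B I).map (algebraMap B S))).toRingEquiv).trans
    (Ideal.quotEquivOfEq (map_contraction 𝔪 I))

/-- If `S ⧸ I` is a discrete valuation ring, so is `(B ⧸ P)_{𝔪 ⧸ P}`. -/
theorem isDiscreteValuationRing_localization
    (h : haveI : IsDomain (S ⧸ I) := Ideal.Quotient.isDomain I
      IsDiscreteValuationRing (S ⧸ I)) :
    haveI := isPrime_map_mk 𝔪 I
    IsDiscreteValuationRing
      (Localization.AtPrime (𝔪.map (Ideal.Quotient.mk (contraction B I)))) := by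
  haveI := isPrime_map_mk 𝔪 I
  haveI : IsDomain (S ⧸ I) := Ideal.Quotient.isDomain I
  haveI := h
  exact IsDiscreteValuationRing.RingEquivClass.isDiscreteValuationRing
    (localizationQuotientEquiv 𝔪 I).symm

end General

/-- The local ring of a finitely generated algebra over a field is noetherian. -/
theorem isNoetherianRing_localization (K : Type*) {B : Type*} [Field K] [CommRing B] [Algebra K B]
    [Algebra.FiniteType K B] (𝔪 : Ideal B) [𝔪.IsPrime] (S : Type*) [CommRing S] [Algebra B S]
    [IsLocalization.AtPrime S 𝔪] : IsNoetherianRing S :=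
  haveI : IsNoetherianRing B := Algebra.FiniteType.isNoetherianRing K B
  IsLocalization.isNoetherianRing 𝔪.primeCompl S inferInstance

section Smooth

variable {K B : Type*} [Field K] [CommRing B] [Algebra K B] [Algebra.FiniteType K B]
  (𝔪 : Ideal B) [h𝔪 : 𝔪.IsMaximal]
  {S : Type*} [CommRing S] [Algebra B S] [IsLocalization.AtPrime S 𝔪] [IsLocalRing S]
  [IsNoetherianRing S] [Algebra K S] [IsScalarTower K B S] [Algebra.FormallySmooth K S]
  (hres : Function.Surjective (algebraMap K (ResidueField S)))
  {n : ℕ} (t : Fin n → maximalIdeal S)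
  (hli : LinearIndependent (ResidueField S) fun i => (maximalIdeal S).toCotangent (t i))
  (hsp : ⊤ ≤ Submodule.span (ResidueField S)
    (Set.range fun i => (maximalIdeal S).toCotangent (t i)))
  (i₀ : Fin n)

/-- The prime of `B` cutting out the `i₀`-th coordinate curve through `𝔪`. -/
noncomputable abbrev curvePrime (B : Type*) [CommRing B] {S : Type*} [CommRing S] [Algebra B S]
    [IsLocalRing S] {n : ℕ} (t : Fin n → maximalIdeal S) (i₀ : Fin n) : Ideal B :=
  (coordIdeal t i₀).comap (algebraMap B S)

include hres hli hsp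

/-- **ALG-2 (a).** The curve prime is prime. -/
theorem isPrime_curvePrime : (curvePrime B t i₀).IsPrime := by
  haveI := isPrime_coordIdeal hres t hli hsp i₀
  exact Ideal.comap_isPrime _ _

/-- **ALG-2 (b).** The curve prime is contained in `𝔪`. -/
theorem curvePrime_le : curvePrime B t i₀ ≤ 𝔪 := by
  haveI := isPrime_coordIdeal hres t hli hsp i₀
  exact contraction_le 𝔪 (coordIdeal t i₀)

include 𝔪 in
/-- The curve prime generates the local coordinate ideal. -/
theorem map_curvePrime : (curvePrime B t i₀).map (algebraMap B S) = coordIdeal t i₀ :=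
  IsLocalization.map_under 𝔪.primeCompl S _

/-- **ALG-2 (c).** The curve prime is not `𝔪`. -/
theorem curvePrime_ne : curvePrime B t i₀ ≠ 𝔪 := by
  haveI := isPrime_coordIdeal hres t hli hsp i₀
  apply contraction_ne 𝔪 (coordIdeal t i₀)
  intro h
  have h1 := pow_notMem_coordIdeal hres t hli hsp i₀ 1
  rw [pow_one, h] at h1
  exact h1 (t i₀).2

/-- The image of `𝔪` in `B ⧸ P` is prime. -/
theorem isPrime_map_mk_curvePrime :
    (𝔪.map (Ideal.Quotient.mk (curvePrime B t i₀))).IsPrime := by
  haveI := isPrime_coordIdeal hres t hli hsp i₀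
  exact isPrime_map_mk 𝔪 (coordIdeal t i₀)

/-- **ALG-2 (d).** `(B ⧸ P)_{𝔪 ⧸ P}` is a discrete valuation ring. -/
theorem isDiscreteValuationRing_localization_curvePrime :
    haveI := isPrime_curvePrime hres t hli hsp i₀ (B := B)
    haveI := isPrime_map_mk_curvePrime 𝔪 hres t hli hsp i₀
    IsDiscreteValuationRing
      (Localization.AtPrime (𝔪.map (Ideal.Quotient.mk (curvePrime B t i₀)))) := by
  haveI := isPrime_coordIdeal hres t hli hsp i₀
  exact isDiscreteValuationRing_localization 𝔪 (coordIdeal t i₀)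
    (isDiscreteValuationRing_quotient_coordIdeal hres t hli hsp i₀)

/-- The image of `𝔪` in `B ⧸ P` is maximal. -/
theorem isMaximal_map_mk_curvePrime :
    (𝔪.map (Ideal.Quotient.mk (curvePrime B t i₀))).IsMaximal := by
  refine Ideal.IsMaximal.map_of_surjective_of_ker_le Ideal.Quotient.mk_surjective ?_
  rw [Ideal.mk_ker]
  exact curvePrime_le 𝔪 hres t hli hsp i₀

/-- The image of `𝔪` in `B ⧸ P` has height one. -/
theorem height_map_mk_curvePrime :
    (𝔪.map (Ideal.Quotient.mk (curvePrime B t i₀))).height = 1 := by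
  haveI := isPrime_coordIdeal hres t hli hsp i₀
  haveI := isPrime_curvePrime hres t hli hsp i₀ (B := B)
  haveI := isPrime_map_mk_curvePrime 𝔪 hres t hli hsp i₀
  have hdvr := isDiscreteValuationRing_localization_curvePrime 𝔪 hres t hli hsp i₀
  set 𝔪' : Ideal (B ⧸ curvePrime B t i₀) :=
    𝔪.map (Ideal.Quotient.mk (curvePrime B t i₀)) with h𝔪'
  have h1 := IsLocalization.AtPrime.ringKrullDim_eq_height 𝔪' (Localization.AtPrime 𝔪')
  have h2 : ringKrullDim (Localization.AtPrime 𝔪') = 1 :=
    IsDiscreteValuationRing.ringKrullDim_eq_one _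
  rw [h2] at h1
  exact_mod_cast h1.symm

include 𝔪 in
/-- **ALG-2 (e).** `B ⧸ P` is one-dimensional: every nonzero prime is maximal. -/
theorem dimensionLEOne_quotient_curvePrime :
    haveI := isPrime_curvePrime hres t hli hsp i₀ (B := B)
    Ring.DimensionLEOne (B ⧸ curvePrime B t i₀) := by
  haveI := isPrime_curvePrime hres t hli hsp i₀ (B := B)
  haveI := isMaximal_map_mk_curvePrime 𝔪 hres t hli hsp i₀
  exact dimensionLEOne_of_height_eq_one K (B ⧸ curvePrime B t i₀) _
    (height_map_mk_curvePrime 𝔪 hres t hli hsp i₀)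

include 𝔪 in
/-- The fraction field of `B ⧸ P` has transcendence degree one over `K`. -/
theorem trdeg_eq_one_curvePrime (L : Type*) [Field L] [Algebra K L]
    [Algebra (B ⧸ curvePrime B t i₀) L] [IsScalarTower K (B ⧸ curvePrime B t i₀) L]
    (hfrac : haveI := isPrime_curvePrime hres t hli hsp i₀ (B := B)
      IsFractionRing (B ⧸ curvePrime B t i₀) L) :
    Algebra.trdeg K L = 1 := by
  haveI := isPrime_curvePrime hres t hli hsp i₀ (B := B)
  haveI := isMaximal_map_mk_curvePrime 𝔪 hres t hli hsp i₀
  haveI := hfrac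
  exact trdeg_eq_one_of_height_eq_one K (B ⧸ curvePrime B t i₀) L _
    (height_map_mk_curvePrime 𝔪 hres t hli hsp i₀)

include 𝔪 in
/-- **ALG-2 (e').** Every prime of `B` strictly containing the curve prime is maximal. -/
theorem isMaximal_of_curvePrime_lt (Q : Ideal B) [hQ : Q.IsPrime]
    (hlt : curvePrime B t i₀ < Q) : Q.IsMaximal := by
  haveI := isPrime_curvePrime hres t hli hsp i₀ (B := B)
  have hdim := dimensionLEOne_quotient_curvePrime 𝔪 hres t hli hsp i₀
  set P := curvePrime B t i₀ with hP
  have hQ' : (Q.map (Ideal.Quotient.mk P)).IsPrime :=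
    Ideal.map_isPrime_of_surjective Ideal.Quotient.mk_surjective
      (by rw [Ideal.mk_ker]; exact hlt.le)
  have hcomap : (Q.map (Ideal.Quotient.mk P)).comap (Ideal.Quotient.mk P) = Q := by
    rw [Ideal.comap_map_of_surjective _ Ideal.Quotient.mk_surjective, ← RingHom.ker_eq_comap_bot,
      Ideal.mk_ker, sup_eq_left.mpr hlt.le]
  have hne : Q.map (Ideal.Quotient.mk P) ≠ ⊥ := by
    intro h
    have h2 : Q ≤ P := by
      rw [← hcomap, h, ← RingHom.ker_eq_comap_bot, Ideal.mk_ker]
    exact absurd hlt (not_lt_of_ge h2)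
  have hmax := hdim.maximalOfPrime hne hQ'
  rw [← hcomap]
  exact Ideal.comap_isMaximal_of_surjective _ Ideal.Quotient.mk_surjective

end Smooth

end Fermat.Agent.JAC.Curves.AffineCurve64
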