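/-
JAC / S26 track, chapter CURVES (helper64), brick ALG-6: cotangent independence along the axes.

`φ : O → O'` a `K`-algebra map of local rings, `t` a family in `𝔪_O` linearly independent in the
cotangent space, and for every index `i` a local homomorphism `β i : O' → R i` ("restriction to the
`i`-th axis") such that `β i ∘ φ` is surjective, kills `t j` for `j ≠ i`, and has kernel inside
`(t j : j ≠ i) + 𝔪²`.  Then the `φ (t i)` are linearly independent in the cotangent space of `O'`.
-/
import Mathlib

set_option autoImplicit false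
set_option linter.unusedSectionVars false

namespace Fermat.Agent.JAC.Curves.CotIndep64

open IsLocalRing

section Span

variable {O : Type*} [CommRing O] [IsLocalRing O] {n : ℕ} (t : Fin n → maximalIdeal O)

/-- If `t i ∈ (t j : j ≠ i) + 𝔪²` then the class of `t i` in the cotangent space lies in the span
of the other classes. -/
theorem toCotangent_mem_span_of_mem_sup (i : Fin n)
    (h : (t i : O) ∈ Ideal.span ((fun j => (t j : O)) '' {j | j ≠ i}) ⊔ maximalIdeal O ^ 2) :
    (maximalIdeal O).toCotangent (t i) ∈ Submodule.span (ResidueField O)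
      ((fun j => (maximalIdeal O).toCotangent (t j)) '' {j | j ≠ i}) := by
  classical
  obtain ⟨x, hx, z, hz, hxz⟩ := Submodule.mem_sup.mp h
  rw [Set.image_eq_range] at hx
  obtain ⟨b, hb⟩ := (Ideal.mem_span_range_iff_exists_fun).mp hx
  -- the combination inside `𝔪`
  have hzmem : z ∈ maximalIdeal O := Ideal.pow_le_self two_ne_zero hz
  have heq : t i = ∑ j : {j : Fin n // j ∈ {j | j ≠ i}}, b j • t j.1 + ⟨z, hzmem⟩ := by
    apply Subtype.ext
    rw [Submodule.coe_add, Submodule.coe_sum, ← hxz, ← hb]
    simp only [Submodule.coe_smul_of_tower, smul_eq_mul]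
  rw [heq, map_add, map_sum]
  have hz0 : (maximalIdeal O).toCotangent ⟨z, hzmem⟩ = 0 := by
    rw [Ideal.toCotangent_eq_zero]
    exact hz
  rw [hz0, add_zero]
  refine Submodule.sum_mem _ fun j _ => ?_
  rw [map_smul, ← algebraMap_smul (ResidueField O) (b j)]
  exact Submodule.smul_mem _ _ (Submodule.subset_span ⟨j.1, j.2, rfl⟩)

end Span

variable {K O O' : Type*} [Field K] [CommRing O] [CommRing O'] [Algebra K O] [Algebra K O']
  [IsLocalRing O] [IsLocalRing O']
  (hres' : Function.Surjective (algebraMap K (ResidueField O')))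
  (φ : O →ₐ[K] O') {n : ℕ} (t : Fin n → maximalIdeal O)
  (hli : LinearIndependent (ResidueField O) fun i => (maximalIdeal O).toCotangent (t i))
  (s : Fin n → maximalIdeal O') (hs : ∀ i, (s i : O') = φ (t i))
  {R : Fin n → Type*} [∀ i, CommRing (R i)] [∀ i, IsLocalRing (R i)]
  (β : ∀ i, O' →+* R i) [hloc : ∀ i, IsLocalHom (β i)]
  (hsurj : ∀ i, Function.Surjective ((β i).comp (φ : O →+* O')))
  (hker : ∀ i, RingHom.ker ((β i).comp (φ : O →+* O')) ≤
    Ideal.span ((fun j => (t j : O)) '' {j | j ≠ i}) ⊔ maximalIdeal O ^ 2)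
  (hzero : ∀ i j, j ≠ i → β i (φ (t j)) = 0)

include hres' hli hs hsurj hker hzero in
/-- **ALG-6.** Cotangent independence along the axes. -/
theorem linearIndependent_map_coords :
    LinearIndependent (ResidueField O') fun i => (maximalIdeal O').toCotangent (s i) := by
  classical
  rw [Fintype.linearIndependent_iff]
  intro c hc i
  by_contra hci
  -- lift the coefficients to `K`
  choose a ha using fun k => hres' (c k)
  have hai : a i ≠ 0 := by
    intro h0
    apply hci
    rw [← ha i, h0, map_zero]
  -- the combination lies in `𝔪'²`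
  have hm : ∑ k, algebraMap K O' (a k) * (s k : O') ∈ maximalIdeal O' ^ 2 := by
    have h3 : (maximalIdeal O').toCotangent (∑ k, algebraMap K O' (a k) • s k) = 0 := by
      rw [map_sum, ← hc]
      refine Finset.sum_congr rfl fun k _ => ?_
      rw [map_smul, ← ha k, IsScalarTower.algebraMap_apply K O' (ResidueField O')]
      exact (algebraMap_smul (ResidueField O') (algebraMap K O' (a k)) _).symm
    rw [Ideal.toCotangent_eq_zero] at h3
    convert h3 using 1
    simp [Algebra.smul_def]
  -- restrict to the `i`-th axis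
  set α : O →+* R i := (β i).comp (φ : O →+* O') with hα
  have hβm : β i (∑ k, algebraMap K O' (a k) * (s k : O')) =
      α (algebraMap K O (a i) * (t i : O)) := by
    rw [map_sum, Finset.sum_eq_single i]
    · have h0 : φ (algebraMap K O (a i) * (t i : O)) = algebraMap K O' (a i) * φ (t i) := by
        rw [map_mul, φ.commutes]
      rw [hs i, hα, RingHom.comp_apply, RingHom.coe_coe, h0]
    · intro k _ hki
      rw [map_mul, hs k, hzero i k hki, mul_zero]
    · intro h
      exact absurd (Finset.mem_univ i) h
  have hmapm : (maximalIdeal O').map (β i) ≤ maximalIdeal (R i) := map_maximalIdeal_le (β i)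
  have h1 : β i (∑ k, algebraMap K O' (a k) * (s k : O')) ∈ maximalIdeal (R i) ^ 2 := by
    have := Ideal.mem_map_of_mem (β i) hm
    rw [Ideal.map_pow] at this
    exact Ideal.pow_right_mono hmapm 2 this
  have hmapα : (maximalIdeal O).map α = maximalIdeal (R i) :=
    IsLocalRing.map_maximalIdeal_of_surjective α (hsurj i)
  rw [hβm, ← hmapα, ← Ideal.map_pow] at h1
  obtain ⟨y, hy, hyα⟩ := (Ideal.mem_map_iff_of_surjective α (hsurj i)).mp h1
  have hkermem : algebraMap K O (a i) * (t i : O) - y ∈ RingHom.ker α := by
    rw [RingHom.mem_ker, map_sub, hyα, sub_self]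
  have h2 : algebraMap K O (a i) * (t i : O) ∈
      Ideal.span ((fun j => (t j : O)) '' {j | j ≠ i}) ⊔ maximalIdeal O ^ 2 := by
    have h3 := hker i hkermem
    have h4 : y ∈ Ideal.span ((fun j => (t j : O)) '' {j | j ≠ i}) ⊔ maximalIdeal O ^ 2 :=
      Ideal.mem_sup_right hy
    have := Ideal.add_mem _ h3 h4
    rwa [sub_add_cancel] at this
  have hunit : IsUnit (algebraMap K O (a i)) := (isUnit_iff_ne_zero.mpr hai).map _
  have h5 : (t i : O) ∈ Ideal.span ((fun j => (t j : O)) '' {j | j ≠ i}) ⊔ maximalIdeal O ^ 2 := by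
    have := Ideal.mul_mem_left _ (↑hunit.unit⁻¹ : O) h2
    rwa [← mul_assoc, IsUnit.val_inv_mul, one_mul] at this
  have h6 := toCotangent_mem_span_of_mem_sup t i h5
  exact hli.notMem_span_image (s := {j | j ≠ i}) (by simp) h6

end Fermat.Agent.JAC.Curves.CotIndep64
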