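/-
JAC / S26 track, chapter CURVES (helper64): a noetherian local ring whose maximal ideal is
generated by a non-nilpotent element is a discrete valuation ring.
-/
import Mathlib

set_option autoImplicit false

namespace Fermat.Agent.JAC.Curves.PrincipalDVR64

open IsLocalRing

variable {D : Type*} [CommRing D] [IsNoetherianRing D] [IsLocalRing D]

/-- In a noetherian local ring with `𝔪 = (t)`, every nonzero element is `t ^ k * unit`. -/
lemma exists_eq_pow_mul_unit {t : D} (ht : maximalIdeal D = Ideal.span {t}) {x : D} (hx : x ≠ 0) :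
    ∃ (k : ℕ) (u : Dˣ), x = t ^ k * u := by
  -- Krull intersection: `x ∉ 𝔪 ^ k` for some `k`
  have hK : ⨅ i, (maximalIdeal D) ^ i = ⊥ :=
    Ideal.iInf_pow_eq_bot_of_isLocalRing _ (Ideal.IsPrime.ne_top inferInstance)
  have hex : ∃ k, x ∉ (maximalIdeal D) ^ k := by
    by_contra h
    push Not at h
    apply hx
    have : x ∈ ⨅ i, (maximalIdeal D) ^ i := by
      rw [Ideal.mem_iInf]; exact h
    rw [hK] at this
    exact this
  -- minimal such `k`, necessarily positive
  classical
  set k := Nat.find hex with hk
  have hk_spec : x ∉ (maximalIdeal D) ^ k := Nat.find_spec hex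
  have hk_pos : k ≠ 0 := by
    intro h0
    rw [h0, pow_zero, Ideal.one_eq_top] at hk_spec
    exact hk_spec trivial
  obtain ⟨j, hj⟩ := Nat.exists_eq_succ_of_ne_zero hk_pos
  have hj_mem : x ∈ (maximalIdeal D) ^ j := by
    by_contra h
    have := Nat.find_min' hex h
    omega
  rw [ht, Ideal.span_singleton_pow, Ideal.mem_span_singleton] at hj_mem
  obtain ⟨y, rfl⟩ := hj_mem
  have hy : IsUnit y := by
    by_contra hy
    apply hk_spec
    have hy' : y ∈ maximalIdeal D := (mem_maximalIdeal y).mpr hy
    rw [hj, pow_succ]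
    rw [ht] at hy' ⊢
    rw [Ideal.span_singleton_pow]
    exact Ideal.mul_mem_mul (Ideal.mem_span_singleton_self _) hy'
  exact ⟨j, hy.unit, rfl⟩

/-- A noetherian local ring whose maximal ideal is generated by a non-nilpotent element is a
domain. -/
theorem isDomain_of_maximalIdeal_eq_span {t : D} (ht : maximalIdeal D = Ideal.span {t})
    (hnil : ∀ k : ℕ, t ^ k ≠ 0) : IsDomain D := by
  have hnzd : NoZeroDivisors D := by
    refine ⟨?_⟩
    intro x y hxy
    by_contra hne
    push Not at hne
    obtain ⟨a, u, rfl⟩ := exists_eq_pow_mul_unit ht hne.1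
    obtain ⟨b, v, rfl⟩ := exists_eq_pow_mul_unit ht hne.2
    have : t ^ (a + b) * ((u * v : Dˣ) : D) = 0 := by
      rw [← hxy, pow_add, Units.val_mul]; ring
    exact hnil (a + b) ((Units.mul_left_eq_zero _).mp this)
  exact NoZeroDivisors.to_isDomain D

/-- A noetherian local ring whose maximal ideal is generated by a non-nilpotent element is a
discrete valuation ring. -/
theorem isDiscreteValuationRing_of_maximalIdeal_eq_span [IsDomain D] {t : D}
    (ht : maximalIdeal D = Ideal.span {t}) (ht0 : t ≠ 0) : IsDiscreteValuationRing D := by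
  apply IsDiscreteValuationRing.ofHasUnitMulPowIrreducibleFactorization
  have htm : t ∈ maximalIdeal D := by rw [ht]; exact Ideal.mem_span_singleton_self t
  have htnu : ¬ IsUnit t := (mem_maximalIdeal t).mp htm
  refine ⟨t, ⟨htnu, ?_⟩, ?_⟩
  · intro a b hab
    by_contra hboth
    push Not at hboth
    have ha : a ∈ maximalIdeal D := (mem_maximalIdeal a).mpr hboth.1
    have hb : b ∈ maximalIdeal D := (mem_maximalIdeal b).mpr hboth.2
    rw [ht, Ideal.mem_span_singleton] at ha hb
    obtain ⟨a', rfl⟩ := ha
    obtain ⟨b', rfl⟩ := hb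
    have h1 : t * (1 - t * (a' * b')) = 0 := by
      have : t * (1 - t * (a' * b')) = t - t * a' * (t * b') := by ring
      rw [this, ← hab, sub_self]
    rcases mul_eq_zero.mp h1 with h | h
    · exact ht0 h
    · have hu : IsUnit (1 - t * (a' * b')) := by
        by_contra hnu
        have hmem : 1 - t * (a' * b') ∈ maximalIdeal D := (mem_maximalIdeal _).mpr hnu
        have hmem2 : t * (a' * b') ∈ maximalIdeal D := Ideal.mul_mem_right _ _ htm
        have : (1 : D) ∈ maximalIdeal D := by
          have h2 := Ideal.add_mem _ hmem hmem2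
          rwa [sub_add_cancel] at h2
        exact (Ideal.ne_top_iff_one _).mp (Ideal.IsPrime.ne_top inferInstance) this
      rw [h] at hu
      exact not_isUnit_zero hu
  · intro x hx
    obtain ⟨k, u, rfl⟩ := exists_eq_pow_mul_unit ht hx
    exact ⟨k, u, rfl⟩

end Fermat.Agent.JAC.Curves.PrincipalDVR64
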