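/-
JAC / S26 track, chapter CURVES (helper64), brick CU1: local curves with prescribed tangent.

`C` a noetherian local ring whose completion is identified with `K⟦X_1,…,X_n⟧` in such a way
that `t_i ↦ X_i` for a family `t : Fin n → C`.  For every index `i₀` the quotient
`C ⧸ (t_j : j ≠ i₀)` is a discrete valuation ring with uniformiser the class of `t_{i₀}`.
-/
import Mathlib
import Fermat.Agent.JAC.DIV1.UFDPowerSeries64
import Fermat.Agent.JAC.Curves.PrincipalDVR64

set_option autoImplicit false

namespace Fermat.Agent.JAC.Curves.LocalCurve64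

open IsLocalRing MvPowerSeries
open Fermat.Agent.JAC.DIV1.UFDPowerSeries64 Fermat.Agent.JAC.Curves.PrincipalDVR64

section PowerSeriesSide

variable (K : Type*) [Field K] {n : ℕ} (i₀ : Fin n)

/-- The substitution `X_{i₀} ↦ X`, `X_j ↦ 0` (`j ≠ i₀`). -/
noncomputable def axisFam : Fin n → MvPowerSeries Unit K :=
  fun j => if j = i₀ then X () else 0

lemma hasSubst_axisFam : HasSubst (axisFam K i₀) := by
  apply hasSubst_of_constantCoeff_zero
  intro j
  unfold axisFam
  split_ifs <;> simp

/-- The `K`-algebra map `K⟦X_1,…,X_n⟧ → K⟦X⟧` restricting to the `i₀`-th axis. -/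
noncomputable def toAxisHom : MvPowerSeries (Fin n) K →ₐ[K] MvPowerSeries Unit K :=
  substAlgHom (hasSubst_axisFam K i₀)

lemma toAxisHom_X_self : toAxisHom K i₀ (X i₀) = X () := by
  rw [toAxisHom, substAlgHom_X (hasSubst_axisFam K i₀)]
  simp [axisFam]

lemma toAxisHom_X_of_ne {j : Fin n} (hj : j ≠ i₀) : toAxisHom K i₀ (X j) = 0 := by
  rw [toAxisHom, substAlgHom_X (hasSubst_axisFam K i₀)]
  simp [axisFam, hj]

/-- `X_{i₀} ^ k` does not lie in the ideal generated by the other variables. -/
theorem X_pow_notMem_span (k : ℕ) :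
    (X i₀ : MvPowerSeries (Fin n) K) ^ k ∉
      Ideal.span ((X : Fin n → MvPowerSeries (Fin n) K) '' {j | j ≠ i₀}) := by
  intro hmem
  have hker : Ideal.span ((X : Fin n → MvPowerSeries (Fin n) K) '' {j | j ≠ i₀}) ≤
      RingHom.ker (toAxisHom K i₀ : MvPowerSeries (Fin n) K →+* MvPowerSeries Unit K) := by
    rw [Ideal.span_le]
    rintro _ ⟨j, hj, rfl⟩
    rw [SetLike.mem_coe, RingHom.mem_ker]
    exact toAxisHom_X_of_ne K i₀ hj
  have h0 := hker hmem
  rw [RingHom.mem_ker, RingHom.coe_coe, map_pow, toAxisHom_X_self] at h0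
  have hX : (X () : MvPowerSeries Unit K) ≠ 0 := PowerSeries.X_ne_zero (R := K)
  have hpow : (X () : MvPowerSeries Unit K) ^ k ≠ 0 := by
    have : (PowerSeries.X : PowerSeries K) ^ k ≠ 0 := pow_ne_zero k (PowerSeries.X_ne_zero (R := K))
    exact this
  exact hpow h0

end PowerSeriesSide

variable {C : Type*} [CommRing C] [IsNoetherianRing C] [IsLocalRing C]
  {K : Type*} [Field K] {n : ℕ} (t : Fin n → C)
  (e : AdicCompletion (maximalIdeal C) C ≃+* MvPowerSeries (Fin n) K)
  (he : ∀ i, e (algebraMap C (AdicCompletion (maximalIdeal C) C) (t i)) = X i)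

include he in
/-- The parameters generate the maximal ideal. -/
theorem maximalIdeal_eq_span_range : maximalIdeal C = Ideal.span (Set.range t) := by
  have : Module.FaithfullyFlat C (AdicCompletion (maximalIdeal C) C) :=
    Module.FaithfullyFlat.of_flat_of_isLocalHom
  set φ := algebraMap C (AdicCompletion (maximalIdeal C) C) with hφ
  have h1 : Ideal.map (e : AdicCompletion (maximalIdeal C) C →+* MvPowerSeries (Fin n) K)
      (Ideal.map φ (maximalIdeal C)) =
      Ideal.map (e : AdicCompletion (maximalIdeal C) C →+* MvPowerSeries (Fin n) K)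
      (Ideal.map φ (Ideal.span (Set.range t))) := by
    rw [← AdicCompletion.maximalIdeal_eq_map]
    have hloc : Ideal.map (e : AdicCompletion (maximalIdeal C) C →+* MvPowerSeries (Fin n) K)
        (maximalIdeal (AdicCompletion (maximalIdeal C) C)) =
        maximalIdeal (MvPowerSeries (Fin n) K) :=
      IsLocalRing.map_maximalIdeal_of_surjective _ e.surjective
    rw [hloc, maximalIdeal_eq_span_range_X, Ideal.map_span, Ideal.map_span, ← Set.range_comp,
      ← Set.range_comp]
    congr 2
    funext i
    exact (he i).symm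
  have h2 : Ideal.map φ (maximalIdeal C) = Ideal.map φ (Ideal.span (Set.range t)) := by
    have h1' := congrArg (Ideal.comap
      (e : AdicCompletion (maximalIdeal C) C →+* MvPowerSeries (Fin n) K)) h1
    have hb : Function.Bijective
        (e : AdicCompletion (maximalIdeal C) C →+* MvPowerSeries (Fin n) K) := e.bijective
    rwa [Ideal.comap_map_of_bijective _ hb, Ideal.comap_map_of_bijective _ hb] at h1'
  have h3 := congrArg (Ideal.comap φ) h2
  rwa [Ideal.comap_map_eq_self_of_faithfullyFlat, Ideal.comap_map_eq_self_of_faithfullyFlat] at h3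

variable (i₀ : Fin n)

/-- The ideal cutting out the `i₀`-th local coordinate curve. -/
def curveIdeal : Ideal C := Ideal.span (t '' {j | j ≠ i₀})

include he in
lemma curveIdeal_le_maximalIdeal : curveIdeal t i₀ ≤ maximalIdeal C := by
  rw [maximalIdeal_eq_span_range t e he]
  exact Ideal.span_mono (Set.image_subset_range _ _)

omit [IsNoetherianRing C] in
include he in
/-- `t_{i₀} ^ k` does not lie in the curve ideal. -/
theorem pow_notMem_curveIdeal (k : ℕ) : t i₀ ^ k ∉ curveIdeal t i₀ := by
  intro hmem
  set φ := algebraMap C (AdicCompletion (maximalIdeal C) C) with hφ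
  have h1 : (e : AdicCompletion (maximalIdeal C) C →+* MvPowerSeries (Fin n) K) (φ (t i₀ ^ k)) ∈
      Ideal.map ((e : AdicCompletion (maximalIdeal C) C →+* MvPowerSeries (Fin n) K).comp φ)
        (curveIdeal t i₀) := by
    exact Ideal.mem_map_of_mem ((e : AdicCompletion (maximalIdeal C) C →+*
      MvPowerSeries (Fin n) K).comp φ) hmem
  rw [curveIdeal, Ideal.map_span, ← Set.image_comp] at h1
  have himg : ((((e : AdicCompletion (maximalIdeal C) C →+* MvPowerSeries (Fin n) K).comp φ) ∘ t) ''
      {j | j ≠ i₀}) = ((X : Fin n → MvPowerSeries (Fin n) K) '' {j | j ≠ i₀}) := by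
    apply Set.image_congr
    intro j _
    exact he j
  rw [himg, map_pow, map_pow] at h1
  have h2 : (e : AdicCompletion (maximalIdeal C) C →+* MvPowerSeries (Fin n) K) (φ (t i₀)) = X i₀ :=
    he i₀
  rw [h2] at h1
  exact X_pow_notMem_span K i₀ k h1

include he in
lemma curveIdeal_ne_top : curveIdeal t i₀ ≠ ⊤ := fun h =>
  (Ideal.IsPrime.ne_top (inferInstance : (maximalIdeal C).IsPrime))
    (top_le_iff.mp (h ▸ curveIdeal_le_maximalIdeal t e he i₀))

include he in
/-- The quotient by the curve ideal is local. -/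
theorem isLocalRing_quotient : IsLocalRing (C ⧸ curveIdeal t i₀) := by
  have : Nontrivial (C ⧸ curveIdeal t i₀) :=
    Ideal.Quotient.nontrivial_iff.mpr (curveIdeal_ne_top t e he i₀)
  exact IsLocalRing.of_surjective' (Ideal.Quotient.mk (curveIdeal t i₀))
    Ideal.Quotient.mk_surjective

include he in
/-- The maximal ideal of the quotient is generated by the class of `t_{i₀}`. -/
theorem maximalIdeal_quotient_eq :
    haveI := isLocalRing_quotient t e he i₀
    maximalIdeal (C ⧸ curveIdeal t i₀) =
      Ideal.span {Ideal.Quotient.mk (curveIdeal t i₀) (t i₀)} := by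
  have := isLocalRing_quotient t e he i₀
  rw [← IsLocalRing.map_maximalIdeal_of_surjective (Ideal.Quotient.mk (curveIdeal t i₀))
    Ideal.Quotient.mk_surjective, maximalIdeal_eq_span_range t e he, Ideal.map_span]
  apply le_antisymm
  · rw [Ideal.span_le]
    rintro _ ⟨_, ⟨j, rfl⟩, rfl⟩
    by_cases hj : j = i₀
    · subst hj
      exact Ideal.subset_span rfl
    · have : Ideal.Quotient.mk (curveIdeal t i₀) (t j) = 0 :=
        Ideal.Quotient.eq_zero_iff_mem.mpr (Ideal.subset_span ⟨j, hj, rfl⟩)
      rw [this]
      exact Ideal.zero_mem _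
  · rw [Ideal.span_le, Set.singleton_subset_iff]
    exact Ideal.subset_span ⟨t i₀, ⟨i₀, rfl⟩, rfl⟩

include he in
/-- **CU1.** The local coordinate curve `C ⧸ (t_j : j ≠ i₀)` is a domain. -/
theorem isDomain_quotient : IsDomain (C ⧸ curveIdeal t i₀) := by
  have := isLocalRing_quotient t e he i₀
  refine isDomain_of_maximalIdeal_eq_span (maximalIdeal_quotient_eq t e he i₀) (fun k => ?_)
  rw [← map_pow, Ne, Ideal.Quotient.eq_zero_iff_mem]
  exact pow_notMem_curveIdeal t e he i₀ k

include he in
/-- The curve ideal is prime. -/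
theorem isPrime_curveIdeal : (curveIdeal t i₀).IsPrime :=
  (Ideal.Quotient.isDomain_iff_prime _).mp (isDomain_quotient t e he i₀)

include he in
/-- **CU1.** The local coordinate curve is a discrete valuation ring with uniformiser `t_{i₀}`. -/
theorem isDiscreteValuationRing_quotient :
    haveI := isDomain_quotient t e he i₀
    IsDiscreteValuationRing (C ⧸ curveIdeal t i₀) := by
  have := isDomain_quotient t e he i₀
  have := isLocalRing_quotient t e he i₀
  refine isDiscreteValuationRing_of_maximalIdeal_eq_span (maximalIdeal_quotient_eq t e he i₀) ?_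
  rw [Ne, Ideal.Quotient.eq_zero_iff_mem]
  simpa using pow_notMem_curveIdeal t e he i₀ 1

end Fermat.Agent.JAC.Curves.LocalCurve64
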