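/-
JAC / S26 track, chapter CURVES (helper64), brick S3c (algebra half): injectivity from the axes.

`φ : O → O'` a `K`-algebra map between noetherian local formally smooth `K`-algebras with residue
field `K`; `t` coordinates of `O` (`n` of them), the cotangent space of `O'` has dimension `n`;
for every `i` a local homomorphism `β i : O' → R i` such that `β i ∘ φ` is surjective with kernel
the `i`-th coordinate ideal `(t j : j ≠ i)`.  Then `φ` is injective.
-/
import Mathlib
import Fermat.Agent.JAC.Curves.LocalCurve64
import Fermat.Agent.JAC.Curves.CoordInj64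
import Fermat.Agent.JAC.Curves.CotIndep64

set_option autoImplicit false
set_option linter.unusedSectionVars false

namespace Fermat.Agent.JAC.Curves.AxesInj64

open IsLocalRing
open Fermat.Agent.JAC.Curves.LocalCurve64 Fermat.Agent.JAC.Curves.CoordInj64
open Fermat.Agent.JAC.Curves.CotIndep64

variable {K O O' : Type*} [Field K] [CommRing O] [CommRing O'] [Algebra K O] [Algebra K O']
  [IsLocalRing O] [IsLocalRing O'] [IsNoetherianRing O] [IsNoetherianRing O']
  [Algebra.FormallySmooth K O] [Algebra.FormallySmooth K O']
  (hres : Function.Surjective (algebraMap K (ResidueField O)))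
  (hres' : Function.Surjective (algebraMap K (ResidueField O')))
  (φ : O →ₐ[K] O') (hφ : ∀ x ∈ maximalIdeal O, φ x ∈ maximalIdeal O')
  {n : ℕ} (t : Fin n → maximalIdeal O)
  (hli : LinearIndependent (ResidueField O) fun i => (maximalIdeal O).toCotangent (t i))
  (hsp : ⊤ ≤ Submodule.span (ResidueField O)
    (Set.range fun i => (maximalIdeal O).toCotangent (t i)))
  (hfin : Module.finrank (ResidueField O') (CotangentSpace O') = n)
  {R : Fin n → Type*} [∀ i, CommRing (R i)] [∀ i, IsLocalRing (R i)]
  (β : ∀ i, O' →+* R i) [hloc : ∀ i, IsLocalHom (β i)]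
  (hsurj : ∀ i, Function.Surjective ((β i).comp (φ : O →+* O')))
  (hker : ∀ i, RingHom.ker ((β i).comp (φ : O →+* O')) = curveIdeal (fun j => (t j : O)) i)

include hres hres' hφ hli hsp hfin hsurj hker in
/-- **S3c (algebra).** Injectivity from the axes. -/
theorem injective_of_axes : Function.Injective φ := by
  let s : Fin n → maximalIdeal O' := fun i => ⟨φ (t i), hφ _ (t i).2⟩
  have hs : ∀ i, (s i : O') = φ (t i) := fun _ => rfl
  have hli' : LinearIndependent (ResidueField O') fun i => (maximalIdeal O').toCotangent (s i) := by
    refine linearIndependent_map_coords hres' φ t hli s hs β hsurj ?_ ?_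
    · intro i
      rw [hker i]
      exact le_sup_left
    · intro i j hji
      have hmem : (t j : O) ∈ RingHom.ker ((β i).comp (φ : O →+* O')) := by
        rw [hker i]
        exact Ideal.subset_span ⟨j, hji, rfl⟩
      exact hmem
  exact injective_of_coords_of_finrank hres hres' φ t hli hsp s hs hli' hfin

end Fermat.Agent.JAC.Curves.AxesInj64
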