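/-
Program JAC, S26 track, chapter CURVES, brick CU3-S1 (helper31): standard smooth affine charts
around a rational point of a smooth `K`-scheme, the evaluation map of the point, rationality of its
maximal ideal, and the `K`-algebra structure of the local ring.
-/
import Mathlib
import Fermat.Agent.JAC.AV.Charts66

set_option autoImplicit false

universe u

open AlgebraicGeometry CategoryTheory

namespace Fermat.Agent.JAC.Curves.Chart31

open Fermat.Agent.JAC.AV

variable {K : Type u} [Field K] {A : Scheme.{u}} (f : A ⟶ Spec (CommRingCat.of K))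

section Algebra

variable {K : Type*} [Field K] {B : Type*} [CommRing B] [Algebra K B]

theorem ker_isMaximal (ψ : B →ₐ[K] K) : (RingHom.ker ψ.toRingHom).IsMaximal :=
  RingHom.ker_isMaximal_of_surjective ψ.toRingHom
    (fun k => ⟨algebraMap K B k, by simp⟩)

theorem surjective_algebraMap_quotient_ker (ψ : B →ₐ[K] K) :
    Function.Surjective (algebraMap K (B ⧸ RingHom.ker ψ.toRingHom)) := by
  intro z
  obtain ⟨b, rfl⟩ := Ideal.Quotient.mk_surjective z
  refine ⟨ψ b, ?_⟩
  rw [IsScalarTower.algebraMap_apply K B (B ⧸ RingHom.ker ψ.toRingHom),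
    Ideal.Quotient.algebraMap_eq, Ideal.Quotient.eq, RingHom.mem_ker]
  simp

variable {S : Type*} [CommRing S] [Algebra B S] [Algebra K S] [IsScalarTower K B S]

theorem formallySmooth_of_isLocalization_atPrime [Algebra.FormallySmooth K B] (q : Ideal B)
    [q.IsPrime] [IsLocalization.AtPrime S q] : Algebra.FormallySmooth K S := by
  have hs1 : Algebra.FormallySmooth B S := Algebra.FormallySmooth.of_isLocalization q.primeCompl
  exact Algebra.FormallySmooth.comp K B S

theorem algebraMap_residueField_surjective_of_isLocalization (q : Ideal B) [q.IsMaximal]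
    [IsLocalization.AtPrime S q] [IsLocalRing S]
    (hq : Function.Surjective (algebraMap K (B ⧸ q))) :
    Function.Surjective (algebraMap K (IsLocalRing.ResidueField S)) := by
  intro z
  obtain ⟨y, rfl⟩ := (IsLocalization.AtPrime.equivQuotMaximalIdeal q S).surjective z
  obtain ⟨a, rfl⟩ := hq y
  refine ⟨a, ?_⟩
  rw [IsScalarTower.algebraMap_apply K B (B ⧸ q), Ideal.Quotient.algebraMap_eq,
    IsLocalization.AtPrime.equivQuotMaximalIdeal_apply_mk,
    IsScalarTower.algebraMap_apply K S (IsLocalRing.ResidueField S),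
    IsScalarTower.algebraMap_apply K B S]
  rfl

end Algebra

/-- A nonempty open subset of the spectrum of a field is everything. -/
theorem opens_eq_top {U : (Spec (CommRingCat.of K)).Opens} {y : Spec (CommRingCat.of K)}
    (hy : y ∈ U) : U = ⊤ := by
  ext z
  have : z = y := Subsingleton.elim (α := PrimeSpectrum K) z y
  simp [this, hy]

/-- (a) Standard smooth affine charts of the right relative dimension around any point. -/
theorem exists_affine_isStandardSmoothOfRelativeDimension (g : ℕ) [SmoothOfRelativeDimension g f]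
    (x : A) :
    ∃ (U : A.Opens) (_ : IsAffineOpen U), x ∈ U ∧
      (letI := Charts66.algebraΓ f U; Algebra.IsStandardSmoothOfRelativeDimension g K Γ(A, U)) := by
  obtain ⟨U, hU, V, hV, hx, e, h⟩ :=
    SmoothOfRelativeDimension.exists_isStandardSmoothOfRelativeDimension (n := g) (f := f) x
  obtain rfl : U = ⊤ := opens_eq_top (e hx)
  refine ⟨V, hV, hx, ?_⟩
  have h2 := h.comp (RingHom.IsStandardSmoothOfRelativeDimension.equiv
    (Scheme.ΓSpecIso (CommRingCat.of K)).symm.commRingCatIsoToRingEquiv)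
  rw [add_zero] at h2
  exact h2

/-- (b) The evaluation map of a rational point on an affine open containing it. -/
theorem exists_eval (ε : Spec (CommRingCat.of K) ⟶ A) (hε : ε ≫ f = 𝟙 _)
    (p : Spec (CommRingCat.of K)) {U : A.Opens} (hU : IsAffineOpen U) (hx : ε.base p ∈ U) :
    letI := Charts66.algebraΓ f U
    ∃ ψ : Γ(A, U) →ₐ[K] K, ε = Spec.map (CommRingCat.ofHom ψ.toRingHom) ≫ hU.fromSpec ∧
      RingHom.ker ψ.toRingHom = (hU.primeIdealOf ⟨ε.base p, hx⟩).asIdeal := by
  let _ := Charts66.algebraΓ f U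
  have hR : ∀ p q : PrimeSpectrum (CommRingCat.of K), p = q :=
    fun p q => Subsingleton.elim (α := PrimeSpectrum K) p q
  obtain ⟨ψ₀, hψ₀⟩ := JointMono66.exists_factor_fromSpec (R := CommRingCat.of K) hR ε p hU hx
  have hcomm : Charts66.kToΓ f U ≫ ψ₀ = 𝟙 _ := by
    apply Spec.map_injective
    rw [Spec.map_comp, ← Charts66.fromSpec_comp f hU, ← Category.assoc, ← hψ₀, hε, Spec.map_id]
  refine ⟨{ ψ₀.hom with commutes' := fun x => ?_ }, hψ₀, ?_⟩
  · exact congrArg (fun g : CommRingCat.of K ⟶ CommRingCat.of K => g.hom x) hcomm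
  · have h1 : (Spec.map ψ₀).base p = hU.primeIdealOf ⟨ε.base p, hx⟩ := by
      apply hU.fromSpec.isOpenEmbedding.injective
      rw [hU.fromSpec_primeIdealOf]
      change _ = ε.base p
      have := congrArg (fun m : Spec (CommRingCat.of K) ⟶ A => m.base p) hψ₀
      exact this.symm
    rw [← h1]
    have hp : p.asIdeal = ⊥ := by
      have := p.isPrime
      exact (Ideal.eq_bot_or_top p.asIdeal).resolve_right this.ne_top
    ext z
    simp only [RingHom.mem_ker]
    change _ ↔ z ∈ (Ideal.comap ψ₀.hom p.asIdeal)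
    rw [hp]
    simp

/-- The `K`-algebra structure on the stalk of `A` at `x`. -/
@[reducible] noncomputable def algebraStalk (x : A) : Algebra K (A.presheaf.stalk x) :=
  (Charts66.kToΓ f ⊤ ≫ A.presheaf.germ ⊤ x trivial).hom.toAlgebra

theorem kToΓ_comp_germ {U : A.Opens} {x : A} (hx : x ∈ U) :
    Charts66.kToΓ f U ≫ A.presheaf.germ U x hx =
      Charts66.kToΓ f ⊤ ≫ A.presheaf.germ ⊤ x trivial := by
  unfold Charts66.kToΓ
  rw [Category.assoc, Category.assoc]
  congr 1
  rw [← A.presheaf.germ_res (homOfLE (le_top : U ≤ ⊤)) x hx, ← Category.assoc]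
  congr 1
  exact (Scheme.Hom.appLE_map f (le_top : (⊤ : A.Opens) ≤ f ⁻¹ᵁ ⊤)
    (homOfLE (le_top : U ≤ ⊤)).op).symm

theorem isScalarTower_stalk {U : A.Opens} {x : A} (hx : x ∈ U) :
    letI := Charts66.algebraΓ f U
    letI := A.presheaf.algebra_section_stalk ⟨x, hx⟩
    letI := algebraStalk f x
    IsScalarTower K Γ(A, U) (A.presheaf.stalk x) := by
  let _ := Charts66.algebraΓ f U
  let _ := A.presheaf.algebra_section_stalk ⟨x, hx⟩
  let _ := algebraStalk f x
  refine IsScalarTower.of_algebraMap_eq' ?_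
  have := kToΓ_comp_germ f hx
  exact congrArg (fun m => m.hom) this.symm

/-- **CU3-S1**: a standard smooth affine chart around a rational point. -/
theorem exists_chart (g : ℕ) [SmoothOfRelativeDimension g f]
    (ε : Spec (CommRingCat.of K) ⟶ A) (hε : ε ≫ f = 𝟙 _) (p : Spec (CommRingCat.of K)) :
    ∃ (U : A.Opens) (hU : IsAffineOpen U) (hx : ε.base p ∈ U),
      letI := Charts66.algebraΓ f U
      Algebra.IsStandardSmoothOfRelativeDimension g K Γ(A, U) ∧
      (hU.primeIdealOf ⟨ε.base p, hx⟩).asIdeal.IsMaximal ∧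
      Function.Surjective (algebraMap K (Γ(A, U) ⧸ (hU.primeIdealOf ⟨ε.base p, hx⟩).asIdeal)) ∧
      ∃ ψ : Γ(A, U) →ₐ[K] K,
        RingHom.ker ψ.toRingHom = (hU.primeIdealOf ⟨ε.base p, hx⟩).asIdeal ∧
        ε = Spec.map (CommRingCat.ofHom ψ.toRingHom) ≫ hU.fromSpec := by
  obtain ⟨U, hU, hx, hsm⟩ := exists_affine_isStandardSmoothOfRelativeDimension f g (ε.base p)
  refine ⟨U, hU, hx, ?_⟩
  let _ := Charts66.algebraΓ f U
  obtain ⟨ψ, hψ, hker⟩ := exists_eval f ε hε p hU hx
  refine ⟨hsm, ?_, ?_, ψ, hker, hψ⟩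
  · rw [← hker]
    exact ker_isMaximal ψ
  · rw [← hker]
    exact surjective_algebraMap_quotient_ker ψ

/-- The local ring at a rational point of a smooth `K`-scheme satisfies the hypotheses of the
parametrised Cohen structure theorem. -/
theorem stalk_package (g : ℕ) [SmoothOfRelativeDimension g f]
    (ε : Spec (CommRingCat.of K) ⟶ A) (hε : ε ≫ f = 𝟙 _) (p : Spec (CommRingCat.of K)) :
    letI := algebraStalk f (ε.base p)
    IsNoetherianRing (A.presheaf.stalk (ε.base p)) ∧
    Algebra.FormallySmooth K (A.presheaf.stalk (ε.base p)) ∧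
    Function.Surjective
      (algebraMap K (IsLocalRing.ResidueField (A.presheaf.stalk (ε.base p)))) := by
  obtain ⟨U, hU, hx, hsm, hmax, hsurj, -⟩ := exists_chart f g ε hε p
  let _ := Charts66.algebraΓ f U
  let _ := A.presheaf.algebra_section_stalk ⟨ε.base p, hx⟩
  let _ := algebraStalk f (ε.base p)
  have _ := isScalarTower_stalk f hx
  have hloc := hU.isLocalization_stalk ⟨ε.base p, hx⟩
  have _ := hsm.isStandardSmooth
  have hN : IsNoetherianRing Γ(A, U) := Algebra.FiniteType.isNoetherianRing K Γ(A, U)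
  refine ⟨?_, ?_, ?_⟩
  · exact IsLocalization.isNoetherianRing (hU.primeIdealOf ⟨ε.base p, hx⟩).asIdeal.primeCompl _ hN
  · exact formallySmooth_of_isLocalization_atPrime (hU.primeIdealOf ⟨ε.base p, hx⟩).asIdeal
  · exact algebraMap_residueField_surjective_of_isLocalization
      (hU.primeIdealOf ⟨ε.base p, hx⟩).asIdeal hsurj

end Fermat.Agent.JAC.Curves.Chart31
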