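/-
JAC / S26 track, chapter CURVES (helper64), brick ALG-4: a `K`-algebra homomorphism between
noetherian local formally smooth `K`-algebras with residue field `K` which maps a system of
coordinates to a system of coordinates is injective.
-/
import Mathlib
import Fermat.Agent.JAC.DIV1.UFDPowerSeries64
import Fermat.Agent.JAC.Div1.SmoothCompletionParam31

set_option autoImplicit false
set_option linter.unusedSectionVars false

namespace Fermat.Agent.JAC.Curves.CoordInj64

open IsLocalRing MvPowerSeries
open Fermat.Agent.JAC.DIV1.UFDPowerSeries64 Fermat.Agent.JAC.Div1.SmoothCompletionParam31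

section Agree

variable {K O : Type*} [Field K] [CommRing O] [Algebra K O] [IsLocalRing O]
  (hres : Function.Surjective (algebraMap K (ResidueField O))) {n : ℕ}
  (t : Fin n → O) (hspan : Ideal.span (Set.range t) = maximalIdeal O)

include hres hspan in
/-- Every element is a constant plus a combination of the coordinates. -/
theorem exists_eq_add_sum (f : O) :
    ∃ (a : K) (c : Fin n → O), f = algebraMap K O a + ∑ i, c i * t i := by
  obtain ⟨a, ha⟩ := hres (residue O f)
  have hmem : f - algebraMap K O a ∈ maximalIdeal O := by
    rw [← residue_eq_zero_iff, map_sub, ← ha, IsScalarTower.algebraMap_apply K O (ResidueField O),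
      ResidueField.algebraMap_eq, sub_self]
  rw [← hspan] at hmem
  obtain ⟨c, hc⟩ := (Ideal.mem_span_range_iff_exists_fun).mp hmem
  exact ⟨a, c, by rw [hc]; ring⟩

include hres hspan in
/-- Two ring homomorphisms to `K⟦X⟧` agreeing on the constants and on the coordinates, and sending
the coordinates to the variables, are equal. -/
theorem ringHom_eq_of_coords (ψ χ : O →+* MvPowerSeries (Fin n) K)
    (hK : ∀ a : K, ψ (algebraMap K O a) = χ (algebraMap K O a))
    (hψ : ∀ i, ψ (t i) = X i) (hχ : ∀ i, χ (t i) = X i) : ψ = χ := by
  have key : ∀ (k : ℕ) (f : O), ψ f - χ f ∈ maximalIdeal (MvPowerSeries (Fin n) K) ^ k := by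
    intro k
    induction k with
    | zero => intro f; simp
    | succ k ih =>
      intro f
      obtain ⟨a, c, rfl⟩ := exists_eq_add_sum hres t hspan f
      have h1 : ψ (algebraMap K O a + ∑ i, c i * t i) - χ (algebraMap K O a + ∑ i, c i * t i) =
          ∑ i, (ψ (c i) - χ (c i)) * X i := by
        simp only [map_add, map_sum, map_mul, hψ, hχ, hK a, sub_mul]
        rw [Finset.sum_sub_distrib]
        ring
      rw [h1]
      refine Ideal.sum_mem _ fun i _ => ?_
      rw [pow_succ]
      refine Ideal.mul_mem_mul (ih (c i)) ?_
      rw [maximalIdeal_eq_span_range_X]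
      exact Ideal.subset_span ⟨i, rfl⟩
  ext1 f
  have hH : IsHausdorff (maximalIdeal (MvPowerSeries (Fin n) K)) (MvPowerSeries (Fin n) K) :=
    inferInstance
  have h0 : ψ f - χ f = 0 := by
    apply hH.haus
    intro k
    rw [SModEq.zero, smul_eq_mul, Ideal.mul_top]
    exact key k f
  exact sub_eq_zero.mp h0

end Agree

section Main

variable {K O O' : Type*} [Field K] [CommRing O] [CommRing O'] [Algebra K O] [Algebra K O']
  [IsLocalRing O] [IsLocalRing O'] [IsNoetherianRing O] [IsNoetherianRing O']
  [Algebra.FormallySmooth K O] [Algebra.FormallySmooth K O']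
  (hres : Function.Surjective (algebraMap K (ResidueField O)))
  (hres' : Function.Surjective (algebraMap K (ResidueField O')))
  (φ : O →ₐ[K] O') {n : ℕ}
  (t : Fin n → maximalIdeal O)
  (hli : LinearIndependent (ResidueField O) fun i => (maximalIdeal O).toCotangent (t i))
  (hsp : ⊤ ≤ Submodule.span (ResidueField O)
    (Set.range fun i => (maximalIdeal O).toCotangent (t i)))
  (s : Fin n → maximalIdeal O') (hs : ∀ i, (s i : O') = φ (t i))
  (hli' : LinearIndependent (ResidueField O') fun i => (maximalIdeal O').toCotangent (s i))
  (hsp' : ⊤ ≤ Submodule.span (ResidueField O')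
    (Set.range fun i => (maximalIdeal O').toCotangent (s i)))

include hres hres' hli hsp hs hli' hsp' in
/-- **ALG-4.** A `K`-algebra homomorphism mapping coordinates to coordinates is injective. -/
theorem injective_of_coords : Function.Injective φ := by
  obtain ⟨e, he⟩ := exists_algEquiv_completion_of_coords hres t hli hsp
  obtain ⟨e', he'⟩ := exists_algEquiv_completion_of_coords hres' s hli' hsp'
  obtain ⟨hspan, -⟩ := coords_of_linearIndependent (K := K) t hli hsp
  let χ : O →+* MvPowerSeries (Fin n) K :=
    (e : AdicCompletion (maximalIdeal O) O →+* MvPowerSeries (Fin n) K).comp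
      (algebraMap O (AdicCompletion (maximalIdeal O) O))
  let ψ : O →+* MvPowerSeries (Fin n) K :=
    ((e' : AdicCompletion (maximalIdeal O') O' →+* MvPowerSeries (Fin n) K).comp
      (algebraMap O' (AdicCompletion (maximalIdeal O') O'))).comp (φ : O →+* O')
  have hχK : ∀ a : K, χ (algebraMap K O a) = algebraMap K (MvPowerSeries (Fin n) K) a := by
    intro a
    have := e.commutes a
    rw [AdicCompletion.algebraMap_apply] at this
    exact this
  have hψK : ∀ a : K, ψ (algebraMap K O a) = algebraMap K (MvPowerSeries (Fin n) K) a := by
    intro a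
    have := e'.commutes a
    rw [AdicCompletion.algebraMap_apply] at this
    show e' (algebraMap O' (AdicCompletion (maximalIdeal O') O') (φ (algebraMap K O a))) = _
    rw [φ.commutes]
    exact this
  have hχt : ∀ i, χ (t i : O) = X i := he
  have hψt : ∀ i, ψ (t i : O) = X i := by
    intro i
    show e' (algebraMap O' (AdicCompletion (maximalIdeal O') O') (φ (t i))) = _
    rw [← hs i]
    exact he' i
  have heq : ψ = χ :=
    ringHom_eq_of_coords hres (fun i => (t i : O)) hspan ψ χ
      (fun a => (hψK a).trans (hχK a).symm) hψt hχt
  have hχinj : Function.Injective χ := by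
    have h1 : Function.Injective (algebraMap O (AdicCompletion (maximalIdeal O) O)) :=
      AdicCompletion.of_injective (maximalIdeal O) O
    exact e.injective.comp h1
  intro x y hxy
  apply hχinj
  rw [← heq]
  show e' (algebraMap O' _ (φ x)) = e' (algebraMap O' _ (φ y))
  rw [hxy]

include hres hres' hli hsp hs hli' in
/-- **ALG-4'.** Same, with the spanning condition on the target replaced by a dimension count. -/
theorem injective_of_coords_of_finrank
    (hfin : Module.finrank (ResidueField O') (CotangentSpace O') = n) : Function.Injective φ := by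
  have hsp' : ⊤ ≤ Submodule.span (ResidueField O')
      (Set.range fun i => (maximalIdeal O').toCotangent (s i)) := by
    rw [hli'.span_eq_top_of_card_eq_finrank' (by simp [hfin])]
  exact injective_of_coords hres hres' φ t hli hsp s hs hli' hsp'

end Main

end Fermat.Agent.JAC.Curves.CoordInj64
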