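/-
JAC / S26 track, chapter CURVES (helper64), brick ALG-3: the cotangent space at a rational point of
a standard smooth algebra of relative dimension `g` has dimension `g`; hence every system of
coordinates of the local ring has exactly `g` elements.
-/
import Mathlib
import Fermat.Agent.JAC.Div1.SmoothCompletionParam31

set_option autoImplicit false
set_option linter.unusedSectionVars false

namespace Fermat.Agent.JAC.Curves.CotDim64

open IsLocalRing TensorProduct KaehlerDifferential
open Fermat.Agent.JAC.Div1.SmoothCompletionParam31

section Local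

variable {K C : Type*} [Field K] [CommRing C] [Algebra K C] [IsLocalRing C]
  [Algebra.FormallySmooth K C]
  (hres : Function.Surjective (algebraMap K (ResidueField C)))

include hres in
/-- For a local formally smooth `K`-algebra with residue field `K`, the cotangent space is
`κ ⊗ Ω[C⁄K]`. -/
theorem bijective_kerCotangentToTensor :
    Function.Bijective (kerCotangentToTensor K C (ResidueField C)) := by
  have hf : Function.Surjective (algebraMap C (ResidueField C)) := residue_surjective
  have hsm : Algebra.FormallySmooth K (ResidueField C) := by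
    let e : K ≃ₐ[K] ResidueField C :=
      AlgEquiv.ofBijective (Algebra.ofId K (ResidueField C))
        ⟨(algebraMap K (ResidueField C)).injective, hres⟩
    exact Algebra.FormallySmooth.of_equiv e
  obtain ⟨l, hl⟩ := (Algebra.FormallySmooth.iff_split_injection (R := K) (P := C)
    (A := ResidueField C) hf).mp hsm
  constructor
  · intro x y hxy
    have := congrArg l hxy
    have hx : l (kerCotangentToTensor K C (ResidueField C) x) = x :=
      DFunLike.congr_fun hl x
    have hy : l (kerCotangentToTensor K C (ResidueField C) y) = y :=
      DFunLike.congr_fun hl y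
    rw [hx, hy] at this
    exact this
  · intro z
    have hex := exact_kerCotangentToTensor_mapBaseChange K C (ResidueField C) hf
    have hsub : Subsingleton (Ω[ResidueField C⁄K]) :=
      KaehlerDifferential.subsingleton_of_surjective K (ResidueField C) hres
    exact (hex z).mp (Subsingleton.elim _ _)

include hres in
/-- The `κ`-linear isomorphism `𝔪/𝔪² ≃ κ ⊗ Ω[C⁄K]`. -/
theorem nonempty_cotangentSpace_equiv :
    Nonempty (CotangentSpace C ≃ₗ[ResidueField C] (ResidueField C) ⊗[C] Ω[C⁄K]) := by
  have hker : RingHom.ker (algebraMap C (ResidueField C)) = maximalIdeal C := ker_residue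
  let e1 : CotangentSpace C ≃ₗ[C] (RingHom.ker (algebraMap C (ResidueField C))).Cotangent :=
    Ideal.Cotangent.equivOfEq _ _ hker.symm
  let e2 : (RingHom.ker (algebraMap C (ResidueField C))).Cotangent ≃ₗ[C]
      (ResidueField C) ⊗[C] Ω[C⁄K] :=
    LinearEquiv.ofBijective _ (bijective_kerCotangentToTensor hres)
  exact ⟨(e1.trans e2).extendScalarsOfSurjective residue_surjective⟩

end Local

section Global

variable {K B : Type*} [Field K] [CommRing B] [Algebra K B] (g : ℕ)
  [Algebra.IsStandardSmoothOfRelativeDimension g K B] (𝔪 : Ideal B) [𝔪.IsMaximal]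
  (S : Type*) [CommRing S] [Algebra B S] [IsLocalization.AtPrime S 𝔪] [IsLocalRing S]
  [Algebra K S] [IsScalarTower K B S]
  (hres : Function.Surjective (algebraMap K (ResidueField S)))

include 𝔪 hres in
/-- **ALG-3.** The cotangent space of the local ring `S = B_𝔪` at a `K`-rational point of a
standard smooth `K`-algebra of relative dimension `g` has dimension `g`. -/
theorem finrank_cotangentSpace_of_isLocalization :
    Module.finrank (ResidueField S) (CotangentSpace S) = g := by
  have hss : Algebra.IsStandardSmooth K B :=
    Algebra.IsStandardSmoothOfRelativeDimension.isStandardSmooth g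
  have hfs : Algebra.FormallySmooth K B := inferInstance
  have hfsBS : Algebra.FormallySmooth B S := Algebra.FormallySmooth.of_isLocalization 𝔪.primeCompl
  have hfsC : Algebra.FormallySmooth K S := Algebra.FormallySmooth.comp K B S
  obtain ⟨e⟩ := nonempty_cotangentSpace_equiv (K := K) (C := S) hres
  rw [e.finrank_eq]
  have het : Algebra.FormallyEtale B S := Algebra.FormallyEtale.of_isLocalization 𝔪.primeCompl
  let e1 : S ⊗[B] Ω[B⁄K] ≃ₗ[S] Ω[S⁄K] := tensorKaehlerEquivOfFormallyEtale K B S
  have hfree : Module.Free S Ω[S⁄K] := Module.Free.of_equiv e1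
  have hB : Nontrivial B := ⟨⟨0, 1, fun h01 => by
    have : (1 : B) ∈ 𝔪 := by rw [← h01]; exact 𝔪.zero_mem
    exact (Ideal.ne_top_iff_one 𝔪).mp (Ideal.IsPrime.ne_top inferInstance) this⟩⟩
  have hrankB : Module.finrank B Ω[B⁄K] = g := by
    have := Algebra.IsStandardSmoothOfRelativeDimension.rank_kaehlerDifferential (R := K) (S := B) g
    exact Module.finrank_eq_of_rank_eq this
  rw [Module.finrank_baseChange, ← e1.finrank_eq, Module.finrank_baseChange, hrankB]

include 𝔪 hres in
/-- **ALG-3'.** Every system of coordinates of `S = B_𝔪` has exactly `g` elements. -/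
theorem card_coords_eq_of_isLocalization [IsNoetherianRing S] {n : ℕ}
    (t : Fin n → maximalIdeal S)
    (hli : LinearIndependent (ResidueField S) fun i => (maximalIdeal S).toCotangent (t i))
    (hsp : ⊤ ≤ Submodule.span (ResidueField S)
      (Set.range fun i => (maximalIdeal S).toCotangent (t i))) :
    n = g := by
  have h1 := finrank_cotangentSpace_of_isLocalization g 𝔪 S hres
  have h2 := Module.finrank_eq_card_basis (Module.Basis.mk hli hsp)
  rw [h1] at h2
  simpa using h2.symm

end Global

section Concrete

variable {K B : Type*} [Field K] [CommRing B] [Algebra K B] (g : ℕ)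
  [Algebra.IsStandardSmoothOfRelativeDimension g K B] (𝔪 : Ideal B) [𝔪.IsMaximal]
  (hK : Function.Surjective (algebraMap K (B ⧸ 𝔪)))

include hK in
/-- **ALG-3** for `Localization.AtPrime 𝔪`. -/
theorem finrank_cotangentSpace_localization :
    Module.finrank (ResidueField (Localization.AtPrime 𝔪))
      (CotangentSpace (Localization.AtPrime 𝔪)) = g :=
  finrank_cotangentSpace_of_isLocalization g 𝔪 (Localization.AtPrime 𝔪)
    (algebraMap_residueField_localization_surjective 𝔪 hK)

include hK in
/-- **ALG-3'** for `Localization.AtPrime 𝔪`. -/
theorem card_coords_eq {n : ℕ} (t : Fin n → maximalIdeal (Localization.AtPrime 𝔪))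
    (hli : LinearIndependent (ResidueField (Localization.AtPrime 𝔪))
      fun i => (maximalIdeal (Localization.AtPrime 𝔪)).toCotangent (t i))
    (hsp : ⊤ ≤ Submodule.span (ResidueField (Localization.AtPrime 𝔪))
      (Set.range fun i => (maximalIdeal (Localization.AtPrime 𝔪)).toCotangent (t i))) :
    n = g := by
  have h1 := finrank_cotangentSpace_localization g 𝔪 hK
  have h2 := Module.finrank_eq_card_basis (Module.Basis.mk hli hsp)
  rw [h1] at h2
  simpa using h2.symm

end Concrete

end Fermat.Agent.JAC.Curves.CotDim64
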