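/-
Program JAC, S26 track, chapter CURVES, brick S3a (helper31): a morphism of integral schemes with one
injective stalk map is dominant.
-/
import Mathlib

set_option autoImplicit false

universe u

open AlgebraicGeometry CategoryTheory

namespace Fermat.Agent.JAC.Curves.Dominant31

/-- The point of `Spec R` given by the zero ideal of a domain. -/
def zeroPt (R : CommRingCat.{u}) [IsDomain R] : ↥(Spec R) := (⊥ : PrimeSpectrum R)

theorem zeroPt_specializes (R : CommRingCat.{u}) [IsDomain R] (p : ↥(Spec R)) :
    zeroPt R ⤳ p := by
  have h : ∀ q : PrimeSpectrum R, (⊥ : PrimeSpectrum R) ⤳ q := fun q =>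
    (PrimeSpectrum.le_iff_specializes _ _).mp bot_le
  exact h p

/-- The zero ideal of the local ring at `x` of an integral scheme maps to the generic point. -/
theorem fromSpecStalk_zeroPt {X : Scheme.{u}} [IsIntegral X] (x : X) :
    (X.fromSpecStalk x).base (zeroPt (X.presheaf.stalk x)) = genericPoint X := by
  have hgen : genericPoint X ⤳ x := (genericPoint_spec X).specializes trivial
  have hmem : genericPoint X ∈ Set.range (X.fromSpecStalk x).base := by
    rw [Scheme.range_fromSpecStalk]
    exact hgen
  obtain ⟨p, hp⟩ := hmem
  have h2 : (X.fromSpecStalk x).base (zeroPt (X.presheaf.stalk x)) ⤳ genericPoint X := by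
    rw [← hp]
    exact (zeroPt_specializes _ p).map (X.fromSpecStalk x).continuous
  have h3 : genericPoint X ⤳ (X.fromSpecStalk x).base (zeroPt (X.presheaf.stalk x)) :=
    (genericPoint_spec X).specializes trivial
  exact (h2.antisymm h3).eq

/-- If one stalk map of a morphism of integral schemes is injective, the generic point maps to the
generic point. -/
theorem map_genericPoint_of_injective_stalkMap {W A : Scheme.{u}} [IsIntegral W] [IsIntegral A]
    (σ : W ⟶ A) (w : W) (h : Function.Injective (σ.stalkMap w)) :
    σ.base (genericPoint W) = genericPoint A := by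
  have key := congrArg (fun m => m.base (zeroPt (W.presheaf.stalk w)))
    (Scheme.SpecMap_stalkMap_fromSpecStalk (f := σ) (x := w))
  simp only [Scheme.Hom.comp_base, TopCat.hom_comp, ContinuousMap.comp_apply] at key
  rw [fromSpecStalk_zeroPt w] at key
  rw [← key]
  have hbot : (Spec.map (σ.stalkMap w)).base (zeroPt (W.presheaf.stalk w)) =
      zeroPt (A.presheaf.stalk (σ.base w)) := by
    apply PrimeSpectrum.ext
    change Ideal.comap (σ.stalkMap w).hom ⊥ = ⊥
    rw [← RingHom.ker_eq_comap_bot]
    exact (RingHom.injective_iff_ker_eq_bot _).mp h
  rw [hbot]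
  exact fromSpecStalk_zeroPt (σ.base w)

/-- A morphism to an integral scheme hitting the generic point is dominant. -/
theorem isDominant_of_map_eq_genericPoint {W A : Scheme.{u}} [IsIntegral A]
    (σ : W ⟶ A) (w : W) (hη : σ.base w = genericPoint A) : IsDominant σ := by
  constructor
  intro y
  have : y ∈ closure {genericPoint A} := by
    have := (genericPoint_spec A).def
    rw [this]; trivial
  refine closure_mono ?_ this
  rintro _ rfl
  exact ⟨w, hη⟩

/-- **S3a**: a morphism of integral schemes with one injective stalk map is dominant. -/
theorem isDominant_of_injective_stalkMap {W A : Scheme.{u}} [IsIntegral W] [IsIntegral A]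
    (σ : W ⟶ A) (w : W) (h : Function.Injective (σ.stalkMap w)) : IsDominant σ :=
  isDominant_of_map_eq_genericPoint σ (genericPoint W)
    (map_genericPoint_of_injective_stalkMap σ w h)

end Fermat.Agent.JAC.Curves.Dominant31
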