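import Mathlib

/-!
# JAC / S26 track, chapter CURVES, brick ALG-5 (helper63): finiteness from equal trdeg

`K ⊆ F ⊆ F'` fields, `F'` a finitely generated field over `K`, and `F / K`, `F' / K` have
transcendence bases of the same finite size `g`.  Then `F' / F` is finite.
-/

set_option autoImplicit false

namespace Fermat.Agent.JAC.Curves.FinExt63

open Cardinal

variable {K F F' : Type*} [Field K] [Field F] [Field F'] [Algebra K F] [Algebra K F']
  [Algebra F F'] [IsScalarTower K F F']

omit [IsScalarTower K F F'] [Algebra F F'] [Algebra K F'] [Field F'] in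
/-- The transcendence degree read off a finite transcendence basis. -/
theorem lift_trdeg_eq_of_isTranscendenceBasis {g : ℕ} (x : Fin g → F)
    (hx : IsTranscendenceBasis K x) : Cardinal.lift.{0} (Algebra.trdeg K F) = g := by
  have h := hx.lift_cardinalMk_eq_trdeg
  rw [← h]
  simp

omit [IsScalarTower K F F'] [Algebra F F'] [Algebra K F'] [Field F'] in
theorem trdeg_eq_of_isTranscendenceBasis {g : ℕ} (x : Fin g → F)
    (hx : IsTranscendenceBasis K x) : Algebra.trdeg K F = g := by
  have := lift_trdeg_eq_of_isTranscendenceBasis x hx
  rwa [Cardinal.lift_uzero] at this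

/-- Equal finite transcendence degrees over `K` force `F' / F` to be algebraic. -/
theorem isAlgebraic_of_lift_trdeg_eq {g : ℕ}
    (h : Algebra.trdeg K F = g) (h' : Algebra.trdeg K F' = g) : Algebra.IsAlgebraic F F' := by
  have hadd := lift_trdeg_add_eq K F F'
  rw [h, h'] at hadd
  simp only [Cardinal.lift_natCast] at hadd
  have h0 : Cardinal.lift.{_, _} (Algebra.trdeg F F') = 0 := by
    have h1 : (g : Cardinal) + Cardinal.lift.{_, _} (Algebra.trdeg F F') = (g : Cardinal) + 0 := by
      rw [add_zero]; exact hadd
    exact Cardinal.eq_of_add_eq_add_left h1 Cardinal.natCast_lt_aleph0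
  rw [Cardinal.lift_eq_zero] at h0
  exact trdeg_eq_zero_iff.mp h0

/-- **ALG-5**, algebraic part. -/
theorem isAlgebraic_of_isTranscendenceBasis {g : ℕ} (x : Fin g → F)
    (hx : IsTranscendenceBasis K x) (x' : Fin g → F') (hx' : IsTranscendenceBasis K x') :
    Algebra.IsAlgebraic F F' :=
  isAlgebraic_of_lift_trdeg_eq (trdeg_eq_of_isTranscendenceBasis x hx)
    (trdeg_eq_of_isTranscendenceBasis x' hx')

/-- **ALG-5.**  If `F' / K` is a finitely generated field extension and `F ⊆ F'` has the same
finite transcendence degree over `K`, then `F' / F` is finite. -/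
theorem finite_of_isTranscendenceBasis [Algebra.EssFiniteType K F'] {g : ℕ} (x : Fin g → F)
    (hx : IsTranscendenceBasis K x) (x' : Fin g → F') (hx' : IsTranscendenceBasis K x') :
    FiniteDimensional F F' := by
  have := isAlgebraic_of_isTranscendenceBasis x hx x' hx'
  have : Algebra.EssFiniteType F F' := Algebra.EssFiniteType.of_comp K F F'
  exact Algebra.finite_of_essFiniteType_of_isAlgebraic

/-- **ALG-5**, `trdeg` form. -/
theorem finite_of_trdeg_eq [Algebra.EssFiniteType K F'] {g : ℕ}
    (h : Algebra.trdeg K F = g) (h' : Algebra.trdeg K F' = g) : FiniteDimensional F F' := by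
  have := isAlgebraic_of_lift_trdeg_eq h h'
  have : Algebra.EssFiniteType F F' := Algebra.EssFiniteType.of_comp K F F'
  exact Algebra.finite_of_essFiniteType_of_isAlgebraic

omit [IsScalarTower K F F'] [Algebra F F'] [Algebra K F'] [Field F'] in
/-- A separating family is a transcendence basis. -/
theorem isTranscendenceBasis_of_separating {g : ℕ} (x : Fin g → F)
    (hx : AlgebraicIndependent K x)
    [Algebra.IsSeparable (IntermediateField.adjoin K (Set.range x)) F] :
    IsTranscendenceBasis K x := by
  rw [hx.isTranscendenceBasis_iff_isAlgebraic]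
  open scoped IntermediateField.algebraAdjoinAdjoin in
  exact (IsFractionRing.comap_isAlgebraic_iff
    (K := IntermediateField.adjoin K (Set.range x))).mpr inferInstance

/-- **ALG-5**, in the shape of the separating transcendence bases of TRDEG (T3/T4). -/
theorem finite_of_separating [Algebra.EssFiniteType K F'] {g : ℕ} (x : Fin g → F)
    (hx : AlgebraicIndependent K x)
    [Algebra.IsSeparable (IntermediateField.adjoin K (Set.range x)) F]
    (x' : Fin g → F') (hx' : AlgebraicIndependent K x')
    [Algebra.IsSeparable (IntermediateField.adjoin K (Set.range x')) F'] :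
    FiniteDimensional F F' :=
  finite_of_isTranscendenceBasis x (isTranscendenceBasis_of_separating x hx) x'
    (isTranscendenceBasis_of_separating x' hx')

end Fermat.Agent.JAC.Curves.FinExt63
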