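/-
JAC / S26 track, chapter CURVES (helper64), brick ALG-5: a finitely generated field extension
`F'/K` is finite over any intermediate field `F` with `trdeg K F = trdeg K F' < ℵ₀`.
-/
import Mathlib

set_option autoImplicit false

namespace Fermat.Agent.JAC.Curves.FinExt64

open Cardinal

universe u v

variable {K : Type u} {F F' : Type v} [Field K] [Field F] [Field F'] [Algebra K F] [Algebra K F']
  [Algebra F F'] [IsScalarTower K F F']

/-- Equal finite transcendence degrees force the top extension to be algebraic. -/
theorem isAlgebraic_of_trdeg_eq (h : Algebra.trdeg K F = Algebra.trdeg K F')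
    (hfin : Algebra.trdeg K F' < ℵ₀) : Algebra.IsAlgebraic F F' := by
  have hadd := trdeg_add_eq K F (A := F')
  rw [← trdeg_eq_zero_iff]
  obtain ⟨m, hm⟩ := Cardinal.lt_aleph0.mp hfin
  rw [h, hm] at hadd
  have hle : Algebra.trdeg F F' ≤ m := by
    calc Algebra.trdeg F F' ≤ (m : Cardinal) + Algebra.trdeg F F' := self_le_add_left _ _
      _ = m := hadd
  obtain ⟨k, hk⟩ := Cardinal.lt_aleph0.mp (lt_of_le_of_lt hle (Cardinal.natCast_lt_aleph0 (n := m)))
  rw [hk] at hadd ⊢
  have : m + k = m := by exact_mod_cast hadd
  have hk0 : k = 0 := by omega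
  rw [hk0]
  simp

/-- **ALG-5.** If `F'` is generated as a field over `K` by a finite set and
`trdeg K F = trdeg K F' < ℵ₀`, then `F'/F` is finite. -/
theorem finiteDimensional_of_trdeg_eq (S : Set F') [Finite S]
    (hS : IntermediateField.adjoin K S = ⊤)
    (h : Algebra.trdeg K F = Algebra.trdeg K F') (hfin : Algebra.trdeg K F' < ℵ₀) :
    FiniteDimensional F F' := by
  have halg := isAlgebraic_of_trdeg_eq h hfin
  have hS' : IntermediateField.adjoin F S = ⊤ := by
    rw [eq_top_iff]
    intro x _
    have hx : x ∈ IntermediateField.adjoin K S := by rw [hS]; trivial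
    have hle : IntermediateField.adjoin K S ≤
        (IntermediateField.adjoin F S).restrictScalars K :=
      IntermediateField.adjoin_le_iff.mpr
        (fun y hy => IntermediateField.subset_adjoin F S hy)
    exact hle hx
  have hfd : FiniteDimensional F (IntermediateField.adjoin F S) :=
    IntermediateField.finiteDimensional_adjoin fun x _ => (halg.isAlgebraic x).isIntegral
  rw [hS'] at hfd
  exact (IntermediateField.topEquiv (F := F) (E := F')).toLinearEquiv.finiteDimensional

end Fermat.Agent.JAC.Curves.FinExt64
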