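import Mathlib
import Fermat.Agent.JAC.Curves.FinExt63
import Fermat.Agent.JAC.Fin.GrowthScheme63

/-!
# JAC / S26 track, chapter CURVES, brick ALG-5, scheme form (helper63)

* the function field of an integral scheme locally of finite type over `K` is a finitely
  generated field over `K`;
* if moreover the scheme is smooth of relative dimension `g` over the perfect field `K`, its
  function field has transcendence degree `g`;
* a dominant `K`-morphism between two such schemes of the same relative dimension induces a
  finite extension of function fields.
-/

set_option autoImplicit false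

universe u

open AlgebraicGeometry CategoryTheory TopologicalSpace Opposite
open Fermat.Agent.JAC.Div2.Stalk69 Fermat.Agent.JAC.Div2.CaDiv69 Fermat.Agent.JAC.Div2.Pull69
open Fermat.Agent.JAC.Vol Fermat.Agent.JAC.Vol.TrdegSmooth63
open Fermat.Agent.JAC.Fin.SandwichScheme63 Fermat.Agent.JAC.Fin.GrowthScheme63

namespace Fermat.Agent.JAC.Curves.FinExtScheme63

noncomputable section

variable {K : Type u} [Field K] {A W : Scheme.{u}} [IsIntegral A] [IsIntegral W]

/-- An integral scheme has a nonempty affine open. -/
theorem exists_nonempty_affineOpen (A : Scheme.{u}) [IsIntegral A] :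
    ∃ U : A.Opens, IsAffineOpen U ∧ Nonempty U := by
  obtain ⟨_, ⟨U, hU, rfl⟩, hxU, -⟩ :=
    A.isBasis_affineOpens.exists_subset_of_mem_open (Set.mem_univ (genericPoint A)) isOpen_univ
  exact ⟨U, hU, ⟨⟨_, hxU⟩⟩⟩

/-- The function field of an integral scheme locally of finite type over `K` is a finitely
generated field extension of `K`. -/
theorem essFiniteType_functionField (f : A ⟶ Spec (CommRingCat.of K)) [LocallyOfFiniteType f] :
    letI := algebraOfHom f
    Algebra.EssFiniteType K A.functionField := by
  let _ := algebraOfHom f
  have := regularScalars_of_hom f
  obtain ⟨U, hU, hne⟩ := exists_nonempty_affineOpen A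
  exact Growth63.essFiniteType_of_fg (sectionAlg A K U) (sectionAlg_fg f rfl hU)
    (adjoin_sectionAlg_eq_top hU)

/-- Over a perfect field, the function field of an integral scheme locally of finite type has a
(finite) separating transcendence basis. -/
theorem exists_separating (f : A ⟶ Spec (CommRingCat.of K)) [PerfectField K]
    [LocallyOfFiniteType f] :
    letI := algebraOfHom f
    ∃ (g : ℕ) (x : Fin g → A.functionField), AlgebraicIndependent K x ∧
      Algebra.IsSeparable (IntermediateField.adjoin K (Set.range x)) A.functionField := by
  let _ := algebraOfHom f
  have := regularScalars_of_hom f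
  obtain ⟨U, hU, hne⟩ := exists_nonempty_affineOpen A
  obtain ⟨g, x, -, hx, -, hsep⟩ := SepNoether64.exists_sep_noether_of_adjoin_eq_top
    (sectionAlg A K U) (sectionAlg_fg f rfl hU) (adjoin_sectionAlg_eq_top hU)
  exact ⟨g, x, hx, hsep⟩

/-- **trdeg of a smooth variety.**  Over a perfect field, the function field of an integral scheme
smooth of relative dimension `g` has a separating transcendence basis with `g` elements. -/
theorem exists_separating_of_smooth (f : A ⟶ Spec (CommRingCat.of K)) [PerfectField K] (g : ℕ)
    [SmoothOfRelativeDimension g f] :
    letI := algebraOfHom f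
    ∃ x : Fin g → A.functionField, AlgebraicIndependent K x ∧
      Algebra.IsSeparable (IntermediateField.adjoin K (Set.range x)) A.functionField ∧
      IsTranscendenceBasis K x := by
  let _ := algebraOfHom f
  have : Smooth f := SmoothOfRelativeDimension.smooth g f
  obtain ⟨m, x, hx, hsep⟩ := exists_separating f
  have hmg : m = g := eq_relDim_of_separating f g rfl x hx
  subst hmg
  exact ⟨x, hx, hsep, FinExt63.isTranscendenceBasis_of_separating x hx⟩

/-- The transcendence degree of the function field of a smooth variety of relative dimension `g`
over a perfect field is `g`. -/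
theorem trdeg_functionField_eq (f : A ⟶ Spec (CommRingCat.of K)) [PerfectField K] (g : ℕ)
    [SmoothOfRelativeDimension g f] :
    letI := algebraOfHom f
    Algebra.trdeg K A.functionField = g := by
  let _ := algebraOfHom f
  obtain ⟨x, -, -, hx⟩ := exists_separating_of_smooth f g
  exact FinExt63.trdeg_eq_of_isTranscendenceBasis x hx

/-- **ALG-5, scheme form (CU3-S3).**  A dominant `K`-morphism `σ : W ⟶ A` between integral schemes
smooth of the same relative dimension `g` over a perfect field induces a finite extension of
function fields. -/
theorem finiteDimensional_functionField_of_smooth [PerfectField K] (σ : W ⟶ A) [IsDominant σ]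
    (fW : W ⟶ Spec (CommRingCat.of K)) (fA : A ⟶ Spec (CommRingCat.of K)) (hσ : σ ≫ fA = fW)
    (g : ℕ) [SmoothOfRelativeDimension g fW] [SmoothOfRelativeDimension g fA] :
    letI := (pullFun σ).toAlgebra
    FiniteDimensional A.functionField W.functionField := by
  let _ := algebraOfHom fW
  let _ := algebraOfHom fA
  let _ := (pullFun σ).toAlgebra
  have := isScalarTower_of_hom σ fW fA hσ
  have : Smooth fW := SmoothOfRelativeDimension.smooth g fW
  have := essFiniteType_functionField fW
  exact FinExt63.finite_of_trdeg_eq (K := K) (trdeg_functionField_eq fA g)
    (trdeg_functionField_eq fW g)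

end

end Fermat.Agent.JAC.Curves.FinExtScheme63
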