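/-
Program JAC, S26 track, chapter CURVES, brick CU4 (P2) (helper31): list plumbing. From `g` pointed
smooth proper integral curves mapping to `(A, z)`, the list of `PointedJac`s (via S25) together with
the transported morphisms to `A` and any transported property.
-/
import Mathlib
import Fermat.Agent.JAC.Cube.Nice6

set_option autoImplicit false

universe u

open CategoryTheory CategoryTheory.Limits AlgebraicGeometry NeronModelInfra GoodReductionJacobian

namespace Fermat.Agent.JAC.Curves.ListPack31

open Fermat.Agent.JAC.Cube Fermat.Agent.JAC.Cube.Induct6 Fermat.Agent.JAC.Cube.Nice6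

/-- Transport of a dependent family along `List.ofFn`. -/
theorem exists_family_ofFn {α : Type*} {β : α → Type*} {g : ℕ}
    (Q : ∀ (_ : Fin g) (a : α), β a → Prop) (F : Fin g → α) (G : ∀ i, β (F i))
    (hQ : ∀ i, Q i (F i) (G i)) :
    ∃ G' : ∀ k : Fin (List.ofFn F).length, β ((List.ofFn F).get k),
      ∀ k, Q (Fin.cast List.length_ofFn k) ((List.ofFn F).get k) (G' k) := by
  have key : ∀ (k : Fin (List.ofFn F).length) (a : α)
      (_ : a = F (Fin.cast List.length_ofFn k)),
      ∃ b : β a, Q (Fin.cast List.length_ofFn k) a b := by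
    intro k a h
    subst h
    exact ⟨G _, hQ _⟩
  choose G' hG' using fun k => key k _ (List.get_ofFn F k)
  exact ⟨G', hG'⟩

variable {K : Type u} [Field K] [IsAlgClosed K] {A : Scheme.{u}}
  (f : A ⟶ Spec (CommRingCat.of K)) (z : Spec (CommRingCat.of K) ⟶ A)

/-- A pointed smooth proper integral curve over `K` with a pointed `K`-morphism to `(A, z)`. -/
structure PtCurve where
  /-- the curve -/
  C : Scheme.{u}
  /-- its structure morphism -/
  c : C ⟶ Spec (CommRingCat.of K)
  [proper : IsProper c]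
  [smooth : SmoothOfRelativeDimension 1 c]
  [integral : IsIntegral C]
  /-- the base point -/
  ε : Spec (CommRingCat.of K) ⟶ C
  hε : ε ≫ c = 𝟙 _
  /-- the morphism to `A` -/
  ι : C ⟶ A
  hι : ι ≫ f = c
  hpt : ε ≫ ι = z

attribute [instance] PtCurve.proper PtCurve.smooth PtCurve.integral

variable {f z}

/-- The `PointedJac` of a pointed curve (via S25). -/
noncomputable def PtCurve.toPointedJac (h25 : S25Statement K) (D : PtCurve f z) :
    PointedJac (niceClass K) :=
  pointedJacOfCurve h25 D.c D.ε D.hε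

@[simp] theorem PtCurve.toPointedJac_left (h25 : S25Statement K) (D : PtCurve f z) :
    (D.toPointedJac h25).obj.left = D.C := rfl

@[simp] theorem PtCurve.toPointedJac_hom (h25 : S25Statement K) (D : PtCurve f z) :
    (D.toPointedJac h25).obj.hom = D.c := rfl

@[simp] theorem PtCurve.toPointedJac_pt_left (h25 : S25Statement K) (D : PtCurve f z) :
    (D.toPointedJac h25).pt.left = D.ε := rfl

/-- **CU4 (P2)**: from `g` pointed curves mapping to `A`, the list of `PointedJac`s with the
transported morphisms to `A` and any transported property. -/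
theorem exists_list_of_ptCurves (h25 : S25Statement K) {g : ℕ} (D : Fin g → PtCurve f z)
    (Q : ∀ (_ : Fin g) (P : PointedJac (niceClass K)), (P.obj.left ⟶ A) → Prop)
    (hQ : ∀ i, Q i ((D i).toPointedJac h25) (D i).ι) :
    ∃ (l : List (PointedJac (niceClass K))) (hl : l.length = g)
      (ι' : ∀ k : Fin l.length, (l.get k).obj.left ⟶ A),
      (∀ k, ι' k ≫ f = (l.get k).obj.hom) ∧
      (∀ k, (l.get k).pt.left ≫ ι' k = z) ∧
      (∀ c ∈ l, SmoothOfRelativeDimension 1 c.obj.hom) ∧
      ∀ k, Q (Fin.cast hl k) (l.get k) (ι' k) := by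
  obtain ⟨G', hG'⟩ := exists_family_ofFn
    (α := PointedJac (niceClass K)) (β := fun P => P.obj.left ⟶ A)
    (fun i P ι => ι ≫ f = P.obj.hom ∧ P.pt.left ≫ ι = z ∧ Q i P ι)
    (fun i => (D i).toPointedJac h25) (fun i => (D i).ι)
    (fun i => ⟨(D i).hι, (D i).hpt, hQ i⟩)
  refine ⟨List.ofFn (fun i => (D i).toPointedJac h25), List.length_ofFn, G',
    fun k => (hG' k).1, fun k => (hG' k).2.1, ?_, fun k => (hG' k).2.2⟩
  intro c hc
  obtain ⟨i, rfl⟩ := (List.mem_ofFn' _ _).mp hc
  exact inferInstanceAs (SmoothOfRelativeDimension 1 (D i).c)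

/-- The same with unbundled data; the transported property only mentions the curve, its base
point and the morphism to `A`. -/
theorem exists_list_of_curves (h25 : S25Statement K) {g : ℕ} (C : Fin g → Scheme.{u})
    (c : ∀ i, C i ⟶ Spec (CommRingCat.of K)) (hprop : ∀ i, IsProper (c i))
    (hsm : ∀ i, SmoothOfRelativeDimension 1 (c i)) (hint : ∀ i, IsIntegral (C i))
    (ε : ∀ i, Spec (CommRingCat.of K) ⟶ C i) (hε : ∀ i, ε i ≫ c i = 𝟙 _)
    (ι : ∀ i, C i ⟶ A) (hι : ∀ i, ι i ≫ f = c i) (hpt : ∀ i, ε i ≫ ι i = z)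
    (Q : ∀ (_ : Fin g) (C' : Scheme.{u}), (Spec (CommRingCat.of K) ⟶ C') → (C' ⟶ A) → Prop)
    (hQ : ∀ i, Q i (C i) (ε i) (ι i)) :
    ∃ (l : List (PointedJac (niceClass K))) (hl : l.length = g)
      (ι' : ∀ k : Fin l.length, (l.get k).obj.left ⟶ A),
      (∀ k, ι' k ≫ f = (l.get k).obj.hom) ∧
      (∀ k, (l.get k).pt.left ≫ ι' k = z) ∧
      (∀ c ∈ l, SmoothOfRelativeDimension 1 c.obj.hom) ∧
      ∀ k, Q (Fin.cast hl k) (l.get k).obj.left (l.get k).pt.left (ι' k) :=
  exists_list_of_ptCurves h25
    (fun i => ({ C := C i, c := c i, proper := hprop i, smooth := hsm i, integral := hint i,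
                 ε := ε i, hε := hε i, ι := ι i, hι := hι i, hpt := hpt i } : PtCurve f z))
    (fun i P ι' => Q i P.obj.left P.pt.left ι') hQ

end Fermat.Agent.JAC.Curves.ListPack31
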