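/-
JAC / S26 track, chapter CURVES (helper64), brick CU1 (smooth form).

`C` a noetherian local `K`-algebra, formally smooth over `K`, with residue field `K`, and
`t : Fin n → 𝔪` coordinates (classes form a basis of `𝔪/𝔪²`).  For every index `i₀` the ideal
`(t_j : j ≠ i₀)` is prime and the quotient is a discrete valuation ring with uniformiser `t_{i₀}`:
a smooth formal curve through the closed point with tangent line dual to `t_{i₀}`.
Glue of `LocalCurve64` with helper31's parametrised Cohen structure theorem.
-/
import Mathlib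
import Fermat.Agent.JAC.Curves.LocalCurve64
import Fermat.Agent.JAC.Div1.SmoothCompletionParam31

set_option autoImplicit false

namespace Fermat.Agent.JAC.Curves.LocalCurveSmooth64

open IsLocalRing MvPowerSeries
open Fermat.Agent.JAC.Curves.LocalCurve64 Fermat.Agent.JAC.Div1.SmoothCompletionParam31

variable {K C : Type*} [Field K] [CommRing C] [Algebra K C] [IsLocalRing C] [IsNoetherianRing C]
  [Algebra.FormallySmooth K C]
  (hres : Function.Surjective (algebraMap K (ResidueField C))) {n : ℕ}
  (t : Fin n → maximalIdeal C)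
  (hli : LinearIndependent (ResidueField C) fun i => (maximalIdeal C).toCotangent (t i))
  (hsp : ⊤ ≤ Submodule.span (ResidueField C)
    (Set.range fun i => (maximalIdeal C).toCotangent (t i)))
  (i₀ : Fin n)

include hres hli hsp in
/-- The completion data consumed by `LocalCurve64`. -/
theorem exists_ringEquiv_completion :
    ∃ e : AdicCompletion (maximalIdeal C) C ≃+* MvPowerSeries (Fin n) K,
      ∀ i, e (algebraMap C (AdicCompletion (maximalIdeal C) C) ((fun i => (t i : C)) i)) = X i := by
  obtain ⟨e, he⟩ := exists_algEquiv_completion_of_coords hres t hli hsp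
  refine ⟨e.toRingEquiv, fun i => ?_⟩
  rw [AdicCompletion.algebraMap_apply]
  exact he i

/-- The `i₀`-th coordinate curve ideal `(t_j : j ≠ i₀)`. -/
abbrev coordIdeal : Ideal C := curveIdeal (fun i => (t i : C)) i₀

include hres hli hsp in
/-- **CU1.** `(t_j : j ≠ i₀)` is a prime ideal. -/
theorem isPrime_coordIdeal : (coordIdeal t i₀).IsPrime := by
  obtain ⟨e, he⟩ := exists_ringEquiv_completion hres t hli hsp
  exact isPrime_curveIdeal _ e he i₀

include hres hli hsp in
theorem coordIdeal_le_maximalIdeal : coordIdeal t i₀ ≤ maximalIdeal C := by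
  obtain ⟨e, he⟩ := exists_ringEquiv_completion hres t hli hsp
  exact curveIdeal_le_maximalIdeal _ e he i₀

include hres hli hsp in
/-- **CU1.** `t_{i₀}^k ∉ (t_j : j ≠ i₀)`. -/
theorem pow_notMem_coordIdeal (k : ℕ) : (t i₀ : C) ^ k ∉ coordIdeal t i₀ := by
  obtain ⟨e, he⟩ := exists_ringEquiv_completion hres t hli hsp
  exact pow_notMem_curveIdeal _ e he i₀ k

include hres hli hsp in
theorem isLocalRing_quotient_coordIdeal : IsLocalRing (C ⧸ coordIdeal t i₀) := by
  obtain ⟨e, he⟩ := exists_ringEquiv_completion hres t hli hsp
  exact isLocalRing_quotient _ e he i₀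

include hres hli hsp in
theorem isDomain_quotient_coordIdeal : IsDomain (C ⧸ coordIdeal t i₀) := by
  obtain ⟨e, he⟩ := exists_ringEquiv_completion hres t hli hsp
  exact isDomain_quotient _ e he i₀

include hres hli hsp in
/-- **CU1.** The maximal ideal of `C ⧸ (t_j : j ≠ i₀)` is generated by the class of `t_{i₀}`. -/
theorem maximalIdeal_quotient_coordIdeal :
    haveI := isLocalRing_quotient_coordIdeal hres t hli hsp i₀
    maximalIdeal (C ⧸ coordIdeal t i₀) =
      Ideal.span {Ideal.Quotient.mk (coordIdeal t i₀) (t i₀ : C)} := by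
  obtain ⟨e, he⟩ := exists_ringEquiv_completion hres t hli hsp
  exact maximalIdeal_quotient_eq _ e he i₀

include hres hli hsp in
/-- **CU1.** `C ⧸ (t_j : j ≠ i₀)` is a discrete valuation ring. -/
theorem isDiscreteValuationRing_quotient_coordIdeal :
    haveI := isDomain_quotient_coordIdeal hres t hli hsp i₀
    IsDiscreteValuationRing (C ⧸ coordIdeal t i₀) := by
  obtain ⟨e, he⟩ := exists_ringEquiv_completion hres t hli hsp
  exact isDiscreteValuationRing_quotient _ e he i₀

end Fermat.Agent.JAC.Curves.LocalCurveSmooth64
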