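/-
Programme JAC, S26 track, chapter CURVES, brick CU2 (helper23), part A: finiteness of normalisation.

`finite_integralClosure_of_finiteType`: `B` a finitely generated algebra over a perfect field `K`,
`B → F` a ring map into a field `F` generated (as a field) by the image of `B`; then the integral
closure of `B` in `F` is a finite `B`-module.  Proof: separable Noether normalisation
(helper64, `Vol/SepNoether64`) + Mathlib's `IsIntegralClosure.finite`.
-/
import Mathlib
import Fermat.Agent.JAC.Vol.SepNoether64

set_option autoImplicit false
universe u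

open Fermat.Agent.JAC.Vol.SepNoether64

namespace Fermat.Agent.JAC.Curves.NormFinite23

open scoped IntermediateField.algebraAdjoinAdjoin

section Core
variable {K : Type*} [Field K] {F : Type*} [Field F] [Algebra K F]

/-- core: for algebraically independent `x` with `F / K(x)` finite separable, the integral closure
of `K[x]` in `F` is a finite `K[x]`-module. -/
theorem finite_integralClosure_adjoin {g : ℕ} (x : Fin g → F) (hx : AlgebraicIndependent K x)
    [FiniteDimensional (IntermediateField.adjoin K (Set.range x)) F]
    [Algebra.IsSeparable (IntermediateField.adjoin K (Set.range x)) F] :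
    Module.Finite (Algebra.adjoin K (Set.range x))
      (integralClosure (Algebra.adjoin K (Set.range x)) F) := by
  have e : MvPolynomial (Fin g) K ≃ₐ[K] Algebra.adjoin K (Set.range x) := hx.aevalEquiv
  have : IsIntegrallyClosed (Algebra.adjoin K (Set.range x)) :=
    IsIntegrallyClosed.of_equiv e.toRingEquiv
  have : IsNoetherianRing (Algebra.adjoin K (Set.range x)) :=
    isNoetherianRing_of_ringEquiv _ e.toRingEquiv
  exact IsIntegralClosure.finite (Algebra.adjoin K (Set.range x))
    (IntermediateField.adjoin K (Set.range x)) F _

end Core


/-- If every element of the subalgebra `A ⊆ F` comes from `B`, integrality over `A` implies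
integrality over `B`. -/
theorem isIntegral_of_range_le {K B F : Type*} [CommRing K] [CommRing B] [CommRing F] [Nontrivial F]
    [Algebra K F] [Algebra B F] (A : Subalgebra K F)
    (hA : ∀ a ∈ A, a ∈ (algebraMap B F).range) {z : F}
    (hz : IsIntegral A z) : IsIntegral B z := by
  obtain ⟨p, hp, hpz⟩ := hz
  have hl : p.map (algebraMap A F) ∈ Polynomial.lifts (algebraMap B F) := by
    rw [Polynomial.lifts_iff_coeff_lifts]
    intro n
    rw [Polynomial.coeff_map]
    exact hA _ (p.coeff n).2
  obtain ⟨q, hq, -, hqm⟩ := Polynomial.lifts_and_degree_eq_and_monic hl (hp.map _)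
  refine ⟨q, hqm, ?_⟩
  rw [← Polynomial.eval_map, hq, Polynomial.eval_map]
  exact hpz

/-- If the image of `B` in `F` lies in the subalgebra `C`, integrality over `B` implies
integrality over `C`. -/
theorem isIntegral_of_range_le' {K B F : Type*} [CommRing K] [CommRing B] [CommRing F] [Nontrivial F]
    [Algebra K F] [Algebra B F] (C : Subalgebra K F) (hC : ∀ b : B, algebraMap B F b ∈ C) {z : F}
    (hz : IsIntegral B z) : IsIntegral C z := by
  obtain ⟨p, hp, hpz⟩ := hz
  have hl : p.map (algebraMap B F) ∈ Polynomial.lifts (algebraMap C F) := by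
    rw [Polynomial.lifts_iff_coeff_lifts]
    intro n
    rw [Polynomial.coeff_map]
    exact ⟨⟨_, hC (p.coeff n)⟩, rfl⟩
  obtain ⟨q, hq, -, hqm⟩ := Polynomial.lifts_and_degree_eq_and_monic hl (hp.map _)
  refine ⟨q, hqm, ?_⟩
  rw [← Polynomial.eval_map, hq, Polynomial.eval_map]
  exact hpz

/-- If every element of `A ⊆ F` comes from `B`, the `A`-span of a set is contained in its
`B`-span. -/
theorem span_le_of_range_le {K B F : Type*} [CommRing K] [CommRing B] [CommRing F] [Algebra K F]
    [Algebra B F] (A : Subalgebra K F) (hA : ∀ a ∈ A, a ∈ (algebraMap B F).range) (s : Set F)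
    {z : F} (hz : z ∈ Submodule.span A s) : z ∈ Submodule.span B s := by
  induction hz using Submodule.span_induction with
  | mem y hy => exact Submodule.subset_span hy
  | zero => exact Submodule.zero_mem _
  | add y y' _ _ h h' => exact Submodule.add_mem _ h h'
  | smul a y _ h =>
    obtain ⟨b, hb⟩ := hA a a.2
    have : a • y = b • y := by
      rw [Algebra.smul_def, Algebra.smul_def, hb]
      rfl
    rw [this]
    exact Submodule.smul_mem _ _ h

/-- **Separable Noether normalisation, in the form used for normalisations.**  `B` a finitely
generated algebra over a perfect field `K`, `B → F` a ring map into a field `F` generated by the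
image of `B`.  There are algebraically independent `x_1, …, x_g ∈ F` such that `F / K(x)` is finite
separable, every element of `K[x]` comes from `B`, and integrality over `B` and over `K[x]` are the
same. -/
theorem exists_sep_noether_data
    (K : Type*) [Field K] [PerfectField K] (B : Type*) [CommRing B] [Algebra K B]
    [Algebra.FiniteType K B] (F : Type*) [Field F] [Algebra K F] [Algebra B F]
    [IsScalarTower K B F]
    (hfrac : ∀ z : F, ∃ a b : B, algebraMap B F b ≠ 0 ∧ z = algebraMap B F a / algebraMap B F b) :
    ∃ (g : ℕ) (x : Fin g → F), AlgebraicIndependent K x ∧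
      FiniteDimensional (IntermediateField.adjoin K (Set.range x)) F ∧
      Algebra.IsSeparable (IntermediateField.adjoin K (Set.range x)) F ∧
      (∀ a ∈ Algebra.adjoin K (Set.range x), a ∈ (algebraMap B F).range) ∧
      (∀ z : F, IsIntegral (Algebra.adjoin K (Set.range x)) z ↔ IsIntegral B z) := by
  classical
  let φ : B →ₐ[K] F := IsScalarTower.toAlgHom K B F
  have hφ : ∀ b, φ b = algebraMap B F b := fun b => rfl
  let Gam : Subalgebra K F := φ.range
  have hfg : Gam.FG := by
    have h1 : (⊤ : Subalgebra K B).FG := Algebra.FiniteType.out
    have h2 := h1.map φ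
    rwa [Algebra.map_top] at h2
  have htop : IntermediateField.adjoin K (Gam : Set F) = ⊤ := by
    rw [eq_top_iff]
    intro z _
    obtain ⟨a, b, -, rfl⟩ := hfrac z
    exact div_mem (IntermediateField.subset_adjoin K _ ⟨a, rfl⟩)
      (IntermediateField.subset_adjoin K _ ⟨b, rfl⟩)
  obtain ⟨g, x, hxmem, hxind, hxint, hsep⟩ := exists_sep_noether_of_adjoin_eq_top Gam hfg htop
  -- finite-dimensionality
  have hess : Algebra.EssFiniteType K F := by
    rw [← IntermediateField.fg_top_iff]
    obtain ⟨t, ht⟩ := hfg
    rw [IntermediateField.fg_def]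
    refine ⟨t, t.finite_toSet, ?_⟩
    rw [eq_top_iff, ← htop, IntermediateField.adjoin_le_iff]
    intro z hz
    have : z ∈ Algebra.adjoin K (t : Set F) := by rw [ht]; exact hz
    exact IntermediateField.algebra_adjoin_le_adjoin K _ this
  have hess' : Algebra.EssFiniteType (IntermediateField.adjoin K (Set.range x)) F :=
    Algebra.EssFiniteType.of_comp K _ F
  have halg : Algebra.IsAlgebraic (IntermediateField.adjoin K (Set.range x)) F :=
    Algebra.IsSeparable.isAlgebraic _ _
  have hfin : FiniteDimensional (IntermediateField.adjoin K (Set.range x)) F :=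
    Algebra.finite_of_essFiniteType_of_isAlgebraic
  -- elements of `K[x]` come from `B`
  have hA : ∀ a ∈ Algebra.adjoin K (Set.range x), a ∈ (algebraMap B F).range := by
    intro a ha
    have h1 : Algebra.adjoin K (Set.range x) ≤ Gam :=
      Algebra.adjoin_le (by rintro _ ⟨i, rfl⟩; exact hxmem i)
    obtain ⟨b, hb⟩ := h1 ha
    exact ⟨b, hb⟩
  refine ⟨g, x, hxind, hfin, hsep, hA, fun z => ⟨fun h1 => isIntegral_of_range_le _ hA h1,
    fun h1 => ?_⟩⟩
  have h3 : IsIntegral (integralClosure (Algebra.adjoin K (Set.range x)) F) z := by
    refine isIntegral_of_range_le' _ ?_ h1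
    intro b
    exact hxint _ ⟨b, rfl⟩
  exact isIntegral_trans _ h3

/-- **Finiteness of normalisation.** `B` a finitely generated algebra over a perfect field `K`,
`B → F` a ring map into a field such that every element of `F` is a quotient of elements coming
from `B` (so `F = Frac (B / P)`, `P` the kernel).  Then the integral closure of `B` in `F` is a
finite `B`-module. -/
theorem finite_integralClosure_of_finiteType
    (K : Type*) [Field K] [PerfectField K] (B : Type*) [CommRing B] [Algebra K B]
    [Algebra.FiniteType K B] (F : Type*) [Field F] [Algebra K F] [Algebra B F]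
    [IsScalarTower K B F]
    (hfrac : ∀ z : F, ∃ a b : B, algebraMap B F b ≠ 0 ∧ z = algebraMap B F a / algebraMap B F b) :
    Module.Finite B (integralClosure B F) := by
  obtain ⟨g, x, hxind, hfin, hsep, hA, hint⟩ := exists_sep_noether_data K B F hfrac
  have hcore := finite_integralClosure_adjoin x hxind
  obtain ⟨s, hs⟩ := (Module.Finite.iff_fg (N := Subalgebra.toSubmodule
    (integralClosure (Algebra.adjoin K (Set.range x)) F))).mp hcore
  have hs' : ∀ z : F, z ∈ Submodule.span (Algebra.adjoin K (Set.range x)) (s : Set F) ↔
      IsIntegral (Algebra.adjoin K (Set.range x)) z := by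
    intro z
    rw [hs]
    rfl
  refine (Module.Finite.iff_fg (N := Subalgebra.toSubmodule (integralClosure B F))).mpr ⟨s, ?_⟩
  apply le_antisymm
  · rw [Submodule.span_le]
    intro z hz
    exact (hint z).mp ((hs' z).mp (Submodule.subset_span hz))
  · intro z hz
    have h1 : IsIntegral B z := hz
    exact span_le_of_range_le _ hA s ((hs' z).mpr ((hint z).mpr h1))

end Fermat.Agent.JAC.Curves.NormFinite23
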