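import Mathlib
import Fermat.Agent.JAC.Curves.NormFinite23
import Fermat.Agent.JAC.FF.DedekindSmooth9
import Fermat.Agent.JAC.Vol.KaehlerRank63

set_option autoImplicit false
universe u

open Fermat.Agent.JAC.Curves.NormFinite23

namespace Fermat.Agent.JAC.Curves.NormChart23

open scoped IntermediateField.algebraAdjoinAdjoin

theorem dimensionLEOne_of_ringEquiv {R S : Type*} [CommRing R] [CommRing S] (e : R ≃+* S)
    [Ring.DimensionLEOne R] : Ring.DimensionLEOne S where
  maximalOfPrime {p} hp0 hp := by
    have h1 : (p.comap (e : R →+* S)).IsPrime := Ideal.comap_isPrime _ _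
    have h2 : p.comap (e : R →+* S) ≠ ⊥ := by
      intro h
      apply hp0
      rw [eq_bot_iff]
      intro x hx
      have hx' : e.symm x ∈ p.comap (e : R →+* S) := by
        rw [Ideal.mem_comap]
        simpa using hx
      rw [h, Ideal.mem_bot] at hx'
      have := congrArg e hx'
      simpa using this
    have h3 := Ring.DimensionLEOne.maximalOfPrime h2 h1
    have h4 : p = (p.comap (e : R →+* S)).map (e : R →+* S) :=
      (Ideal.map_comap_of_surjective _ e.surjective p).symm
    rw [h4]
    exact Ideal.map_isMaximal_of_equiv e

theorem isDedekindDomain_of_ringEquiv {R S : Type*} [CommRing R] [CommRing S] (e : R ≃+* S)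
    [IsDedekindDomain R] : IsDedekindDomain S :=
  have : IsDomain S := e.symm.toMulEquiv.isDomain
  have h1 : IsIntegrallyClosed S := IsIntegrallyClosed.of_equiv e
  { toIsNoetherian := isNoetherianRing_of_ringEquiv R e
    toDimensionLEOne := dimensionLEOne_of_ringEquiv e
    toIsIntegralClosure := h1 }

section

variable (K : Type*) [Field K] [PerfectField K] (B : Type*) [CommRing B] [Algebra K B]
    [Algebra.FiniteType K B] (F : Type*) [Field F] [Algebra K F] [Algebra B F]
    [IsScalarTower K B F]

/-- Structure of the integral closure of `B` in `F` when `trdeg K F = 1`: it is (as a ring, and as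
a subring of `F`) the integral closure of a polynomial ring `K[x] ⊆ F` in one variable with `F`
finite separable over `K(x)`. -/
theorem exists_sep_noether_data_one
    (hfrac : ∀ z : F, ∃ a b : B, algebraMap B F b ≠ 0 ∧ z = algebraMap B F a / algebraMap B F b)
    (htr : Algebra.trdeg K F = 1) :
    ∃ x : Fin 1 → F, AlgebraicIndependent K x ∧
      FiniteDimensional (IntermediateField.adjoin K (Set.range x)) F ∧
      Algebra.IsSeparable (IntermediateField.adjoin K (Set.range x)) F ∧
      (∀ a ∈ Algebra.adjoin K (Set.range x), a ∈ (algebraMap B F).range) ∧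
      (∀ z : F, IsIntegral (Algebra.adjoin K (Set.range x)) z ↔ IsIntegral B z) := by
  obtain ⟨g, x, hxind, hfin, hsep, hA, hint⟩ := exists_sep_noether_data K B F hfrac
  have halg : Algebra.IsAlgebraic (Algebra.adjoin K (Set.range x)) F :=
    (IsFractionRing.comap_isAlgebraic_iff
      (K := IntermediateField.adjoin K (Set.range x))).mpr inferInstance
  have hbasis : IsTranscendenceBasis K x := hxind.isTranscendenceBasis_iff_isAlgebraic.mpr halg
  have hg : g = 1 := by
    have h1 := hbasis.lift_cardinalMk_eq_trdeg
    rw [htr] at h1
    simpa using h1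
  subst hg
  exact ⟨x, hxind, hfin, hsep, hA, hint⟩

/-- The ring isomorphism between the two integral closures. -/
def closureEquiv {A : Subalgebra K F}
    (hint : ∀ z : F, IsIntegral A z ↔ IsIntegral B z) :
    integralClosure A F ≃+* integralClosure B F :=
  { toFun := fun z => ⟨z.1, (hint z.1).mp z.2⟩
    invFun := fun z => ⟨z.1, (hint z.1).mpr z.2⟩
    left_inv := fun _ => rfl
    right_inv := fun _ => rfl
    map_mul' := fun _ _ => rfl
    map_add' := fun _ _ => rfl }

/-- The integral closure of `B` in `F` when `F` has transcendence degree one over `K`: it is a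
Dedekind domain. -/
theorem isDedekindDomain_integralClosure
    (hfrac : ∀ z : F, ∃ a b : B, algebraMap B F b ≠ 0 ∧ z = algebraMap B F a / algebraMap B F b)
    (htr : Algebra.trdeg K F = 1) :
    IsDedekindDomain (integralClosure B F) := by
  obtain ⟨x, hxind, hfin, hsep, hA, hint⟩ := exists_sep_noether_data_one K B F hfrac htr
  have e : Polynomial K ≃+* Algebra.adjoin K (Set.range x) :=
    ((MvPolynomial.uniqueAlgEquiv K (Fin 1)).symm.trans hxind.aevalEquiv).toRingEquiv
  have hD : IsDedekindDomain (Algebra.adjoin K (Set.range x)) := isDedekindDomain_of_ringEquiv e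
  have hC : IsDedekindDomain (integralClosure (Algebra.adjoin K (Set.range x)) F) :=
    IsIntegralClosure.isDedekindDomain (Algebra.adjoin K (Set.range x))
      (IntermediateField.adjoin K (Set.range x)) F _
  exact isDedekindDomain_of_ringEquiv (closureEquiv K B F hint)

/-- `F` is the fraction field of the integral closure. -/
theorem isFractionRing_integralClosure
    (hfrac : ∀ z : F, ∃ a b : B, algebraMap B F b ≠ 0 ∧ z = algebraMap B F a / algebraMap B F b) :
    IsFractionRing (integralClosure B F) F := by
  refine IsFractionRing.of_field _ _ fun z => ?_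
  obtain ⟨a, b, hb, rfl⟩ := hfrac z
  exact ⟨algebraMap B _ a, algebraMap B _ b, rfl⟩

/-- The integral closure is not a field. -/
theorem not_isField_integralClosure
    (hfrac : ∀ z : F, ∃ a b : B, algebraMap B F b ≠ 0 ∧ z = algebraMap B F a / algebraMap B F b)
    (htr : Algebra.trdeg K F = 1) :
    ¬ IsField (integralClosure B F) := by
  intro hfield
  obtain ⟨x, hxind, hfin, hsep, hA, hint⟩ := exists_sep_noether_data_one K B F hfrac htr
  have e : Polynomial K ≃+* Algebra.adjoin K (Set.range x) :=
    ((MvPolynomial.uniqueAlgEquiv K (Fin 1)).symm.trans hxind.aevalEquiv).toRingEquiv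
  have hfield' : IsField (integralClosure (Algebra.adjoin K (Set.range x)) F) :=
    (closureEquiv K B F hint).toMulEquiv.isField hfield
  have h2 : IsField (Algebra.adjoin K (Set.range x)) :=
    isField_of_isIntegral_of_isField
      (S := integralClosure (Algebra.adjoin K (Set.range x)) F)
      (fun a b h => by
        have := congrArg (Subtype.val) h
        exact Subtype.ext (by simpa using this)) hfield'
  exact Polynomial.not_isField K (e.toMulEquiv.isField h2)

end

section AlgClosed

variable (K : Type u) [Field K] [IsAlgClosed K] (B : Type u) [CommRing B] [Algebra K B]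
    [Algebra.FiniteType K B] (F : Type u) [Field F] [Algebra K F] [Algebra B F]
    [IsScalarTower K B F]

theorem finiteType_integralClosure
    (hfrac : ∀ z : F, ∃ a b : B, algebraMap B F b ≠ 0 ∧ z = algebraMap B F a / algebraMap B F b) :
    Algebra.FiniteType K (integralClosure B F) := by
  have := finite_integralClosure_of_finiteType K B F hfrac
  exact Algebra.FiniteType.trans (R := K) (S := B) (A := integralClosure B F)
    inferInstance inferInstance

theorem smooth_integralClosure
    (hfrac : ∀ z : F, ∃ a b : B, algebraMap B F b ≠ 0 ∧ z = algebraMap B F a / algebraMap B F b)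
    (htr : Algebra.trdeg K F = 1) :
    Algebra.Smooth K (integralClosure B F) := by
  have := isDedekindDomain_integralClosure K B F hfrac htr
  have := finiteType_integralClosure K B F hfrac
  exact Fermat.Agent.JAC.FF.DedekindSmooth9.smooth_of_isDedekindDomain K _
    (not_isField_integralClosure K B F hfrac htr)

/-- A standard smooth localisation `R[1/t]`, `t ≠ 0`, of the integral closure has relative
dimension one. -/
theorem isStandardSmoothOfRelativeDimension_one_away
    (hfrac : ∀ z : F, ∃ a b : B, algebraMap B F b ≠ 0 ∧ z = algebraMap B F a / algebraMap B F b)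
    (htr : Algebra.trdeg K F = 1) (t : integralClosure B F) (ht : t ≠ 0)
    [Algebra.IsStandardSmooth K (Localization.Away t)] :
    Algebra.IsStandardSmoothOfRelativeDimension 1 K (Localization.Away t) := by
  obtain ⟨x, hxind, hfin, hsep, hA, hint⟩ := exists_sep_noether_data_one K B F hfrac htr
  have hfr : IsFractionRing (integralClosure B F) F := isFractionRing_integralClosure B F hfrac
  have hle : Submonoid.powers t ≤ nonZeroDivisors (integralClosure B F) :=
    Submonoid.powers_le.mpr (mem_nonZeroDivisors_of_ne_zero ht)
  have hdom : IsDomain (Localization.Away t) :=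
    IsLocalization.isDomain_localization hle
  let _ : Algebra (Localization.Away t) F :=
    IsLocalization.localizationAlgebraOfSubmonoidLe (Localization.Away t) F
      (Submonoid.powers t) (nonZeroDivisors (integralClosure B F)) hle
  have : IsScalarTower (integralClosure B F) (Localization.Away t) F :=
    IsLocalization.localization_isScalarTower_of_submonoid_le (Localization.Away t) F
      (Submonoid.powers t) (nonZeroDivisors (integralClosure B F)) hle
  have : IsFractionRing (Localization.Away t) F :=
    IsFractionRing.isFractionRing_of_isDomain_of_isLocalization (Submonoid.powers t)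
      (Localization.Away t) F
  have : IsScalarTower K (Localization.Away t) F := by
    refine IsScalarTower.of_algebraMap_eq fun c => ?_
    rw [IsScalarTower.algebraMap_apply K (integralClosure B F) (Localization.Away t),
      ← IsScalarTower.algebraMap_apply (integralClosure B F) (Localization.Away t) F,
      ← IsScalarTower.algebraMap_apply K (integralClosure B F) F]
  obtain ⟨ι, σ, hσ, hι, ⟨P⟩⟩ := (inferInstance : Algebra.IsStandardSmooth K (Localization.Away t))
  have hn : Algebra.IsStandardSmoothOfRelativeDimension P.dimension K (Localization.Away t) :=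
    ⟨ι, σ, hσ, hι, P, rfl⟩
  have h1 : 1 = P.dimension :=
    Fermat.Agent.JAC.Vol.KaehlerRank63.eq_of_separating_of_standardSmooth
      (Localization.Away t) P.dimension x hxind
  rw [h1]
  exact hn

/-- **Charts of the normalisation are smooth of relative dimension one.** -/
theorem locally_isStandardSmoothOfRelativeDimension_one
    (hfrac : ∀ z : F, ∃ a b : B, algebraMap B F b ≠ 0 ∧ z = algebraMap B F a / algebraMap B F b)
    (htr : Algebra.trdeg K F = 1) :
    RingHom.Locally (RingHom.IsStandardSmoothOfRelativeDimension 1)
      (algebraMap K (integralClosure B F)) := by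
  have := smooth_integralClosure K B F hfrac htr
  obtain ⟨s, hs, h⟩ := Algebra.Smooth.exists_span_eq_top_isStandardSmooth K (integralClosure B F)
  refine ⟨s \ {0}, by rw [Ideal.span_sdiff_singleton_zero, hs], fun t ht => ?_⟩
  have := h t ht.1
  have ht0 : t ≠ 0 := fun h0 => ht.2 (by simpa using h0)
  have := isStandardSmoothOfRelativeDimension_one_away K B F hfrac htr t ht0
  dsimp only
  rw [← IsScalarTower.algebraMap_eq, RingHom.isStandardSmoothOfRelativeDimension_algebraMap]
  exact this

end AlgClosed

/-! ### Versions for a target ring that is only known to be a field propositionally -/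

section IsFieldVersions

variable (K : Type u) [Field K] [IsAlgClosed K] (B : Type u) [CommRing B] [Algebra K B]
    [Algebra.FiniteType K B] (F : Type u) [CommRing F] [Algebra K F] [Algebra B F]
    [IsScalarTower K B F]

include K in
theorem finite_integralClosure_of_isField (hF : IsField F)
    (hfrac : ∀ z : F, ∃ a b : B, algebraMap B F b ≠ 0 ∧ z * algebraMap B F b = algebraMap B F a) :
    Module.Finite B (integralClosure B F) := by
  let _ := hF.toField
  refine finite_integralClosure_of_finiteType K B F fun z => ?_
  obtain ⟨a, b, hb, hz⟩ := hfrac z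
  exact ⟨a, b, hb, (eq_div_iff hb).mpr hz⟩

theorem locally_isStandardSmoothOfRelativeDimension_one_of_isField (hF : IsField F)
    (hfrac : ∀ z : F, ∃ a b : B, algebraMap B F b ≠ 0 ∧ z * algebraMap B F b = algebraMap B F a)
    (htr : Algebra.trdeg K F = 1) :
    RingHom.Locally (RingHom.IsStandardSmoothOfRelativeDimension 1)
      (algebraMap K (integralClosure B F)) := by
  let _ := hF.toField
  refine locally_isStandardSmoothOfRelativeDimension_one K B F (fun z => ?_) htr
  obtain ⟨a, b, hb, hz⟩ := hfrac z
  exact ⟨a, b, hb, (eq_div_iff hb).mpr hz⟩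

end IsFieldVersions

end Fermat.Agent.JAC.Curves.NormChart23
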