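import Mathlib

set_option autoImplicit false
universe u

namespace Fermat.Agent.JAC.Curves.NormLocal23

/-- **Local structure of a normalisation at a normal point.**  `B → F` a ring map into a field with
kernel `P`, `F` generated by the image; `𝔪 ⊇ P` a prime such that `(B/P)_𝔪` is integrally closed.
Then every element of `F` integral over `B` is a fraction `b₁ / b₂` with `b₂ ∉ 𝔪`. -/
theorem exists_fraction_of_isIntegral
    (B : Type*) [CommRing B] (F : Type*) [Field F] [Algebra B F]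
    (hfrac : ∀ z : F, ∃ a b : B, algebraMap B F b ≠ 0 ∧ z * algebraMap B F b = algebraMap B F a)
    (P : Ideal B) (hP : RingHom.ker (algebraMap B F) = P) (𝔪 : Ideal B)
    [hprime : (𝔪.map (Ideal.Quotient.mk P)).IsPrime]
    (hic : IsIntegrallyClosed (Localization.AtPrime (𝔪.map (Ideal.Quotient.mk P))))
    (r : F) (hr : IsIntegral B r) :
    ∃ b₁ b₂ : B, b₂ ∉ 𝔪 ∧ r * algebraMap B F b₂ = algebraMap B F b₁ := by
  have hPprime : P.IsPrime := hP ▸ RingHom.ker_isPrime _
  set ψ : B ⧸ P →+* F := Ideal.Quotient.lift P (algebraMap B F)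
    (fun a ha => by rw [← hP] at ha; exact RingHom.mem_ker.mp ha) with hψ
  have hψinj : Function.Injective ψ := by
    rw [injective_iff_map_eq_zero]
    intro a ha
    obtain ⟨b, rfl⟩ := Ideal.Quotient.mk_surjective a
    rw [hψ, Ideal.Quotient.lift_mk] at ha
    rw [Ideal.Quotient.eq_zero_iff_mem, ← hP]
    exact ha
  let _ : Algebra (B ⧸ P) F := ψ.toAlgebra
  have hψalg : ∀ b : B, algebraMap (B ⧸ P) F (Ideal.Quotient.mk P b) = algebraMap B F b :=
    fun b => Ideal.Quotient.lift_mk _ _ _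
  have : IsScalarTower B (B ⧸ P) F := IsScalarTower.of_algebraMap_eq fun b => (hψalg b).symm
  have : FaithfulSMul (B ⧸ P) F := (faithfulSMul_iff_algebraMap_injective _ _).mpr hψinj
  have hfr : IsFractionRing (B ⧸ P) F := by
    refine IsFractionRing.of_field _ _ fun z => ?_
    obtain ⟨a, b, hb, hz⟩ := hfrac z
    refine ⟨Ideal.Quotient.mk P a, Ideal.Quotient.mk P b, ?_⟩
    rw [hψalg, hψalg, eq_div_iff hb, hz]
  set 𝔪' := 𝔪.map (Ideal.Quotient.mk P) with h𝔪'
  have hle : 𝔪'.primeCompl ≤ nonZeroDivisors (B ⧸ P) := Ideal.primeCompl_le_nonZeroDivisors 𝔪'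
  let _ : Algebra (Localization.AtPrime 𝔪') F :=
    IsLocalization.localizationAlgebraOfSubmonoidLe (Localization.AtPrime 𝔪') F
      𝔪'.primeCompl (nonZeroDivisors (B ⧸ P)) hle
  have : IsScalarTower (B ⧸ P) (Localization.AtPrime 𝔪') F :=
    IsLocalization.localization_isScalarTower_of_submonoid_le (Localization.AtPrime 𝔪') F
      𝔪'.primeCompl (nonZeroDivisors (B ⧸ P)) hle
  have : IsFractionRing (Localization.AtPrime 𝔪') F :=
    IsFractionRing.isFractionRing_of_isDomain_of_isLocalization 𝔪'.primeCompl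
      (Localization.AtPrime 𝔪') F
  have hr1 : IsIntegral (B ⧸ P) r := hr.tower_top
  have hr2 : IsIntegral (Localization.AtPrime 𝔪') r := hr1.tower_top
  obtain ⟨y, hy⟩ := IsIntegrallyClosed.isIntegral_iff.mp hr2
  obtain ⟨b', s, rfl⟩ := IsLocalization.exists_mk'_eq 𝔪'.primeCompl y
  obtain ⟨b₁, rfl⟩ := Ideal.Quotient.mk_surjective b'
  obtain ⟨s, hs⟩ := s
  obtain ⟨b₂, rfl⟩ := Ideal.Quotient.mk_surjective s
  refine ⟨b₁, b₂, fun hb₂ => hs (Ideal.mem_map_of_mem _ hb₂), ?_⟩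
  have h1 := IsLocalization.mk'_spec (Localization.AtPrime 𝔪') (Ideal.Quotient.mk P b₁)
    (⟨Ideal.Quotient.mk P b₂, hs⟩ : 𝔪'.primeCompl)
  have h2 := congrArg (algebraMap (Localization.AtPrime 𝔪') F) h1
  rw [map_mul, hy, ← IsScalarTower.algebraMap_apply, ← IsScalarTower.algebraMap_apply,
    hψalg, hψalg] at h2
  exact h2

/-- Version of `exists_fraction_of_isIntegral` for a ring which is a field only propositionally. -/
theorem exists_fraction_of_isIntegral_of_isField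
    (B : Type*) [CommRing B] (F : Type*) [CommRing F] (hF : IsField F) [Algebra B F]
    (hfrac : ∀ z : F, ∃ a b : B, algebraMap B F b ≠ 0 ∧ z * algebraMap B F b = algebraMap B F a)
    (P : Ideal B) (hP : RingHom.ker (algebraMap B F) = P) (𝔪 : Ideal B)
    [hprime : (𝔪.map (Ideal.Quotient.mk P)).IsPrime]
    (hic : IsIntegrallyClosed (Localization.AtPrime (𝔪.map (Ideal.Quotient.mk P))))
    (r : F) (hr : IsIntegral B r) :
    ∃ b₁ b₂ : B, b₂ ∉ 𝔪 ∧ r * algebraMap B F b₂ = algebraMap B F b₁ := by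
  let _ := hF.toField
  exact exists_fraction_of_isIntegral B F hfrac P hP 𝔪 hic r hr

/-- **The stalk map at a normal point.**  `φ : B → R` a ring map into a domain, `𝔫` a prime of `R`
over `𝔪`, `σ : B_𝔪 → R_𝔫` the induced map.  If every element of `R` is a fraction `φ b₁ / φ b₂`
with `b₂ ∉ 𝔪`, then `σ` is surjective with kernel `(ker φ) B_𝔪`. -/
theorem surjective_and_ker_of_fractions
    {B R SA SC : Type*} [CommRing B] [CommRing R] [IsDomain R] [CommRing SA] [CommRing SC]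
    [Algebra B SA] [Algebra R SC]
    (φ : B →+* R) (𝔪 : Ideal B) [𝔪.IsPrime] (𝔫 : Ideal R) [𝔫.IsPrime] (h𝔫 : 𝔫.comap φ = 𝔪)
    [IsLocalization.AtPrime SA 𝔪] [IsLocalization.AtPrime SC 𝔫]
    (σ : SA →+* SC) (hσ : ∀ b, σ (algebraMap B SA b) = algebraMap R SC (φ b))
    (H : ∀ r : R, ∃ b₁ b₂, b₂ ∉ 𝔪 ∧ r * φ b₂ = φ b₁) :
    Function.Surjective σ ∧ RingHom.ker σ = (RingHom.ker φ).map (algebraMap B SA) := by
  have hmem : ∀ b : B, b ∉ 𝔪 → φ b ∉ 𝔫 := fun b hb hφ => hb (by rw [← h𝔫]; exact hφ)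
  have hunit : ∀ b : B, b ∉ 𝔪 → IsUnit (algebraMap R SC (φ b)) := fun b hb =>
    IsLocalization.map_units SC (⟨φ b, hmem b hb⟩ : 𝔫.primeCompl)
  have hinj : Function.Injective (algebraMap R SC) :=
    IsLocalization.injective SC (Ideal.primeCompl_le_nonZeroDivisors 𝔫)
  constructor
  · intro z
    obtain ⟨r, h, rfl⟩ := IsLocalization.exists_mk'_eq 𝔫.primeCompl z
    obtain ⟨b₁, b₂, hb₂, hr⟩ := H r
    obtain ⟨b₃, b₄, hb₄, hh⟩ := H h
    have hb₃ : b₃ ∉ 𝔪 := by
      intro hb₃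
      have h1 : φ b₃ ∈ 𝔫 := by rw [← h𝔫] at hb₃; exact hb₃
      rw [← hh] at h1
      rcases Ideal.IsPrime.mem_or_mem inferInstance h1 with h2 | h2
      · exact h.2 h2
      · exact hmem b₄ hb₄ h2
    have hb23 : b₂ * b₃ ∉ 𝔪 := fun h1 =>
      (Ideal.IsPrime.mem_or_mem inferInstance h1).elim hb₂ hb₃
    refine ⟨IsLocalization.mk' SA (b₁ * b₄) (⟨b₂ * b₃, hb23⟩ : 𝔪.primeCompl), ?_⟩
    apply (hunit _ hb23).mul_left_injective
    dsimp only
    have h1 := IsLocalization.mk'_spec SA (b₁ * b₄) (⟨b₂ * b₃, hb23⟩ : 𝔪.primeCompl)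
    have h2 := congrArg σ h1
    rw [map_mul, hσ, hσ] at h2
    rw [h2]
    have h3 := IsLocalization.mk'_spec SC r h
    have e1 : algebraMap R SC (φ (b₁ * b₄)) =
        algebraMap R SC r * algebraMap R SC (φ b₂) * algebraMap R SC (φ b₄) := by
      rw [map_mul, map_mul, ← hr, map_mul]
    have e2 : algebraMap R SC (φ (b₂ * b₃)) =
        algebraMap R SC (φ b₂) * (algebraMap R SC h * algebraMap R SC (φ b₄)) := by
      rw [map_mul, map_mul, ← hh, map_mul]
    rw [e1, e2, ← h3]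
    ring
  · apply le_antisymm
    · intro w hw
      obtain ⟨b, s, rfl⟩ := IsLocalization.exists_mk'_eq 𝔪.primeCompl w
      have h1 := IsLocalization.mk'_spec SA b s
      have h2 := congrArg σ h1
      rw [map_mul, hσ, hσ, RingHom.mem_ker.mp hw, zero_mul] at h2
      have h3 : φ b = 0 := hinj (by rw [← h2, map_zero])
      rw [IsLocalization.mk'_eq_mul_mk'_one]
      exact Ideal.mul_mem_right _ _ (Ideal.mem_map_of_mem _ (RingHom.mem_ker.mpr h3))
    · rw [Ideal.map_le_iff_le_comap]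
      intro b hb
      rw [Ideal.mem_comap, RingHom.mem_ker, hσ, RingHom.mem_ker.mp hb, map_zero]

end Fermat.Agent.JAC.Curves.NormLocal23
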