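import Mathlib
import Fermat.Agent.JAC.Curves.NormChart23
import Fermat.Agent.JAC.Curves.NormLocal23
import Fermat.Agent.JAC.B2.Charts37

set_option autoImplicit false
universe u
open CategoryTheory CategoryTheory.Limits AlgebraicGeometry TopologicalSpace Opposite

namespace Fermat.Agent.JAC.Curves.NormScheme23

variable {A : Scheme.{u}} (η : A)

lemma preimage_eq_top {U : A.Opens} (hη : η ∈ U) : (A.fromSpecResidueField η) ⁻¹ᵁ U = ⊤ := by
  ext x
  simp [hη]

lemma preimage_eq_bot {U : A.Opens} (hη : η ∉ U) : (A.fromSpecResidueField η) ⁻¹ᵁ U = ⊥ := by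
  ext x
  simp [hη]

/-- the identification of the ring of sections of `Spec κ(η)` over the preimage of `U ∋ η`
with `κ(η)`. -/
noncomputable def secIso {U : A.Opens} (hη : η ∈ U) :
    Γ(Spec (A.residueField η), (A.fromSpecResidueField η) ⁻¹ᵁ U) ≅ A.residueField η :=
  (Spec (A.residueField η)).presheaf.mapIso (eqToIso (preimage_eq_top η hη).symm).op ≪≫
    Scheme.ΓSpecIso (A.residueField η)

lemma specMap_evaluation_fromSpec {U : A.Opens} (hU : IsAffineOpen U) (hη : η ∈ U) :
    Spec.map (A.evaluation U η hη) ≫ hU.fromSpec = A.fromSpecResidueField η := by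
  rw [← Scheme.germ_residue, Spec.map_comp, Category.assoc, Scheme.fromSpecResidueField,
    ← hU.fromSpecStalk_eq_fromSpecStalk hη, IsAffineOpen.fromSpecStalk]

lemma specMap_app_secIso_fromSpec {U : A.Opens} (hU : IsAffineOpen U) (hη : η ∈ U) :
    Spec.map ((A.fromSpecResidueField η).app U ≫ (secIso η hη).hom) ≫ hU.fromSpec =
      A.fromSpecResidueField η := by
  have h := IsAffineOpen.SpecMap_appLE_fromSpec (A.fromSpecResidueField η) hU
    (isAffineOpen_top _) (le_of_eq (preimage_eq_top η hη).symm)
  rw [IsAffineOpen.fromSpec_top, Scheme.isoSpec_Spec_inv] at h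
  have h2 : (A.fromSpecResidueField η).app U ≫ (secIso η hη).hom =
      (A.fromSpecResidueField η).appLE U ⊤ (le_of_eq (preimage_eq_top η hη).symm) ≫
        (Scheme.ΓSpecIso (A.residueField η)).hom := by
    simp only [secIso, Scheme.Hom.appLE, Iso.trans_hom, Functor.mapIso_hom, Iso.op_hom,
      eqToIso.hom, Category.assoc]
    rfl
  rw [h2, Spec.map_comp, Category.assoc, h, ← Spec.map_comp_assoc, Iso.inv_hom_id, Spec.map_id,
    Category.id_comp]

lemma app_secIso {U : A.Opens} (hU : IsAffineOpen U) (hη : η ∈ U) :
    (A.fromSpecResidueField η).app U ≫ (secIso η hη).hom = A.evaluation U η hη := by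
  apply Spec.map_injective
  rw [← cancel_mono hU.fromSpec, specMap_app_secIso_fromSpec, specMap_evaluation_fromSpec]

/-- The kernel of evaluation at a point of an affine open is the prime ideal of the point. -/
lemma ker_evaluation {U : A.Opens} (hU : IsAffineOpen U) (hη : η ∈ U) :
    RingHom.ker (A.evaluation U η hη).hom = (hU.primeIdealOf ⟨η, hη⟩).asIdeal := by
  ext s
  rw [RingHom.mem_ker]
  change A.evaluation U η hη s = 0 ↔ _
  rw [Scheme.evaluation_eq_zero_iff_notMem_basicOpen]
  have h1 : η = hU.fromSpec (hU.primeIdealOf ⟨η, hη⟩) := (hU.fromSpec_primeIdealOf ⟨η, hη⟩).symm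
  have h2 : η ∈ A.basicOpen s ↔ hU.primeIdealOf ⟨η, hη⟩ ∈ PrimeSpectrum.basicOpen s := by
    rw [← hU.fromSpec_preimage_basicOpen]
    conv_lhs => rw [h1]
    rfl
  rw [h2, PrimeSpectrum.mem_basicOpen, not_not]

/-- Every element of the residue field is a quotient of values of sections over an affine open
neighbourhood. -/
lemma exists_fraction_evaluation {U : A.Opens} (hU : IsAffineOpen U) (hη : η ∈ U)
    (z : A.residueField η) :
    ∃ a b : Γ(A, U), A.evaluation U η hη b ≠ 0 ∧
      z * A.evaluation U η hη b = A.evaluation U η hη a := by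
  obtain ⟨s, rfl⟩ := A.residue_surjective η z
  let _ := A.presheaf.algebra_section_stalk ⟨η, hη⟩
  have hloc := hU.isLocalization_stalk ⟨η, hη⟩
  obtain ⟨a, b, rfl⟩ := IsLocalization.exists_mk'_eq (hU.primeIdealOf ⟨η, hη⟩).asIdeal.primeCompl s
  refine ⟨a, b, ?_, ?_⟩
  · intro h0
    have : (b : Γ(A, U)) ∈ RingHom.ker (A.evaluation U η hη).hom := h0
    rw [ker_evaluation η hU hη] at this
    exact b.2 this
  · have h1 := IsLocalization.mk'_spec (A.presheaf.stalk η) a b
    have h2 := congrArg (A.residue η) h1
    rw [map_mul] at h2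
    exact h2

section Chart

variable {V : A.Opens}

lemma isField_sections (hη : η ∈ V) :
    IsField Γ(Spec (A.residueField η), (A.fromSpecResidueField η) ⁻¹ᵁ V) :=
  (secIso η hη).commRingCatIsoToRingEquiv.toMulEquiv.isField (Field.toIsField _)

lemma secIso_app_apply (hV : IsAffineOpen V) (hη : η ∈ V) (s : Γ(A, V)) :
    (secIso η hη).hom ((A.fromSpecResidueField η).app V s) = A.evaluation V η hη s := by
  rw [← app_secIso η hV hη]
  rfl

lemma ker_app (hV : IsAffineOpen V) (hη : η ∈ V) :
    RingHom.ker ((A.fromSpecResidueField η).app V).hom = (hV.primeIdealOf ⟨η, hη⟩).asIdeal := by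
  rw [← ker_evaluation η hV hη]
  ext s
  rw [RingHom.mem_ker, RingHom.mem_ker]
  change (A.fromSpecResidueField η).app V s = 0 ↔ A.evaluation V η hη s = 0
  rw [← secIso_app_apply η hV hη]
  constructor
  · intro h
    rw [h, map_zero]
  · intro h
    have := congrArg (secIso η hη).inv h
    rw [map_zero] at this
    simpa using this

lemma exists_fraction_app (hV : IsAffineOpen V) (hη : η ∈ V)
    (z : Γ(Spec (A.residueField η), (A.fromSpecResidueField η) ⁻¹ᵁ V)) :
    ∃ a b : Γ(A, V), (A.fromSpecResidueField η).app V b ≠ 0 ∧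
      z * (A.fromSpecResidueField η).app V b = (A.fromSpecResidueField η).app V a := by
  obtain ⟨a, b, hb, h⟩ := exists_fraction_evaluation η hV hη ((secIso η hη).hom z)
  refine ⟨a, b, ?_, ?_⟩
  · intro h0
    apply hb
    rw [← secIso_app_apply η hV hη, h0, map_zero]
  · have hinj : Function.Injective (secIso η hη).hom :=
      (secIso η hη).commRingCatIsoToRingEquiv.injective
    apply hinj
    rw [map_mul, secIso_app_apply η hV hη, secIso_app_apply η hV hη]
    exact h

end Chart

/-- The normalisation of `A` in the residue field of `η`: the normalised closure of `η`. -/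
noncomputable abbrev curve (η : A) : Scheme.{u} := (A.fromSpecResidueField η).normalization

/-- The canonical (integral) morphism from the normalised closure of `η` to `A`. -/
noncomputable abbrev curveι (η : A) : curve η ⟶ A := (A.fromSpecResidueField η).fromNormalization

section OverField

open Fermat.Agent.JAC.B2.Charts37

variable {K : Type u} [Field K] (a : A ⟶ Spec (.of K))

/-- The `K`-algebra structure of the residue field at `η`, read in a chart. -/
noncomputable def residueHom {U : A.Opens} (hη : η ∈ U) : K →+* A.residueField η :=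
  (A.evaluation U η hη).hom.comp (structureHom a U)

lemma residueHom_eq_of_le {U W : A.Opens} (hU : η ∈ U) (hW : η ∈ W) (i : W ≤ U) :
    residueHom η a hU = residueHom η a hW := by
  unfold residueHom
  rw [← map_comp_structureHom a i, ← RingHom.comp_assoc]
  congr 1
  rw [← CommRingCat.hom_comp]
  congr 1
  rw [← Scheme.germ_residue, ← Scheme.germ_residue, ← Category.assoc]
  congr 1
  exact (A.presheaf.germ_res (homOfLE i) η hW).symm

lemma residueHom_eq {U V : A.Opens} (hU : η ∈ U) (hV : η ∈ V) :
    residueHom η a hU = residueHom η a hV :=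
  (residueHom_eq_of_le η a hU (W := U ⊓ V) ⟨hU, hV⟩ inf_le_left).trans
    (residueHom_eq_of_le η a hV (W := U ⊓ V) ⟨hU, hV⟩ inf_le_right).symm

variable [IsAlgClosed K] [LocallyOfFiniteType a]

include a in
theorem finite_app {V : A.Opens} (hV : IsAffineOpen V) :
    ((curveι η).app V).hom.Finite := by
  rw [Scheme.Hom.fromNormalization_app _ hV, CommRingCat.hom_comp]
  refine RingHom.Finite.comp (RingHom.Finite.of_surjective _ ?_) ?_
  · exact ((A.fromSpecResidueField η).normalizationObjIso hV).symm.commRingCatIsoToRingEquiv.surjective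
  · let _ := ((A.fromSpecResidueField η).app V).hom.toAlgebra
    rw [CommRingCat.hom_ofHom, RingHom.finite_algebraMap]
    by_cases hη : η ∈ V
    · let _ : Algebra K Γ(A, V) := (structureHom a V).toAlgebra
      let _ : Algebra K Γ(Spec (A.residueField η), (A.fromSpecResidueField η) ⁻¹ᵁ V) :=
        (((A.fromSpecResidueField η).app V).hom.comp (structureHom a V)).toAlgebra
      have : IsScalarTower K Γ(A, V)
          Γ(Spec (A.residueField η), (A.fromSpecResidueField η) ⁻¹ᵁ V) :=
        .of_algebraMap_eq' rfl
      have : Algebra.FiniteType K Γ(A, V) := finiteType_structureHom a hV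
      exact Fermat.Agent.JAC.Curves.NormChart23.finite_integralClosure_of_isField K Γ(A, V)
        Γ(Spec (A.residueField η), (A.fromSpecResidueField η) ⁻¹ᵁ V) (isField_sections η hη)
        (exists_fraction_app η hV hη)
    · have hsub : Subsingleton Γ(Spec (A.residueField η), (A.fromSpecResidueField η) ⁻¹ᵁ V) := by
        rw [preimage_eq_bot η hη]
        infer_instance
      have : Subsingleton (integralClosure Γ(A, V)
          Γ(Spec (A.residueField η), (A.fromSpecResidueField η) ⁻¹ᵁ V)) :=
        ⟨fun x y => Subtype.ext (Subsingleton.elim _ _)⟩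
      infer_instance

include a in
theorem isFinite_curveι : IsFinite (curveι η) := ⟨fun _ hV => finite_app η a hV⟩

/-- The structure map of a chart of the normalisation is locally standard smooth of relative
dimension one. -/
theorem locally_smooth_chart {U₀ : A.Opens} (hη₀ : η ∈ U₀)
    (htr : letI := (residueHom η a hη₀).toAlgebra; Algebra.trdeg K (A.residueField η) = 1)
    {V : A.Opens} (hV : IsAffineOpen V) :
    letI := ((A.fromSpecResidueField η).app V).hom.toAlgebra
    RingHom.Locally (RingHom.IsStandardSmoothOfRelativeDimension 1)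
      ((algebraMap Γ(A, V) (integralClosure Γ(A, V)
        Γ(Spec (A.residueField η), (A.fromSpecResidueField η) ⁻¹ᵁ V))).comp (structureHom a V)) := by
  let _ := ((A.fromSpecResidueField η).app V).hom.toAlgebra
  by_cases hη : η ∈ V
  · let _ : Algebra K Γ(A, V) := (structureHom a V).toAlgebra
    let _ : Algebra K Γ(Spec (A.residueField η), (A.fromSpecResidueField η) ⁻¹ᵁ V) :=
      (((A.fromSpecResidueField η).app V).hom.comp (structureHom a V)).toAlgebra
    have : IsScalarTower K Γ(A, V)
        Γ(Spec (A.residueField η), (A.fromSpecResidueField η) ⁻¹ᵁ V) :=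
      .of_algebraMap_eq' rfl
    have : Algebra.FiniteType K Γ(A, V) := finiteType_structureHom a hV
    have htr' : Algebra.trdeg K Γ(Spec (A.residueField η), (A.fromSpecResidueField η) ⁻¹ᵁ V) = 1 := by
      let _ : Algebra K (A.residueField η) := (residueHom η a hη₀).toAlgebra
      let e : Γ(Spec (A.residueField η), (A.fromSpecResidueField η) ⁻¹ᵁ V) ≃ₐ[K]
          A.residueField η :=
        AlgEquiv.ofRingEquiv (f := (secIso η hη).commRingCatIsoToRingEquiv) (fun k => by
          change (secIso η hη).hom ((A.fromSpecResidueField η).app V (structureHom a V k)) =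
            residueHom η a hη₀ k
          rw [secIso_app_apply η hV hη, residueHom_eq η a hη₀ hη]
          rfl)
      rw [e.trdeg_eq]
      exact htr
    have key := Fermat.Agent.JAC.Curves.NormChart23.locally_isStandardSmoothOfRelativeDimension_one_of_isField
      K Γ(A, V) Γ(Spec (A.residueField η), (A.fromSpecResidueField η) ⁻¹ᵁ V)
      (isField_sections η hη) (exists_fraction_app η hV hη) htr'
    exact key
  · have hsub : Subsingleton Γ(Spec (A.residueField η), (A.fromSpecResidueField η) ⁻¹ᵁ V) := by
      rw [preimage_eq_bot η hη]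
      infer_instance
    have : Subsingleton (integralClosure Γ(A, V)
        Γ(Spec (A.residueField η), (A.fromSpecResidueField η) ⁻¹ᵁ V)) :=
      ⟨fun x y => Subtype.ext (Subsingleton.elim _ _)⟩
    refine ⟨∅, Subsingleton.elim _ _, fun t ht => ?_⟩
    simp at ht

/-- **The normalised closure of a point of transcendence degree one is a smooth curve.** -/
theorem smoothOfRelativeDimension_one {U₀ : A.Opens} (hη₀ : η ∈ U₀)
    (htr : letI := (residueHom η a hη₀).toAlgebra; Algebra.trdeg K (A.residueField η) = 1) :
    SmoothOfRelativeDimension 1 (curveι η ≫ a) := by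
  refine HasRingHomProperty.of_iSup_eq_top (P := @SmoothOfRelativeDimension 1)
    (fun V : A.affineOpens => ⟨curveι η ⁻¹ᵁ V.1, V.2.preimage _⟩) ?_ ?_
  · have h1 : ⨆ V : A.affineOpens, (curveι η ⁻¹ᵁ V.1) = curveι η ⁻¹ᵁ (⨆ V : A.affineOpens, V.1) :=
      (Scheme.Hom.preimage_iSup _ _).symm
    rw [h1, iSup_affineOpens_eq_top, Scheme.Hom.preimage_top]
  · intro V
    have hQ : RingHom.RespectsIso
        (RingHom.Locally (RingHom.IsStandardSmoothOfRelativeDimension 1)) :=
      (HasRingHomProperty.isLocal_ringHomProperty (@SmoothOfRelativeDimension 1)).respectsIso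
    have h1 : (curveι η ≫ a).appLE ⊤ (curveι η ⁻¹ᵁ V.1) le_top =
        a.appLE ⊤ V.1 (le_preimage_top a V.1) ≫ (curveι η).app V.1 := by
      rw [Scheme.Hom.app_eq_appLE, Scheme.Hom.appLE_comp_appLE]
    have h2 : a.appLE ⊤ V.1 (le_preimage_top a V.1) =
        (Scheme.ΓSpecIso (.of K)).hom ≫ CommRingCat.ofHom (structureHom a V.1) := by
      rw [structureHom, CommRingCat.ofHom_hom, Iso.hom_inv_id_assoc]
    let _ := ((A.fromSpecResidueField η).app V.1).hom.toAlgebra
    dsimp only
    rw [h1, h2, Scheme.Hom.fromNormalization_app _ V.2, Category.assoc, CommRingCat.hom_comp,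
      hQ.cancel_left_isIso, ← Category.assoc, CommRingCat.hom_comp, hQ.cancel_right_isIso]
    exact locally_smooth_chart η a hη₀ htr V.2

end OverField

end Fermat.Agent.JAC.Curves.NormScheme23
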