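import Mathlib
import Fermat.Agent.JAC.Curves.NormScheme23
import Fermat.Agent.JAC.Curves.NormLocal23

set_option autoImplicit false
universe u
open CategoryTheory CategoryTheory.Limits AlgebraicGeometry TopologicalSpace Opposite

namespace Fermat.Agent.JAC.Curves.NormPoint23

open Fermat.Agent.JAC.Curves.NormScheme23 Fermat.Agent.JAC.Curves.NormLocal23

variable {A : Scheme.{u}} (η : A)

lemma primeIdealOf_fromSpec {U : A.Opens} (hU : IsAffineOpen U) (p : PrimeSpectrum Γ(A, U))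
    (h : hU.fromSpec p ∈ U) : hU.primeIdealOf ⟨hU.fromSpec p, h⟩ = p := by
  have h1 := hU.fromSpec_primeIdealOf ⟨hU.fromSpec p, h⟩
  exact hU.fromSpec.isOpenEmbedding.injective h1

lemma fromSpec_mem {U : A.Opens} (hU : IsAffineOpen U) (p : PrimeSpectrum Γ(A, U)) :
    hU.fromSpec p ∈ U := by
  have : hU.fromSpec p ∈ Set.range hU.fromSpec := Set.mem_range_self p
  rw [hU.range_fromSpec] at this
  exact this

/-- The kernel of `ι.app U` is the prime ideal of `η`. -/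
lemma ker_curveι_app {U : A.Opens} (hU : IsAffineOpen U) (hη : η ∈ U) :
    RingHom.ker ((curveι η).app U).hom = (hU.primeIdealOf ⟨η, hη⟩).asIdeal := by
  rw [← ker_app η hU hη, Scheme.Hom.fromNormalization_app _ hU]
  let _ := ((A.fromSpecResidueField η).app U).hom.toAlgebra
  ext s
  rw [RingHom.mem_ker, RingHom.mem_ker]
  have hinj : Function.Injective
      ((A.fromSpecResidueField η).normalizationObjIso hU).inv :=
    ((A.fromSpecResidueField η).normalizationObjIso hU).symm.commRingCatIsoToRingEquiv.injective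
  change ((A.fromSpecResidueField η).normalizationObjIso hU).inv
    (algebraMap Γ(A, U) (integralClosure Γ(A, U)
      Γ(Spec (A.residueField η), (A.fromSpecResidueField η) ⁻¹ᵁ U)) s) = 0 ↔
    algebraMap Γ(A, U) Γ(Spec (A.residueField η), (A.fromSpecResidueField η) ⁻¹ᵁ U) s = 0
  rw [← map_zero ((A.fromSpecResidueField η).normalizationObjIso hU).inv.hom]
  constructor
  · intro h
    have := hinj h
    exact congrArg Subtype.val this
  · intro h
    congr 1
    exact Subtype.ext h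

/-- Every section of the normalisation over `ι⁻¹ U` is a fraction of sections of `A` with
denominator outside `𝔪`, when `(B/P)_𝔪` is integrally closed. -/
lemma exists_fraction_sections {U : A.Opens} (hU : IsAffineOpen U) (hη : η ∈ U)
    (P 𝔪 : Ideal Γ(A, U)) (hP : (hU.primeIdealOf ⟨η, hη⟩).asIdeal = P)
    [hprime : (𝔪.map (Ideal.Quotient.mk P)).IsPrime]
    (hic : IsIntegrallyClosed (Localization.AtPrime (𝔪.map (Ideal.Quotient.mk P))))
    (r : Γ(curve η, curveι η ⁻¹ᵁ U)) :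
    ∃ b₁ b₂ : Γ(A, U), b₂ ∉ 𝔪 ∧
      r * ((curveι η).app U).hom b₂ = ((curveι η).app U).hom b₁ := by
  let _ := ((A.fromSpecResidueField η).app U).hom.toAlgebra
  obtain ⟨b₁, b₂, hb₂, h⟩ := exists_fraction_of_isIntegral_of_isField Γ(A, U)
    Γ(Spec (A.residueField η), (A.fromSpecResidueField η) ⁻¹ᵁ U) (isField_sections η hη)
    (exists_fraction_app η hU hη) P (by rw [← hP]; exact ker_app η hU hη) 𝔪 hic
    (((A.fromSpecResidueField η).normalizationObjIso hU).hom r).1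
    (((A.fromSpecResidueField η).normalizationObjIso hU).hom r).2
  refine ⟨b₁, b₂, hb₂, ?_⟩
  rw [Scheme.Hom.fromNormalization_app _ hU]
  have h1 : ((A.fromSpecResidueField η).normalizationObjIso hU).hom r *
      algebraMap Γ(A, U) (integralClosure Γ(A, U)
        Γ(Spec (A.residueField η), (A.fromSpecResidueField η) ⁻¹ᵁ U)) b₂ =
      algebraMap Γ(A, U) (integralClosure Γ(A, U)
        Γ(Spec (A.residueField η), (A.fromSpecResidueField η) ⁻¹ᵁ U)) b₁ := Subtype.ext h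
  have h2 := congrArg ((A.fromSpecResidueField η).normalizationObjIso hU).inv h1
  rw [map_mul] at h2
  have h3 : ((A.fromSpecResidueField η).normalizationObjIso hU).inv
      (((A.fromSpecResidueField η).normalizationObjIso hU).hom r) = r := by
    simp
  rw [h3] at h2
  exact h2

/-- The point of the normalised closure over a normal point, its stalk map, and closedness. -/
theorem exists_point_stalkMap_closed {U : A.Opens} (hU : IsAffineOpen U) (hη : η ∈ U) (y : A)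
    (hy : y ∈ U) (P 𝔪 : Ideal Γ(A, U)) (hP : (hU.primeIdealOf ⟨η, hη⟩).asIdeal = P)
    (h𝔪 : (hU.primeIdealOf ⟨y, hy⟩).asIdeal = 𝔪) (hP𝔪 : P ≤ 𝔪)
    [hprime : (𝔪.map (Ideal.Quotient.mk P)).IsPrime]
    (hic : IsIntegrallyClosed (Localization.AtPrime (𝔪.map (Ideal.Quotient.mk P)))) :
    ∃ (x : curve η) (hx : curveι η x ∈ U), curveι η x = y ∧
      Function.Surjective ((curveι η).stalkMap x) ∧
      RingHom.ker ((curveι η).stalkMap x).hom =
        P.map (A.presheaf.germ U (curveι η x) hx).hom ∧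
      (𝔪.IsMaximal → IsLocallyClosed ({x} : Set (curve η))) := by
  have hW : IsAffineOpen (curveι η ⁻¹ᵁ U) := hU.preimage (curveι η)
  have hφint : ((curveι η).app U).hom.IsIntegral := (curveι η).isIntegral_app U hU
  have hker : RingHom.ker ((curveι η).app U).hom = P := by
    rw [← hP]; exact ker_curveι_app η hU hη
  have h𝔪prime : 𝔪.IsPrime := h𝔪 ▸ (hU.primeIdealOf ⟨y, hy⟩).isPrime
  obtain ⟨𝔫, h𝔫prime, h𝔫⟩ : ∃ 𝔫 : Ideal Γ(curve η, curveι η ⁻¹ᵁ U), 𝔫.IsPrime ∧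
      𝔫.comap ((curveι η).app U).hom = 𝔪 := by
    algebraize [((curveι η).app U).hom]
    have : Algebra.IsIntegral Γ(A, U) Γ(curve η, curveι η ⁻¹ᵁ U) := ⟨hφint⟩
    obtain ⟨Q, -, hQ, hQ'⟩ := Ideal.exists_ideal_over_prime_of_isIntegral 𝔪
      (⊥ : Ideal Γ(curve η, curveι η ⁻¹ᵁ U)) (by
        change RingHom.ker ((curveι η).app U).hom ≤ 𝔪
        rw [hker]; exact hP𝔪)
    exact ⟨Q, hQ, hQ'⟩
  set x := hW.fromSpec ⟨𝔫, h𝔫prime⟩ with hx
  have hxW : x ∈ curveι η ⁻¹ᵁ U := fromSpec_mem hW _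
  have hprim : hW.primeIdealOf ⟨x, hxW⟩ = ⟨𝔫, h𝔫prime⟩ := primeIdealOf_fromSpec hW _ _
  have hcomap := IsAffineOpen.comap_primeIdealOf_appLE U hU (curveι η ⁻¹ᵁ U) hW le_rfl hxW
  rw [← Scheme.Hom.app_eq_appLE] at hcomap
  have hιx : curveι η x ∈ U := hxW
  have hprimA : (hU.primeIdealOf ⟨curveι η x, hιx⟩).asIdeal = 𝔪 := by
    rw [← hcomap, hprim]
    exact h𝔫
  have hxy : curveι η x = y := by
    have h1 : hU.primeIdealOf ⟨curveι η x, hιx⟩ = hU.primeIdealOf ⟨y, hy⟩ :=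
      PrimeSpectrum.ext (hprimA.trans h𝔪.symm)
    have h2 := hU.fromSpec_primeIdealOf ⟨curveι η x, hιx⟩
    have h3 := hU.fromSpec_primeIdealOf ⟨y, hy⟩
    rw [h1] at h2
    exact h2.symm.trans h3
  refine ⟨x, hιx, hxy, ?_⟩
  -- the stalks as localisations
  let _ := A.presheaf.algebra_section_stalk ⟨curveι η x, hιx⟩
  let _ := (curve η).presheaf.algebra_section_stalk ⟨x, hxW⟩
  have hlocA := hU.isLocalization_stalk ⟨curveι η x, hιx⟩
  have hlocC := hW.isLocalization_stalk ⟨x, hxW⟩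
  have : Nonempty (curveι η ⁻¹ᵁ U : (curve η).Opens) := ⟨⟨x, hxW⟩⟩
  have hσ : ∀ b : Γ(A, U), ((curveι η).stalkMap x).hom
      (algebraMap Γ(A, U) (A.presheaf.stalk (curveι η x)) b) =
      algebraMap Γ(curve η, curveι η ⁻¹ᵁ U) ((curve η).presheaf.stalk x)
        (((curveι η).app U).hom b) := by
    intro b
    have := congrArg (fun g => g.hom b) (Scheme.Hom.germ_stalkMap (curveι η) U x hιx)
    exact this
  have H : ∀ r : Γ(curve η, curveι η ⁻¹ᵁ U), ∃ b₁ b₂ : Γ(A, U),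
      b₂ ∉ (hU.primeIdealOf ⟨curveι η x, hιx⟩).asIdeal ∧
        r * ((curveι η).app U).hom b₂ = ((curveι η).app U).hom b₁ := by
    intro r
    rw [hprimA]
    exact exists_fraction_sections η hU hη P 𝔪 hP hic r
  have key := surjective_and_ker_of_fractions ((curveι η).app U).hom
    (hU.primeIdealOf ⟨curveι η x, hιx⟩).asIdeal (hW.primeIdealOf ⟨x, hxW⟩).asIdeal
    (by rw [hprimA, hprim]; exact h𝔫) ((curveι η).stalkMap x).hom hσ H
  refine ⟨key.1, ?_, ?_⟩
  · rw [key.2, hker]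
    rfl
  · intro hmax
    have h𝔫max : 𝔫.IsMaximal :=
      Ideal.isMaximal_of_isIntegral_of_isMaximal_comap' _ hφint 𝔫 (h𝔫 ▸ hmax)
    have hcl : IsClosed ({⟨𝔫, h𝔫prime⟩} : Set (PrimeSpectrum Γ(curve η, curveι η ⁻¹ᵁ U))) :=
      (PrimeSpectrum.isClosed_singleton_iff_isMaximal _).mpr h𝔫max
    have h1 := hcl.isLocallyClosed.image hW.fromSpec.isOpenEmbedding.isInducing
      hW.fromSpec.isOpenEmbedding.isOpen_range.isLocallyClosed
    have e : hW.fromSpec '' {⟨𝔫, h𝔫prime⟩} = ({x} : Set (curve η)) :=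
      Set.image_singleton (f := hW.fromSpec) (a := ⟨𝔫, h𝔫prime⟩)
    rw [← e]
    exact h1

/-- **The point of the normalised closure over a normal point, and its stalk map.** -/
theorem exists_point_stalkMap {U : A.Opens} (hU : IsAffineOpen U) (hη : η ∈ U) (y : A)
    (hy : y ∈ U) (P 𝔪 : Ideal Γ(A, U)) (hP : (hU.primeIdealOf ⟨η, hη⟩).asIdeal = P)
    (h𝔪 : (hU.primeIdealOf ⟨y, hy⟩).asIdeal = 𝔪) (hP𝔪 : P ≤ 𝔪)
    [hprime : (𝔪.map (Ideal.Quotient.mk P)).IsPrime]
    (hic : IsIntegrallyClosed (Localization.AtPrime (𝔪.map (Ideal.Quotient.mk P)))) :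
    ∃ (x : curve η) (hx : curveι η x ∈ U), curveι η x = y ∧
      Function.Surjective ((curveι η).stalkMap x) ∧
      RingHom.ker ((curveι η).stalkMap x).hom =
        P.map (A.presheaf.germ U (curveι η x) hx).hom := by
  obtain ⟨x, hx, h1, h2, h3, -⟩ := exists_point_stalkMap_closed η hU hη y hy P 𝔪 hP h𝔪 hP𝔪 hic
  exact ⟨x, hx, h1, h2, h3⟩

section Main

open Fermat.Agent.JAC.B2.Charts37

variable {K : Type u} [Field K] [IsAlgClosed K] (a : A ⟶ Spec (.of K)) [IsProper a]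

/-- **CU2, transcendence degree form.**  `A` proper over an algebraically closed field `K`,
`U = Spec B` an affine open, `P ⊆ 𝔪` primes of `B` such that the residue field of `P` has
transcendence degree one over `K` and `(B/P)_𝔪` is integrally closed.  Then the normalised closure
`C` of the point `P` is a smooth proper integral curve over `K`, finite over `A`, with a point `x`
over `𝔪` at which `O_{A,𝔪} → O_{C,x}` is surjective with kernel `P O_{A,𝔪}`. -/
theorem exists_curve_of_trdeg {U : A.Opens} (hU : IsAffineOpen U)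
    (P 𝔪 : Ideal Γ(A, U)) [hPprime : P.IsPrime] [h𝔪prime : 𝔪.IsPrime] (hP𝔪 : P ≤ 𝔪)
    [hprime : (𝔪.map (Ideal.Quotient.mk P)).IsPrime]
    (htr : letI := (residueHom (hU.fromSpec ⟨P, hPprime⟩) a (fromSpec_mem hU _)).toAlgebra
      Algebra.trdeg K (A.residueField (hU.fromSpec ⟨P, hPprime⟩)) = 1)
    (hic : IsIntegrallyClosed (Localization.AtPrime (𝔪.map (Ideal.Quotient.mk P)))) :
    ∃ (C : Scheme.{u}) (c : C ⟶ Spec (.of K)) (ι : C ⟶ A) (x : C) (hx : ι x ∈ U),
      ι ≫ a = c ∧ IsProper c ∧ SmoothOfRelativeDimension 1 c ∧ IsIntegral C ∧ IsFinite ι ∧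
      ι x = hU.fromSpec ⟨𝔪, h𝔪prime⟩ ∧ Function.Surjective (ι.stalkMap x) ∧
      RingHom.ker (ι.stalkMap x).hom = P.map (A.presheaf.germ U (ι x) hx).hom := by
  set η := hU.fromSpec ⟨P, hPprime⟩ with hηdef
  have hη : η ∈ U := fromSpec_mem hU _
  have hy : hU.fromSpec ⟨𝔪, h𝔪prime⟩ ∈ U := fromSpec_mem hU _
  have hPeq : (hU.primeIdealOf ⟨η, hη⟩).asIdeal = P := by
    rw [primeIdealOf_fromSpec hU ⟨P, hPprime⟩ hη]
  have h𝔪eq : (hU.primeIdealOf ⟨hU.fromSpec ⟨𝔪, h𝔪prime⟩, hy⟩).asIdeal = 𝔪 := by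
    rw [primeIdealOf_fromSpec hU ⟨𝔪, h𝔪prime⟩ hy]
  obtain ⟨x, hx, hxy, hsurj, hker⟩ := exists_point_stalkMap η hU hη _ hy P 𝔪 hPeq h𝔪eq hP𝔪 hic
  have hfin : IsFinite (curveι η) := isFinite_curveι η a
  have hsm : SmoothOfRelativeDimension 1 (curveι η ≫ a) :=
    smoothOfRelativeDimension_one η a hη htr
  exact ⟨curve η, curveι η ≫ a, curveι η, x, hx, rfl, inferInstance, hsm, inferInstance, hfin,
    hxy, hsurj, hker⟩

/-- **CU2, pointed version (transcendence degree form).**  As `exists_curve_of_trdeg`, with `𝔪`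
maximal: the point `x` is then the image of a `K`-point `c₀` of `C`, and `c₀ ≫ ι` is the `K`-point
of `A` at `𝔪`. -/
theorem exists_pointed_curve_of_trdeg {U : A.Opens} (hU : IsAffineOpen U)
    (P 𝔪 : Ideal Γ(A, U)) [hPprime : P.IsPrime] [h𝔪max : 𝔪.IsMaximal] (hP𝔪 : P ≤ 𝔪)
    [hprime : (𝔪.map (Ideal.Quotient.mk P)).IsPrime]
    (htr : letI := (residueHom (hU.fromSpec ⟨P, hPprime⟩) a (fromSpec_mem hU _)).toAlgebra
      Algebra.trdeg K (A.residueField (hU.fromSpec ⟨P, hPprime⟩)) = 1)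
    (hic : IsIntegrallyClosed (Localization.AtPrime (𝔪.map (Ideal.Quotient.mk P)))) :
    ∃ (C : Scheme.{u}) (c : C ⟶ Spec (.of K)) (ι : C ⟶ A) (c₀ : Spec (.of K) ⟶ C) (x : C)
      (hx : ι x ∈ U),
      ι ≫ a = c ∧ IsProper c ∧ SmoothOfRelativeDimension 1 c ∧ IsIntegral C ∧ IsFinite ι ∧
      c₀ ≫ c = 𝟙 _ ∧ (∀ p, c₀ p = x) ∧
      (∀ ε : Spec (.of K) ⟶ A, ε ≫ a = 𝟙 _ →
        ε (IsLocalRing.closedPoint K) = hU.fromSpec ⟨𝔪, h𝔪max.isPrime⟩ → c₀ ≫ ι = ε) ∧
      ι x = hU.fromSpec ⟨𝔪, h𝔪max.isPrime⟩ ∧ Function.Surjective (ι.stalkMap x) ∧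
      RingHom.ker (ι.stalkMap x).hom = P.map (A.presheaf.germ U (ι x) hx).hom := by
  have h𝔪prime := h𝔪max.isPrime
  set η := hU.fromSpec ⟨P, hPprime⟩ with hηdef
  have hη : η ∈ U := fromSpec_mem hU _
  have hy : hU.fromSpec ⟨𝔪, h𝔪prime⟩ ∈ U := fromSpec_mem hU _
  have hPeq : (hU.primeIdealOf ⟨η, hη⟩).asIdeal = P := by
    rw [primeIdealOf_fromSpec hU ⟨P, hPprime⟩ hη]
  have h𝔪eq : (hU.primeIdealOf ⟨hU.fromSpec ⟨𝔪, h𝔪prime⟩, hy⟩).asIdeal = 𝔪 := by
    rw [primeIdealOf_fromSpec hU ⟨𝔪, h𝔪prime⟩ hy]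
  obtain ⟨x, hx, hxy, hsurj, hker, hlc⟩ :=
    exists_point_stalkMap_closed η hU hη _ hy P 𝔪 hPeq h𝔪eq hP𝔪 hic
  have hfin : IsFinite (curveι η) := isFinite_curveι η a
  have hsm : SmoothOfRelativeDimension 1 (curveι η ≫ a) :=
    smoothOfRelativeDimension_one η a hη htr
  have hlft : LocallyOfFiniteType (curveι η ≫ a) := inferInstance
  have hjac : JacobsonSpace (curve η) := LocallyOfFiniteType.jacobsonSpace (curveι η ≫ a)
  have hcl : IsClosed ({x} : Set (curve η)) :=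
    isClosed_singleton_of_isLocallyClosed_singleton (hlc h𝔪max)
  refine ⟨curve η, curveι η ≫ a, curveι η, pointOfClosedPoint (curveι η ≫ a) x hcl, x, hx, rfl,
    inferInstance, hsm, inferInstance, hfin, pointOfClosedPoint_comp _ _ _,
    fun p => pointOfClosedPoint_apply _ _ _ p, ?_, hxy, hsurj, hker⟩
  intro ε hε hεpt
  refine ext_of_apply_closedPoint_eq a ?_ hε ?_
  · rw [Category.assoc, pointOfClosedPoint_comp]
  · have h1 : (pointOfClosedPoint (curveι η ≫ a) x hcl ≫ curveι η) (IsLocalRing.closedPoint K) =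
        curveι η (pointOfClosedPoint (curveι η ≫ a) x hcl (IsLocalRing.closedPoint K)) := rfl
    have h2 := pointOfClosedPoint_apply (curveι η ≫ a) x hcl (IsLocalRing.closedPoint K)
    rw [h1]
    exact (congrArg (curveι η) h2).trans (hxy.trans hεpt.symm)

end Main

end Fermat.Agent.JAC.Curves.NormPoint23
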