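import Mathlib
import Fermat.Agent.JAC.Curves.NormPoint23
import Fermat.Agent.JAC.Curves.DimOne64

set_option autoImplicit false
universe u
open CategoryTheory CategoryTheory.Limits AlgebraicGeometry TopologicalSpace Opposite

namespace Fermat.Agent.JAC.Curves.NormCurve23

open Fermat.Agent.JAC.Curves.NormScheme23 Fermat.Agent.JAC.Curves.NormPoint23
open Fermat.Agent.JAC.B2.Charts37

variable {A : Scheme.{u}} {K : Type u} [Field K] (a : A ⟶ Spec (.of K))

/-- The residue field of the point `P` of an affine open `Spec B`, of finite type over `K`, has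
transcendence degree one over `K` as soon as `(B/P)_𝔪` is a discrete valuation ring for one maximal
ideal `𝔪 ⊇ P`. -/
theorem trdeg_residueField_eq_one [LocallyOfFiniteType a] {U : A.Opens} (hU : IsAffineOpen U)
    (P 𝔪 : Ideal Γ(A, U)) [hPprime : P.IsPrime] [h𝔪max : 𝔪.IsMaximal] (hP𝔪 : P ≤ 𝔪)
    [hprime : (𝔪.map (Ideal.Quotient.mk P)).IsPrime]
    (hreg : IsDiscreteValuationRing (Localization.AtPrime (𝔪.map (Ideal.Quotient.mk P)))) :
    letI := (residueHom (hU.fromSpec ⟨P, hPprime⟩) a (fromSpec_mem hU _)).toAlgebra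
    Algebra.trdeg K (A.residueField (hU.fromSpec ⟨P, hPprime⟩)) = 1 := by
  set η := hU.fromSpec ⟨P, hPprime⟩ with hηdef
  have hη : η ∈ U := fromSpec_mem hU _
  have hPeq : (hU.primeIdealOf ⟨η, hη⟩).asIdeal = P := by
    rw [primeIdealOf_fromSpec hU ⟨P, hPprime⟩ hη]
  have hker : RingHom.ker (A.evaluation U η hη).hom = P := by
    rw [ker_evaluation η hU hη, hPeq]
  let _ : Algebra K Γ(A, U) := (structureHom a U).toAlgebra
  have : Algebra.FiniteType K Γ(A, U) := finiteType_structureHom a hU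
  let _ : Algebra K (A.residueField η) := (residueHom η a hη).toAlgebra
  set ψ : Γ(A, U) ⧸ P →+* A.residueField η := Ideal.Quotient.lift P (A.evaluation U η hη).hom
    (fun b hb => by rw [← hker] at hb; exact RingHom.mem_ker.mp hb) with hψ
  have hψinj : Function.Injective ψ := by
    rw [injective_iff_map_eq_zero]
    intro b hb
    obtain ⟨b, rfl⟩ := Ideal.Quotient.mk_surjective b
    rw [hψ, Ideal.Quotient.lift_mk] at hb
    rw [Ideal.Quotient.eq_zero_iff_mem, ← hker]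
    exact hb
  let _ : Algebra (Γ(A, U) ⧸ P) (A.residueField η) := ψ.toAlgebra
  have hψalg : ∀ b : Γ(A, U), algebraMap (Γ(A, U) ⧸ P) (A.residueField η)
      (Ideal.Quotient.mk P b) = A.evaluation U η hη b :=
    fun b => Ideal.Quotient.lift_mk _ _ _
  have : IsScalarTower K (Γ(A, U) ⧸ P) (A.residueField η) :=
    IsScalarTower.of_algebraMap_eq fun k => (hψalg (structureHom a U k)).symm
  have : FaithfulSMul (Γ(A, U) ⧸ P) (A.residueField η) :=
    (faithfulSMul_iff_algebraMap_injective _ _).mpr hψinj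
  have hfr : IsFractionRing (Γ(A, U) ⧸ P) (A.residueField η) := by
    refine IsFractionRing.of_field _ _ fun z => ?_
    obtain ⟨s, t, ht, hz⟩ := exists_fraction_evaluation η hU hη z
    refine ⟨Ideal.Quotient.mk P s, Ideal.Quotient.mk P t, ?_⟩
    rw [hψalg, hψalg, eq_div_iff ht, hz]
  set 𝔪' : Ideal (Γ(A, U) ⧸ P) := 𝔪.map (Ideal.Quotient.mk P) with h𝔪'
  have hmax : 𝔪'.IsMaximal := by
    refine Ideal.IsMaximal.map_of_surjective_of_ker_le Ideal.Quotient.mk_surjective ?_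
    rw [Ideal.mk_ker]
    exact hP𝔪
  have hheight : 𝔪'.height = 1 := by
    have h1 := IsLocalization.AtPrime.ringKrullDim_eq_height 𝔪' (Localization.AtPrime 𝔪')
    have h2 : ringKrullDim (Localization.AtPrime 𝔪') = 1 :=
      IsDiscreteValuationRing.ringKrullDim_eq_one _
    rw [h2] at h1
    exact_mod_cast h1.symm
  exact Fermat.Agent.JAC.Curves.DimOne64.trdeg_eq_one_of_height_eq_one K (Γ(A, U) ⧸ P)
    (A.residueField η) 𝔪' hheight

variable [IsAlgClosed K] [IsProper a]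

/-- **CU2 (global curves).**  `A` proper over an algebraically closed field `K`, `U = Spec B` an
affine open, `P ⊆ 𝔪` a prime and a maximal ideal of `B` such that `(B/P)_𝔪` is a discrete valuation
ring.  Then there are a smooth proper integral curve `c : C ⟶ Spec K`, a finite morphism
`ι : C ⟶ A` over `K` and a point `x` of `C` over `𝔪` at which `O_{A,𝔪} → O_{C,x}` is surjective
with kernel `P O_{A,𝔪}`.  (`C` is the normalisation of the closure of the point `P`.) -/
theorem exists_curve_of_dvr {U : A.Opens} (hU : IsAffineOpen U)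
    (P 𝔪 : Ideal Γ(A, U)) [hPprime : P.IsPrime] [h𝔪max : 𝔪.IsMaximal] (hP𝔪 : P ≤ 𝔪)
    [hprime : (𝔪.map (Ideal.Quotient.mk P)).IsPrime]
    (hreg : IsDiscreteValuationRing (Localization.AtPrime (𝔪.map (Ideal.Quotient.mk P)))) :
    ∃ (C : Scheme.{u}) (c : C ⟶ Spec (.of K)) (ι : C ⟶ A) (x : C) (hx : ι x ∈ U),
      ι ≫ a = c ∧ IsProper c ∧ SmoothOfRelativeDimension 1 c ∧ IsIntegral C ∧ IsFinite ι ∧
      ι x = hU.fromSpec ⟨𝔪, h𝔪max.isPrime⟩ ∧ Function.Surjective (ι.stalkMap x) ∧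
      RingHom.ker (ι.stalkMap x).hom = P.map (A.presheaf.germ U (ι x) hx).hom :=
  haveI := h𝔪max.isPrime
  exists_curve_of_trdeg a hU P 𝔪 hP𝔪 (trdeg_residueField_eq_one a hU P 𝔪 hP𝔪 hreg) inferInstance

/-- **CU2 (global curves), pointed version.**  As `exists_curve_of_dvr`, together with the
`K`-point `c₀` of `C` at `x`; `c₀ ≫ ι` is the `K`-point of `A` at `𝔪`. -/
theorem exists_pointed_curve_of_dvr {U : A.Opens} (hU : IsAffineOpen U)
    (P 𝔪 : Ideal Γ(A, U)) [hPprime : P.IsPrime] [h𝔪max : 𝔪.IsMaximal] (hP𝔪 : P ≤ 𝔪)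
    [hprime : (𝔪.map (Ideal.Quotient.mk P)).IsPrime]
    (hreg : IsDiscreteValuationRing (Localization.AtPrime (𝔪.map (Ideal.Quotient.mk P)))) :
    ∃ (C : Scheme.{u}) (c : C ⟶ Spec (.of K)) (ι : C ⟶ A) (c₀ : Spec (.of K) ⟶ C) (x : C)
      (hx : ι x ∈ U),
      ι ≫ a = c ∧ IsProper c ∧ SmoothOfRelativeDimension 1 c ∧ IsIntegral C ∧ IsFinite ι ∧
      c₀ ≫ c = 𝟙 _ ∧ (∀ p, c₀ p = x) ∧
      (∀ ε : Spec (.of K) ⟶ A, ε ≫ a = 𝟙 _ →
        ε (IsLocalRing.closedPoint K) = hU.fromSpec ⟨𝔪, h𝔪max.isPrime⟩ → c₀ ≫ ι = ε) ∧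
      ι x = hU.fromSpec ⟨𝔪, h𝔪max.isPrime⟩ ∧ Function.Surjective (ι.stalkMap x) ∧
      RingHom.ker (ι.stalkMap x).hom = P.map (A.presheaf.germ U (ι x) hx).hom :=
  exists_pointed_curve_of_trdeg a hU P 𝔪 hP𝔪 (trdeg_residueField_eq_one a hU P 𝔪 hP𝔪 hreg)
    inferInstance

end Fermat.Agent.JAC.Curves.NormCurve23
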