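/-
JAC / S26 track, chapter CURVES (helper64), brick P1: the origin package.

For a smooth `K`-scheme `A` of relative dimension `g` with a rational point `o = ε p`: an affine
chart `U ∋ o`, coordinates `t : Fin g → 𝔪_{A,o}`, and the primes `P i ⊂ Γ(A, U)` of the `g`
coordinate curves through `o`, with every property consumed by the global curve construction
(`NormPoint23.exists_curve_of_trdeg`) and by `StalkInj64.injective_stalkMapAt_of_axes`.
-/
import Mathlib
import Fermat.Agent.JAC.Curves.Chart31
import Fermat.Agent.JAC.Curves.AffineCurve64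
import Fermat.Agent.JAC.Curves.CotDim64

set_option autoImplicit false
set_option linter.style.haveILetI false

universe u

open AlgebraicGeometry CategoryTheory TopologicalSpace IsLocalRing

namespace Fermat.Agent.JAC.Curves.Origin64

open Fermat.Agent.JAC.AV Fermat.Agent.JAC.Curves.Chart31 Fermat.Agent.JAC.Curves.LocalCurve64
open Fermat.Agent.JAC.Curves.AffineCurve64

/-- Coordinates of a noetherian local ring, indexed by `Fin g` where `g` is the dimension of the
cotangent space. -/
theorem exists_coords_of_finrank {C : Type*} [CommRing C] [IsLocalRing C] [IsNoetherianRing C]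
    {g : ℕ} (hfin : Module.finrank (ResidueField C) (CotangentSpace C) = g) :
    ∃ t : Fin g → maximalIdeal C,
      LinearIndependent (ResidueField C) (fun i => (maximalIdeal C).toCotangent (t i)) ∧
      ⊤ ≤ Submodule.span (ResidueField C)
        (Set.range fun i => (maximalIdeal C).toCotangent (t i)) := by
  subst hfin
  let bas : Module.Basis (Fin (Module.finrank (ResidueField C) (CotangentSpace C)))
    (ResidueField C) (CotangentSpace C) := Module.finBasis _ _
  have hsurj := (maximalIdeal C).toCotangent_surjective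
  choose t ht using fun i => hsurj (bas i)
  refine ⟨t, ?_, ?_⟩
  · have : (fun i => (maximalIdeal C).toCotangent (t i)) = bas := funext ht
    rw [this]
    exact bas.linearIndependent
  · have : (fun i => (maximalIdeal C).toCotangent (t i)) = bas := funext ht
    rw [this, bas.span_eq]

theorem isIntegrallyClosed_of_dvr (R : Type*) [CommRing R] [IsDomain R]
    (h : IsDiscreteValuationRing R) : IsIntegrallyClosed R := by
  have : IsPrincipalIdealRing R := h.toIsPrincipalIdealRing
  exact UniqueFactorizationMonoid.instIsIntegrallyClosed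

variable {K : Type u} [Field K] {A : Scheme.{u}} (f : A ⟶ Spec (CommRingCat.of K))

/-- **P1: the origin package.** -/
theorem exists_origin (g : ℕ) [SmoothOfRelativeDimension g f]
    (ε : Spec (CommRingCat.of K) ⟶ A) (hε : ε ≫ f = 𝟙 _) (p : Spec (CommRingCat.of K)) :
    ∃ (U : A.Opens) (hU : IsAffineOpen U) (ho : ε.base p ∈ U)
      (t : Fin g → maximalIdeal (A.presheaf.stalk (ε.base p))),
      LinearIndependent (ResidueField (A.presheaf.stalk (ε.base p)))
        (fun i => (maximalIdeal (A.presheaf.stalk (ε.base p))).toCotangent (t i)) ∧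
      ⊤ ≤ Submodule.span (ResidueField (A.presheaf.stalk (ε.base p)))
        (Set.range fun i => (maximalIdeal (A.presheaf.stalk (ε.base p))).toCotangent (t i)) ∧
      (letI := Charts66.algebraΓ f U; Algebra.FiniteType K Γ(A, U)) ∧
      (hU.primeIdealOf ⟨ε.base p, ho⟩).asIdeal.IsMaximal ∧
      ∀ i : Fin g,
        ((curveIdeal (fun j => (t j : A.presheaf.stalk (ε.base p))) i).comap
          (A.presheaf.germ U (ε.base p) ho).hom).IsPrime ∧
        (curveIdeal (fun j => (t j : A.presheaf.stalk (ε.base p))) i).comap
          (A.presheaf.germ U (ε.base p) ho).hom ≤ (hU.primeIdealOf ⟨ε.base p, ho⟩).asIdeal ∧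
        (curveIdeal (fun j => (t j : A.presheaf.stalk (ε.base p))) i).comap
          (A.presheaf.germ U (ε.base p) ho).hom ≠ (hU.primeIdealOf ⟨ε.base p, ho⟩).asIdeal ∧
        ((hU.primeIdealOf ⟨ε.base p, ho⟩).asIdeal.map (Ideal.Quotient.mk
          ((curveIdeal (fun j => (t j : A.presheaf.stalk (ε.base p))) i).comap
            (A.presheaf.germ U (ε.base p) ho).hom))).IsMaximal ∧
        ((hU.primeIdealOf ⟨ε.base p, ho⟩).asIdeal.map (Ideal.Quotient.mk
          ((curveIdeal (fun j => (t j : A.presheaf.stalk (ε.base p))) i).comap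
            (A.presheaf.germ U (ε.base p) ho).hom))).height = 1 ∧
        ((curveIdeal (fun j => (t j : A.presheaf.stalk (ε.base p))) i).comap
          (A.presheaf.germ U (ε.base p) ho).hom).map (A.presheaf.germ U (ε.base p) ho).hom =
          curveIdeal (fun j => (t j : A.presheaf.stalk (ε.base p))) i ∧
        ∀ [hPprime : ((curveIdeal (fun j => (t j : A.presheaf.stalk (ε.base p))) i).comap
            (A.presheaf.germ U (ε.base p) ho).hom).IsPrime]
          [hprime : ((hU.primeIdealOf ⟨ε.base p, ho⟩).asIdeal.map (Ideal.Quotient.mk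
          ((curveIdeal (fun j => (t j : A.presheaf.stalk (ε.base p))) i).comap
            (A.presheaf.germ U (ε.base p) ho).hom))).IsPrime],
          IsDiscreteValuationRing (Localization.AtPrime
            ((hU.primeIdealOf ⟨ε.base p, ho⟩).asIdeal.map (Ideal.Quotient.mk
              ((curveIdeal (fun j => (t j : A.presheaf.stalk (ε.base p))) i).comap
                (A.presheaf.germ U (ε.base p) ho).hom)))) := by
  obtain ⟨U, hU, ho, hsm, hmax, hsurjK, -⟩ := exists_chart f g ε hε p
  refine ⟨U, hU, ho, ?_⟩
  letI := Charts66.algebraΓ f U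
  letI := A.presheaf.algebra_section_stalk ⟨ε.base p, ho⟩
  letI := algebraStalk f (ε.base p)
  have hst := isScalarTower_stalk f ho
  have hloc := hU.isLocalization_stalk ⟨ε.base p, ho⟩
  obtain ⟨hN, hFS, hres⟩ := stalk_package f g ε hε p
  have hss : Algebra.IsStandardSmooth K Γ(A, U) := hsm.isStandardSmooth
  have hft : Algebra.FiniteType K Γ(A, U) := inferInstance
  have hfin := CotDim64.finrank_cotangentSpace_of_isLocalization g
    (hU.primeIdealOf ⟨ε.base p, ho⟩).asIdeal (A.presheaf.stalk (ε.base p)) hres
  obtain ⟨t, hli, hsp⟩ := exists_coords_of_finrank hfin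
  refine ⟨t, hli, hsp, hft, hmax, fun i => ?_⟩
  have hP : (curveIdeal (fun j => (t j : A.presheaf.stalk (ε.base p))) i).comap
      (A.presheaf.germ U (ε.base p) ho).hom = curvePrime Γ(A, U) t i := rfl
  rw [hP]
  refine ⟨isPrime_curvePrime hres t hli hsp i,
    curvePrime_le (hU.primeIdealOf ⟨ε.base p, ho⟩).asIdeal hres t hli hsp i,
    curvePrime_ne (hU.primeIdealOf ⟨ε.base p, ho⟩).asIdeal hres t hli hsp i,
    isMaximal_map_mk_curvePrime (hU.primeIdealOf ⟨ε.base p, ho⟩).asIdeal hres t hli hsp i,
    height_map_mk_curvePrime (hU.primeIdealOf ⟨ε.base p, ho⟩).asIdeal hres t hli hsp i,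
    map_curvePrime (hU.primeIdealOf ⟨ε.base p, ho⟩).asIdeal hres t hli hsp i, ?_⟩
  intro hPprime hprime
  exact isDiscreteValuationRing_localization_curvePrime
    (hU.primeIdealOf ⟨ε.base p, ho⟩).asIdeal hres t hli hsp i

end Fermat.Agent.JAC.Curves.Origin64
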