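import Mathlib
import Fermat.Agent.JAC.Cube.Induct6

/-!
# JAC / S26 track, chapter CURVES, brick ProdSmooth (helper63)

The product `C₁ × (C₂ × (⋯ × pt))` of a list of pointed `k`-schemes, each smooth of relative
dimension `1` over `k`, is smooth of relative dimension `l.length` over `k`.
-/

set_option autoImplicit false

universe u

open CategoryTheory CategoryTheory.Limits AlgebraicGeometry MonoidalCategory
  CartesianMonoidalCategory

namespace Fermat.Agent.JAC.Curves.ProdSmooth63

open Fermat.Agent.JAC.Cube.Step6 Fermat.Agent.JAC.Cube.Induct6

noncomputable section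

variable {k : Type u} [Field k]

/-- The structure morphism of a product in `Over S`. -/
theorem tensor_hom {S : Scheme.{u}} (X Y : Over S) :
    (X ⊗ Y).hom = pullback.fst X.hom Y.hom ≫ X.hom := rfl

/-- A product of smooth `S`-schemes of relative dimensions `n` and `m` is smooth of relative
dimension `m + n`. -/
theorem smoothOfRelativeDimension_tensor {S : Scheme.{u}} (X Y : Over S) (n m : ℕ)
    [hX : SmoothOfRelativeDimension n X.hom] [hY : SmoothOfRelativeDimension m Y.hom] :
    SmoothOfRelativeDimension (m + n) (X ⊗ Y).hom := by
  rw [tensor_hom]
  have hbc := smoothOfRelativeDimension_isStableUnderBaseChange m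
  have : SmoothOfRelativeDimension m (pullback.fst X.hom Y.hom) :=
    hbc.of_isPullback (IsPullback.of_hasPullback X.hom Y.hom).flip hY
  infer_instance

/-- The unit of `Over S` is smooth of relative dimension `0`. -/
theorem smoothOfRelativeDimension_unit (S : Scheme.{u}) :
    SmoothOfRelativeDimension 0 (𝟙_ (Over S)).hom :=
  inferInstanceAs (SmoothOfRelativeDimension 0 (𝟙 S))

variable {N : NiceClass k}

/-- **ProdSmooth.**  The product of a list of pointed `k`-schemes which are smooth of relative
dimension `1` is smooth of relative dimension the length of the list. -/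
theorem smoothOfRelativeDimension_prodObj :
    ∀ (l : List (PointedJac N)), (∀ c ∈ l, SmoothOfRelativeDimension 1 c.obj.hom) →
      SmoothOfRelativeDimension l.length (prodObj l).hom
  | [], _ => smoothOfRelativeDimension_unit (Sk k)
  | c :: l, h => by
    have h1 : SmoothOfRelativeDimension 1 c.obj.hom := h c (List.mem_cons_self)
    have h2 : SmoothOfRelativeDimension l.length (prodObj l).hom :=
      smoothOfRelativeDimension_prodObj l (fun c' hc' => h c' (List.mem_cons_of_mem _ hc'))
    exact smoothOfRelativeDimension_tensor c.obj (prodObj l) 1 l.length

/-- The same with weights: the relative dimension of the product is the sum of the relative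
dimensions of the factors. -/
theorem smoothOfRelativeDimension_prodObj_sum (d : PointedJac N → ℕ) :
    ∀ (l : List (PointedJac N)), (∀ c ∈ l, SmoothOfRelativeDimension (d c) c.obj.hom) →
      SmoothOfRelativeDimension (l.map d).sum (prodObj l).hom
  | [], _ => smoothOfRelativeDimension_unit (Sk k)
  | c :: l, h => by
    have h1 : SmoothOfRelativeDimension (d c) c.obj.hom := h c (List.mem_cons_self)
    have h2 : SmoothOfRelativeDimension (l.map d).sum (prodObj l).hom :=
      smoothOfRelativeDimension_prodObj_sum d l
        (fun c' hc' => h c' (List.mem_cons_of_mem _ hc'))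
    have h3 := smoothOfRelativeDimension_tensor c.obj (prodObj l) (d c) (l.map d).sum
    rw [List.map_cons, List.sum_cons, add_comm]
    exact h3

/-- In particular the product is smooth. -/
theorem smooth_prodObj (l : List (PointedJac N))
    (h : ∀ c ∈ l, SmoothOfRelativeDimension 1 c.obj.hom) : Smooth (prodObj l).hom :=
  haveI := smoothOfRelativeDimension_prodObj l h
  SmoothOfRelativeDimension.smooth l.length (prodObj l).hom

end

end Fermat.Agent.JAC.Curves.ProdSmooth63
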