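import Mathlib
import Fermat.Agent.JAC.Curves.ProdSmooth63
import Fermat.Agent.JAC.Curves.FinExtScheme63

/-!
# JAC / S26 track, chapter CURVES (helper63): `hfd` of the curve package

For a dominant `k`-morphism `σ : C₁ × ⋯ × C_g ⟶ A` from a product of `g` smooth pointed curves to
an integral `k`-scheme smooth of relative dimension `g` (`k` perfect), the extension of function
fields is finite.
-/

set_option autoImplicit false

universe u

open CategoryTheory CategoryTheory.Limits AlgebraicGeometry MonoidalCategory
  CartesianMonoidalCategory

namespace Fermat.Agent.JAC.Curves.ProdFinExt63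

open Fermat.Agent.JAC.Cube.Step6 Fermat.Agent.JAC.Cube.Induct6 Fermat.Agent.JAC.Div2.Pull69

noncomputable section

variable {k : Type u} [Field k] {N : NiceClass k}

/-- **`hfd` of the curve package.** -/
theorem finiteDimensional_functionField_prodObj [PerfectField k] {A : Scheme.{u}} [IsIntegral A]
    (f : A ⟶ Spec (CommRingCat.of k)) (g : ℕ) [SmoothOfRelativeDimension g f]
    (l : List (PointedJac N)) (hl : ∀ c ∈ l, SmoothOfRelativeDimension 1 c.obj.hom)
    (hlen : l.length = g) [IsIntegral (prodObj l).left]
    (σ : (prodObj l).left ⟶ A) [IsDominant σ] (hσ : σ ≫ f = (prodObj l).hom) :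
    letI := (pullFun σ).toAlgebra
    FiniteDimensional A.functionField (prodObj l).left.functionField := by
  have h1 : SmoothOfRelativeDimension l.length (prodObj l).hom :=
    ProdSmooth63.smoothOfRelativeDimension_prodObj l hl
  rw [hlen] at h1
  exact FinExtScheme63.finiteDimensional_functionField_of_smooth σ (prodObj l).hom f hσ g

end

end Fermat.Agent.JAC.Curves.ProdFinExt63
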