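/-
Programme JAC, S26 track, chapter Curves (helper66).

**ProdSmooth**: a product of `r` pointed `k`-schemes, each smooth of relative dimension `1`, is
smooth of relative dimension `r` over `k`.
-/
import Mathlib
import Fermat.Agent.JAC.Cube.Induct6

set_option autoImplicit false

open CategoryTheory CategoryTheory.Limits AlgebraicGeometry MonoidalCategory
  CartesianMonoidalCategory

universe u

namespace Fermat.Agent.JAC.Curves.ProdSmooth66

open Fermat.Agent.JAC.Cube.Step6 Fermat.Agent.JAC.Cube.Induct6

variable {k : Type u} [Field k]

/-- Tensor products in `Over (Sk k)`: relative dimensions add. -/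
theorem smoothOfRelativeDimension_tensor (X Y : Over (Sk k)) (n m : ℕ)
    [hX : SmoothOfRelativeDimension n X.hom] [hY : SmoothOfRelativeDimension m Y.hom] :
    SmoothOfRelativeDimension (m + n) (X ⊗ Y).hom := by
  change SmoothOfRelativeDimension (m + n) (pullback.fst X.hom Y.hom ≫ X.hom)
  have hst := smoothOfRelativeDimension_isStableUnderBaseChange.{u} m
  have : SmoothOfRelativeDimension m (pullback.fst X.hom Y.hom) :=
    hst.of_isPullback (IsPullback.of_hasPullback X.hom Y.hom).flip hY
  infer_instance

/-- The unit of `Over (Sk k)` is smooth of relative dimension `0`. -/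
theorem smoothOfRelativeDimension_unit :
    SmoothOfRelativeDimension 0 (𝟙_ (Over (Sk k))).hom := by
  change SmoothOfRelativeDimension 0 (𝟙 (Sk k))
  infer_instance

variable {N : NiceClass k}

/-- **ProdSmooth**: the product of a list of pointed schemes, each smooth of relative dimension `1`,
is smooth of relative dimension the length of the list. -/
theorem smoothOfRelativeDimension_prodObj : ∀ (l : List (PointedJac N))
    (_ : ∀ c ∈ l, SmoothOfRelativeDimension 1 c.obj.hom),
    SmoothOfRelativeDimension l.length (prodObj l).hom
  | [], _ => smoothOfRelativeDimension_unit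
  | c :: l, h => by
    have : SmoothOfRelativeDimension 1 c.obj.hom := h c (List.mem_cons_self ..)
    have : SmoothOfRelativeDimension l.length (prodObj l).hom :=
      smoothOfRelativeDimension_prodObj l (fun c' hc' => h c' (List.mem_cons_of_mem _ hc'))
    exact smoothOfRelativeDimension_tensor c.obj (prodObj l) 1 l.length

/-- The `List.ofFn` form used by CURVES. -/
theorem smoothOfRelativeDimension_prodObj_ofFn {g : ℕ} (c : Fin g → PointedJac N)
    (h : ∀ i, SmoothOfRelativeDimension 1 (c i).obj.hom) :
    SmoothOfRelativeDimension g (prodObj (List.ofFn c)).hom := by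
  have := smoothOfRelativeDimension_prodObj (List.ofFn c) (by
    intro c' hc'
    obtain ⟨i, rfl⟩ := (List.mem_ofFn' c c').mp hc'
    exact h i)
  rwa [List.length_ofFn] at this

end Fermat.Agent.JAC.Curves.ProdSmooth66
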