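/-
S26-track, brick CU3-S2 (helper50): the "sum of curves" morphism.

For a list `l` of pointed `K`-schemes (curves with Jacobians, `Induct6.PointedJac`) and pointed
`K`-morphisms `ι i : C_i ⟶ A` into a commutative group scheme `(A, L)` over `K`, the morphism
`sumMap : C_1 × (C_2 × ⋯) ⟶ A`, `(x_1, x_2, …) ↦ ι_1 x_1 + ι_2 x_2 + ⋯` (a product in the point
group `AV/Basic66.pointCommGroup`), the axis inclusions `axis l i : C_i ⟶ ∏ C_j` (base points
elsewhere), and `axis l i ≫ sumMap = ι i`.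
-/
import Fermat.Agent.JAC.Cube.QuadraticCl1

set_option autoImplicit false

universe u

open CategoryTheory CategoryTheory.Limits AlgebraicGeometry MonoidalCategory
  CartesianMonoidalCategory NeronModelInfra GoodReductionJacobian

namespace Fermat.Agent.JAC.Curves.SumMap50

open Fermat.Agent.JAC.Cube.Induct6 Fermat.Agent.JAC.Cube.QuadraticCl1

noncomputable section

variable {K : Type u} [Field K] {A : Scheme.{u}} {f : A ⟶ Spec (CommRingCat.of K)}
  (L : RelativeGroupLaw K f) (hc : L.IsCommutative) {N : NiceClass K}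

/-! ### Sums of points -/

/-- The point `(x_1, x_2, …) ↦ ∏ x_i ∘ pr_i` of `A` with values in the product of the list. -/
def sumPt : ∀ (l : List (PointedJac N)) (_ : ∀ i : Fin l.length, Pts L hc (l.get i).obj),
    Pts L hc (prodObj l)
  | [], _ => 1
  | c :: l, x => compHom L hc (fst c.obj (prodObj l)) (x ⟨0, Nat.succ_pos _⟩) *
      compHom L hc (snd c.obj (prodObj l)) (sumPt l (fun i => x i.succ))

theorem sumPt_nil (x : ∀ i : Fin ([] : List (PointedJac N)).length,
    Pts L hc (([] : List (PointedJac N)).get i).obj) : sumPt L hc [] x = 1 := rfl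

theorem sumPt_cons (c : PointedJac N) (l : List (PointedJac N))
    (x : ∀ i : Fin (c :: l).length, Pts L hc ((c :: l).get i).obj) :
    sumPt L hc (c :: l) x = compHom L hc (fst c.obj (prodObj l)) (x ⟨0, Nat.succ_pos _⟩) *
      compHom L hc (snd c.obj (prodObj l)) (sumPt L hc l (fun i => x i.succ)) := rfl

/-- Restriction of a sum over `c :: l` along a morphism into the product. -/
theorem compHom_sumPt_cons (c : PointedJac N) (l : List (PointedJac N)) {Y : Over (Sk K)}
    (ψ : Y ⟶ c.obj ⊗ prodObj l)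
    (x : ∀ i : Fin (c :: l).length, Pts L hc ((c :: l).get i).obj) :
    compHom L hc (show Y ⟶ prodObj (c :: l) from ψ) (sumPt L hc (c :: l) x) =
      compHom L hc (ψ ≫ fst c.obj (prodObj l)) (x ⟨0, Nat.succ_pos _⟩) *
        compHom L hc (ψ ≫ snd c.obj (prodObj l)) (sumPt L hc l (fun i => x i.succ)) := by
  rw [compHom_comp, compHom_comp]
  exact map_mul (compHom L hc ψ) _ _

/-- If all the `x i` are pointed, so is their sum. -/
theorem compHom_prodPt_sumPt : ∀ (l : List (PointedJac N))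
    (x : ∀ i : Fin l.length, Pts L hc (l.get i).obj)
    (_ : ∀ i, compHom L hc (l.get i).pt (x i) = 1),
    compHom L hc (prodPt l) (sumPt L hc l x) = 1
  | [], _, _ => map_one _
  | c :: l, x, hx => by
    refine (compHom_sumPt_cons L hc c l (prodPt (c :: l)) x).trans ?_
    have h1 : prodPt (c :: l) ≫ fst c.obj (prodObj l) = c.pt := lift_fst _ _
    have h2 : prodPt (c :: l) ≫ snd c.obj (prodObj l) = prodPt l := lift_snd _ _
    have e1 : compHom L hc c.pt (x ⟨0, Nat.succ_pos _⟩) = 1 := hx ⟨0, Nat.succ_pos _⟩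
    have e2 := compHom_prodPt_sumPt l (fun i => x i.succ) (fun i => hx i.succ)
    exact (congrArg₂ (· * ·) ((compHom_congr h1 _).trans e1)
      ((compHom_congr h2 _).trans e2)).trans (mul_one 1)

/-! ### Axes -/

/-- The `i`-th axis `C_i ⟶ ∏ C_j`: the identity in the `i`-th factor, base points elsewhere. -/
def axis : ∀ (l : List (PointedJac N)) (i : Fin l.length), (l.get i).obj ⟶ prodObj l
  | [], i => i.elim0
  | c :: l, ⟨0, _⟩ => lift (𝟙 c.obj) (toUnit _ ≫ prodPt l)
  | c :: l, ⟨i + 1, h⟩ => lift (toUnit _ ≫ c.pt) (axis l ⟨i, Nat.lt_of_succ_lt_succ h⟩)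

theorem axis_zero (c : PointedJac N) (l : List (PointedJac N)) :
    axis (c :: l) ⟨0, Nat.succ_pos _⟩ = lift (𝟙 c.obj) (toUnit _ ≫ prodPt l) := rfl

theorem axis_succ (c : PointedJac N) (l : List (PointedJac N)) (i : Fin l.length) :
    axis (c :: l) i.succ = lift (toUnit _ ≫ c.pt) (axis l i) := rfl

/-- The axes pass through the base point. -/
theorem pt_axis : ∀ (l : List (PointedJac N)) (i : Fin l.length),
    (l.get i).pt ≫ axis l i = prodPt l
  | [], i => i.elim0
  | c :: l, ⟨0, _⟩ => by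
    change c.pt ≫ lift (𝟙 c.obj) (toUnit _ ≫ prodPt l) = lift c.pt (prodPt l)
    rw [comp_lift, Category.comp_id, ← Category.assoc, toUnit_unique (c.pt ≫ toUnit _) (𝟙 _),
      Category.id_comp]
  | c :: l, ⟨i + 1, h⟩ => by
    change (l.get ⟨i, Nat.lt_of_succ_lt_succ h⟩).pt ≫
      lift (toUnit _ ≫ c.pt) (axis l ⟨i, Nat.lt_of_succ_lt_succ h⟩) = lift c.pt (prodPt l)
    rw [comp_lift, pt_axis l ⟨i, Nat.lt_of_succ_lt_succ h⟩, ← Category.assoc,
      toUnit_unique (_ ≫ toUnit _) (𝟙 _), Category.id_comp]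

/-- **The sum restricted to the `i`-th axis is the `i`-th point.** -/
theorem compHom_axis_sumPt : ∀ (l : List (PointedJac N)) (i : Fin l.length)
    (x : ∀ i : Fin l.length, Pts L hc (l.get i).obj)
    (_ : ∀ i, compHom L hc (l.get i).pt (x i) = 1),
    compHom L hc (axis l i) (sumPt L hc l x) = x i
  | [], i, _, _ => i.elim0
  | c :: l, ⟨0, _⟩, x, hx => by
    refine (compHom_sumPt_cons L hc c l (axis (c :: l) ⟨0, Nat.succ_pos _⟩) x).trans ?_
    have h1 : axis (c :: l) ⟨0, Nat.succ_pos _⟩ ≫ fst c.obj (prodObj l) = 𝟙 c.obj :=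
      lift_fst _ _
    have h2 : axis (c :: l) ⟨0, Nat.succ_pos _⟩ ≫ snd c.obj (prodObj l) =
        toUnit c.obj ≫ prodPt l := lift_snd _ _
    have e2 : compHom L hc (toUnit c.obj ≫ prodPt l) (sumPt L hc l (fun i => x i.succ)) = 1 := by
      rw [compHom_comp,
        compHom_prodPt_sumPt L hc l (fun i => x i.succ) (fun i => hx i.succ), map_one]
    exact (congrArg₂ (· * ·) ((compHom_congr h1 _).trans (compHom_id _))
      ((compHom_congr h2 _).trans e2)).trans (mul_one _)
  | c :: l, ⟨i + 1, h⟩, x, hx => by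
    refine (compHom_sumPt_cons L hc c l (axis (c :: l) ⟨i + 1, h⟩) x).trans ?_
    have h1 : axis (c :: l) ⟨i + 1, h⟩ ≫ fst c.obj (prodObj l) =
        toUnit (l.get ⟨i, Nat.lt_of_succ_lt_succ h⟩).obj ≫ c.pt := lift_fst _ _
    have h2 : axis (c :: l) ⟨i + 1, h⟩ ≫ snd c.obj (prodObj l) =
        axis l ⟨i, Nat.lt_of_succ_lt_succ h⟩ := lift_snd _ _
    have e0 : compHom L hc c.pt (x ⟨0, Nat.succ_pos _⟩) = 1 := hx ⟨0, Nat.succ_pos _⟩
    have e1 : compHom L hc (toUnit (l.get ⟨i, Nat.lt_of_succ_lt_succ h⟩).obj ≫ c.pt)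
        (x ⟨0, Nat.succ_pos _⟩) = 1 := by
      rw [compHom_comp, e0, map_one]
    have e2 := compHom_axis_sumPt l ⟨i, Nat.lt_of_succ_lt_succ h⟩ (fun i => x i.succ)
      (fun i => hx i.succ)
    exact (congrArg₂ (· * ·) ((compHom_congr h1 _).trans e1)
      ((compHom_congr h2 _).trans e2)).trans (one_mul _)

/-! ### The scheme-level interface -/

/-- A point is pointed (kills `w`) iff the underlying morphism maps `w` to the unit section. -/
theorem compHom_mk_eq_one_iff {X : Over (Sk K)} (w : 𝟙_ (Over (Sk K)) ⟶ X) (σ : X.left ⟶ A)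
    (hσ : σ ≫ f = X.hom) :
    compHom L hc w (Pts.mk (L := L) (hc := hc) σ hσ) = 1 ↔
      w.left ≫ σ = (L.one (𝟙 (Spec (CommRingCat.of K)))).1 := by
  have h1 : (1 : Pts L hc (𝟙_ (Over (Sk K)))).hom = (L.one (𝟙 (Spec (CommRingCat.of K)))).1 := by
    rw [Pts.one_hom]
    exact Category.id_comp _
  constructor
  · intro h
    have h2 := congrArg Pts.hom h
    rw [compHom_hom, Pts.mk_hom, h1] at h2
    exact h2
  · intro h
    ext
    rw [compHom_hom, Pts.mk_hom, h, h1]

variable (l : List (PointedJac N)) (ι : ∀ i : Fin l.length, (l.get i).obj.left ⟶ A)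
  (hι : ∀ i, ι i ≫ f = (l.get i).obj.hom)

/-- **The sum of curves** `σ = ∏_i (pr_i ≫ ι_i) : C_1 × (C_2 × ⋯) ⟶ A` (a product in the
commutative group of points `AV/Basic66.pointCommGroup L hc (prodObj l).hom`). -/
def sumMap : (prodObj l).left ⟶ A :=
  (sumPt L hc l (fun i => Pts.mk (L := L) (hc := hc) (ι i) (hι i))).hom

/-- `sumMap` as a point of `A` with values in the product. -/
def sumMapPt : Pts L hc (prodObj l) :=
  sumPt L hc l (fun i => Pts.mk (L := L) (hc := hc) (ι i) (hι i))

@[simp] theorem sumMapPt_hom : (sumMapPt L hc l ι hι).hom = sumMap L hc l ι hι := rfl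

theorem sumMap_comp : sumMap L hc l ι hι ≫ f = (prodObj l).hom :=
  Pts.hom_comp _

/-- The recursive description of `sumMap`, in the group of points. -/
theorem sumMapPt_cons (c : PointedJac N) (l : List (PointedJac N))
    (ι : ∀ i : Fin (c :: l).length, ((c :: l).get i).obj.left ⟶ A)
    (hι : ∀ i, ι i ≫ f = ((c :: l).get i).obj.hom) :
    sumMapPt L hc (c :: l) ι hι =
      compHom L hc (fst c.obj (prodObj l))
        (Pts.mk (L := L) (hc := hc) (ι ⟨0, Nat.succ_pos _⟩) (hι ⟨0, Nat.succ_pos _⟩)) *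
      compHom L hc (snd c.obj (prodObj l))
        (sumMapPt L hc l (fun i => ι i.succ) (fun i => hι i.succ)) := rfl

variable (hpt : ∀ i, (l.get i).pt.left ≫ ι i = (L.one (𝟙 (Spec (CommRingCat.of K)))).1)

include hpt in
theorem compHom_pt_mk (i : Fin l.length) :
    compHom L hc (l.get i).pt (Pts.mk (L := L) (hc := hc) (ι i) (hι i)) = 1 :=
  (compHom_mk_eq_one_iff L hc (l.get i).pt (ι i) (hι i)).mpr (hpt i)

include hpt in
/-- The sum of pointed morphisms is pointed. -/
theorem prodPt_sumMap :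
    (prodPt l).left ≫ sumMap L hc l ι hι = (L.one (𝟙 (Spec (CommRingCat.of K)))).1 :=
  (compHom_mk_eq_one_iff L hc (prodPt l) (sumMap L hc l ι hι) (sumMap_comp L hc l ι hι)).mp
    (compHom_prodPt_sumPt L hc l _ (compHom_pt_mk L hc l ι hι hpt))

include hpt in
/-- **The sum of curves restricted to the `i`-th axis is `ι i`.** -/
theorem axis_sumMap (i : Fin l.length) : (axis l i).left ≫ sumMap L hc l ι hι = ι i :=
  congrArg Pts.hom (compHom_axis_sumPt L hc l i _ (compHom_pt_mk L hc l ι hι hpt))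

end

end Fermat.Agent.JAC.Curves.SumMap50
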