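/-
JAC / S26 track, chapter CURVES (helper64), brick P3 (= CU4): the covering package.

For an abelian variety `A` of dimension `g > 0` over an algebraically closed field `K`: `g` pointed
smooth proper integral curves `C i` (with Jacobians, by S25) and a pointed dominant morphism
`σ : C 1 × ⋯ × C g ⟶ A` with finite function field extension
(`Skeleton66.PackageStatementPos K`).
-/
import Mathlib
import Fermat.Agent.JAC.Final26.Skeleton66
import Fermat.Agent.JAC.Curves.Origin64
import Fermat.Agent.JAC.Curves.StalkInj64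
import Fermat.Agent.JAC.Curves.NormCurve23
import Fermat.Agent.JAC.Curves.SumMap50
import Fermat.Agent.JAC.Curves.ProdSmooth66
import Fermat.Agent.JAC.Curves.ProdFinExt63
import Fermat.Agent.JAC.Curves.Dominant31

set_option autoImplicit false
set_option linter.style.haveILetI false

universe u

open AlgebraicGeometry CategoryTheory TopologicalSpace IsLocalRing NeronModelInfra
  GoodReductionJacobian

namespace Fermat.Agent.JAC.Curves.Package64

open Fermat.Agent.JAC.Curves.StalkAt64 Fermat.Agent.JAC.Curves.LocalCurve64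
open Fermat.Agent.JAC.Cube.Induct6 Fermat.Agent.JAC.Cube.Nice6

/-- Transport of a dependent family along `List.get_ofFn`. -/
theorem exists_family_ofFn {α : Type*} {β : α → Type*} {g : ℕ}
    (Q : Fin g → ∀ a : α, β a → Prop) (F : Fin g → α) (G : ∀ i, β (F i))
    (hQ : ∀ i, Q i (F i) (G i)) :
    ∃ G' : ∀ k : Fin (List.ofFn F).length, β ((List.ofFn F).get k),
      ∀ k, Q (Fin.cast (List.length_ofFn (f := F)) k) ((List.ofFn F).get k) (G' k) := by
  have key : ∀ k : Fin (List.ofFn F).length,
      ∃ y : β ((List.ofFn F).get k),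
        Q (Fin.cast (List.length_ofFn (f := F)) k) ((List.ofFn F).get k) y := by
    intro k
    have h : (List.ofFn F).get k = F (Fin.cast (List.length_ofFn (f := F)) k) :=
      List.get_ofFn F k
    generalize (List.ofFn F).get k = a at h ⊢
    subst h
    exact ⟨G _, hQ _⟩
  choose G' hG' using key
  exact ⟨G', hG'⟩

theorem injective_stalkMapAt_iff {X Y : Scheme.{u}} (v : X ⟶ Y) (x : X) (y : Y)
    (h : v.base x = y) :
    Function.Injective (stalkMapAt v x y h).hom ↔ Function.Injective (v.stalkMap x).hom := by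
  subst h
  rw [stalkMapAt_rfl]

section Core

variable {K : Type u} [Field K] {A W : Scheme.{u}}
  (f : A ⟶ Spec (CommRingCat.of K)) (h : W ⟶ Spec (CommRingCat.of K))
  (g : ℕ) [SmoothOfRelativeDimension g f] [SmoothOfRelativeDimension g h]
  (ω : Spec (CommRingCat.of K) ⟶ W) (hω : ω ≫ h = 𝟙 _)
  (σ : W ⟶ A) (hσ : σ ≫ f = h) (p : Spec (CommRingCat.of K))

include hω hσ in
/-- `StalkInj64.injective_stalkMapAt_of_axes` with the section `ε = ω ≫ σ` as a variable. -/
theorem injective_stalkMap_of_axes (ε : Spec (CommRingCat.of K) ⟶ A) (hε : ω ≫ σ = ε)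
    {U : A.Opens} (ho : ε.base p ∈ U)
    (t : Fin g → maximalIdeal (A.presheaf.stalk (ε.base p)))
    (hli : LinearIndependent (ResidueField (A.presheaf.stalk (ε.base p)))
      fun i => (maximalIdeal (A.presheaf.stalk (ε.base p))).toCotangent (t i))
    (hsp : ⊤ ≤ Submodule.span (ResidueField (A.presheaf.stalk (ε.base p)))
      (Set.range fun i => (maximalIdeal (A.presheaf.stalk (ε.base p))).toCotangent (t i)))
    (P : Fin g → Ideal Γ(A, U))
    (hP : ∀ i, (P i).map (A.presheaf.germ U (ε.base p) ho).hom =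
      curveIdeal (fun j => (t j : A.presheaf.stalk (ε.base p))) i)
    (C : Fin g → Scheme.{u}) (j : ∀ i, C i ⟶ W) (x : ∀ i, C i)
    (hjx : ∀ i, (j i).base (x i) = ω.base p)
    (ι : ∀ i, C i ⟶ A) (hι : ∀ i, j i ≫ σ = ι i)
    (hιU : ∀ i, (ι i).base (x i) ∈ U)
    (hsurj : ∀ i, Function.Surjective ((ι i).stalkMap (x i)).hom)
    (hker : ∀ i, RingHom.ker ((ι i).stalkMap (x i)).hom =
      (P i).map (A.presheaf.germ U ((ι i).base (x i)) (hιU i)).hom) :
    Function.Injective (σ.stalkMap (ω.base p)).hom := by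
  subst hε
  exact (injective_stalkMapAt_iff σ (ω.base p) _ rfl).mp
    (StalkInj64.injective_stalkMapAt_of_axes f h g ω hω σ hσ p ho t hli hsp P hP C j x hjx ι hι
      hιU hsurj hker rfl)

end Core

section Main

variable (K : Type u) [Field K] [IsAlgClosed K]

/-- **CU4: the covering package** in positive dimension, from the statement of S25. -/
theorem packageStatementPos (h25 : S25Statement K) :
    Fermat.Agent.JAC.Final26.Skeleton66.PackageStatementPos K := by
  intro A f L hc hA g hg _ _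
  haveI : IsProper f := hA.proper
  obtain ⟨ε₀, hε₀def⟩ : ∃ ε₀ : Spec (CommRingCat.of K) ⟶ A,
      ε₀ = (L.one (𝟙 (Spec (CommRingCat.of K)))).1 := ⟨_, rfl⟩
  have hε₀ : ε₀ ≫ f = 𝟙 _ := by rw [hε₀def]; exact (L.one (𝟙 _)).2
  rw [← hε₀def]
  set p : Spec (CommRingCat.of K) := IsLocalRing.closedPoint K with hp
  obtain ⟨U, hU, ho, t, hli, hsp, hft, hmax, hP⟩ := Origin64.exists_origin f g ε₀ hε₀ p
  -- the curves
  have hcurve : ∀ i : Fin g, ∃ (C : Scheme.{u}) (c : C ⟶ Spec (CommRingCat.of K)) (ι : C ⟶ A)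
      (c₀ : Spec (CommRingCat.of K) ⟶ C),
      IsProper c ∧ SmoothOfRelativeDimension 1 c ∧ IsIntegral C ∧ c₀ ≫ c = 𝟙 _ ∧
      ι ≫ f = c ∧ c₀ ≫ ι = ε₀ ∧ ∃ hx : ι.base (c₀.base p) ∈ U,
        Function.Surjective (ι.stalkMap (c₀.base p)).hom ∧
        RingHom.ker (ι.stalkMap (c₀.base p)).hom =
          ((curveIdeal (fun j => (t j : A.presheaf.stalk (ε₀.base p))) i).comap
            (A.presheaf.germ U (ε₀.base p) ho).hom).map
            (A.presheaf.germ U (ι.base (c₀.base p)) hx).hom := by
    intro i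
    obtain ⟨hPprime, hPle, -, hPmax, -, -, hdvr⟩ := hP i
    haveI := hPprime
    haveI := hmax
    haveI := hPmax.isPrime
    obtain ⟨C, c, ι, c₀, x, hx, h1, h2, h3, h4, -, h6, h7, h8, h9, h10, h11⟩ :=
      NormCurve23.exists_pointed_curve_of_dvr f hU _ _ hPle hdvr
    have hx0 : c₀.base p = x := h7 p
    subst hx0
    refine ⟨C, c, ι, c₀, h2, h3, h4, h6, h1, ?_, hx, h10, h11⟩
    refine h8 ε₀ hε₀ ?_
    exact (hU.fromSpec_primeIdealOf ⟨ε₀.base p, ho⟩).symm
  choose C c ι c₀ hprop hsm hint h0 hιf hpt hx hsurj hker using hcurve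
  -- the list of pointed curves
  let F : Fin g → PointedJac (niceClass K) := fun i =>
    haveI := hprop i
    haveI := hsm i
    haveI := hint i
    pointedJacOfCurve h25 (c i) (c₀ i) (h0 i)
  let Q : Fin g → ∀ a : PointedJac (niceClass K), (a.obj.left ⟶ A) → Prop := fun i a y =>
    y ≫ f = a.obj.hom ∧ a.pt.left ≫ y = ε₀ ∧ SmoothOfRelativeDimension 1 a.obj.hom ∧
    ∃ hx : y.base (a.pt.left.base p) ∈ U,
      Function.Surjective (y.stalkMap (a.pt.left.base p)).hom ∧
      RingHom.ker (y.stalkMap (a.pt.left.base p)).hom =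
        ((curveIdeal (fun j => (t j : A.presheaf.stalk (ε₀.base p))) i).comap
          (A.presheaf.germ U (ε₀.base p) ho).hom).map
          (A.presheaf.germ U (y.base (a.pt.left.base p)) hx).hom
  have hQ : ∀ i, Q i (F i) (ι i) := fun i =>
    ⟨hιf i, hpt i, hsm i, hx i, hsurj i, hker i⟩
  obtain ⟨ι', hQ'⟩ := exists_family_ofFn Q F ι hQ
  have hlen : (List.ofFn F).length = g := List.length_ofFn
  have hι'f : ∀ k, ι' k ≫ f = ((List.ofFn F).get k).obj.hom := fun k => (hQ' k).1
  have hι'pt : ∀ k, ((List.ofFn F).get k).pt.left ≫ ι' k =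
      (L.one (𝟙 (Spec (CommRingCat.of K)))).1 := fun k => by
    rw [← hε₀def]; exact (hQ' k).2.1
  have hσ := SumMap50.sumMap_comp L hc (List.ofFn F) ι' hι'f
  have hσpt : (prodPt (List.ofFn F)).left ≫ SumMap50.sumMap L hc (List.ofFn F) ι' hι'f = ε₀ := by
    rw [hε₀def]
    exact SumMap50.prodPt_sumMap L hc (List.ofFn F) ι' hι'f hι'pt
  have haxis := SumMap50.axis_sumMap L hc (List.ofFn F) ι' hι'f hι'pt
  generalize SumMap50.sumMap L hc (List.ofFn F) ι' hι'f = σ at hσ hσpt haxis
  haveI hsmW : SmoothOfRelativeDimension g (prodObj (List.ofFn F)).hom :=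
    Fermat.Agent.JAC.Curves.ProdSmooth66.smoothOfRelativeDimension_prodObj_ofFn F hsm
  haveI hintW : IsIntegral (prodObj (List.ofFn F)).left := (nice_prodObj (List.ofFn F)).1
  have hω : (prodPt (List.ofFn F)).left ≫ (prodObj (List.ofFn F)).hom = 𝟙 _ :=
    Over.w (prodPt (List.ofFn F))
  let e : Fin g → Fin (List.ofFn F).length := Fin.cast hlen.symm
  have hjx : ∀ k : Fin (List.ofFn F).length,
      (SumMap50.axis (List.ofFn F) k).left.base (((List.ofFn F).get k).pt.left.base p) =
        (prodPt (List.ofFn F)).left.base p := by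
    intro k
    have h1 := congrArg (fun m => m.left) (SumMap50.pt_axis (List.ofFn F) k)
    have h2 := congrArg (fun m => m.base p) h1
    exact h2
  have hinj : Function.Injective (σ.stalkMap ((prodPt (List.ofFn F)).left.base p)).hom := by
    refine injective_stalkMap_of_axes f (prodObj (List.ofFn F)).hom g (prodPt (List.ofFn F)).left
      hω σ hσ p ε₀ hσpt ho t hli hsp
      (fun i => (curveIdeal (fun j => (t j : A.presheaf.stalk (ε₀.base p))) i).comap
        (A.presheaf.germ U (ε₀.base p) ho).hom)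
      (fun i => (hP i).2.2.2.2.2.1)
      (fun i => ((List.ofFn F).get (e i)).obj.left)
      (fun i => (SumMap50.axis (List.ofFn F) (e i)).left)
      (fun i => ((List.ofFn F).get (e i)).pt.left.base p)
      (fun i => hjx (e i))
      (fun i => ι' (e i))
      (fun i => haxis (e i))
      (fun i => (hQ' (e i)).2.2.2.1)
      (fun i => (hQ' (e i)).2.2.2.2.1)
      (fun i => (hQ' (e i)).2.2.2.2.2)
  have hdom : IsDominant σ :=
    Fermat.Agent.JAC.Curves.Dominant31.isDominant_of_injective_stalkMap σ _ hinj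
  have hl : ∀ a ∈ List.ofFn F, SmoothOfRelativeDimension 1 a.obj.hom := by
    intro a ha
    obtain ⟨i, rfl⟩ := (List.mem_ofFn' F a).mp ha
    exact hsm i
  have hfd := Fermat.Agent.JAC.Curves.ProdFinExt63.finiteDimensional_functionField_prodObj f g
    (List.ofFn F) hl hlen σ hσ
  exact ⟨List.ofFn F, σ, hσ, hσpt, hdom, hfd⟩

end Main

end Fermat.Agent.JAC.Curves.Package64
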