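/-
Program JAC, S26 track, chapter CURVES (helper31): a rational point of a `K`-scheme is determined by
its image point (used to identify `c₀ ≫ ι` with the zero section in the curve package).
-/
import Mathlib
import Fermat.Agent.JAC.Curves.Chart31

set_option autoImplicit false

universe u

open AlgebraicGeometry CategoryTheory

namespace Fermat.Agent.JAC.Curves.SectionExt31

open Fermat.Agent.JAC.AV Fermat.Agent.JAC.Curves

/-- Two `K`-algebra maps to `K` with the same kernel are equal. -/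
theorem algHom_ext_of_ker_eq {K : Type*} [Field K] {B : Type*} [CommRing B] [Algebra K B]
    (ψ₁ ψ₂ : B →ₐ[K] K) (h : RingHom.ker ψ₁.toRingHom = RingHom.ker ψ₂.toRingHom) : ψ₁ = ψ₂ := by
  ext b
  have h1 : b - algebraMap K B (ψ₁ b) ∈ RingHom.ker ψ₁.toRingHom := by
    rw [RingHom.mem_ker]
    simp
  rw [h, RingHom.mem_ker] at h1
  have h2 : ψ₂ b - ψ₁ b = 0 := by simpa using h1
  exact (sub_eq_zero.mp h2).symm

variable {K : Type u} [Field K] {A : Scheme.{u}} (f : A ⟶ Spec (CommRingCat.of K))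

/-- A rational point of a `K`-scheme is determined by its image point. -/
theorem section_ext (ε₁ ε₂ : Spec (CommRingCat.of K) ⟶ A) (h₁ : ε₁ ≫ f = 𝟙 _) (h₂ : ε₂ ≫ f = 𝟙 _)
    (p : Spec (CommRingCat.of K)) (hp : ε₁.base p = ε₂.base p) : ε₁ = ε₂ := by
  obtain ⟨U, hU, hxU⟩ : ∃ U : A.Opens, IsAffineOpen U ∧ ε₁.base p ∈ U := by
    obtain ⟨_, ⟨V, hV, rfl⟩, hxV, -⟩ :=
      A.isBasis_affineOpens.exists_subset_of_mem_open (Set.mem_univ (ε₁.base p)) isOpen_univ
    exact ⟨V, hV, hxV⟩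
  have hxU₂ : ε₂.base p ∈ U := hp ▸ hxU
  let _ := Charts66.algebraΓ f U
  obtain ⟨ψ₁, hψ₁, hk₁⟩ := Chart31.exists_eval f ε₁ h₁ p hU hxU
  obtain ⟨ψ₂, hψ₂, hk₂⟩ := Chart31.exists_eval f ε₂ h₂ p hU hxU₂
  have hk : RingHom.ker ψ₁.toRingHom = RingHom.ker ψ₂.toRingHom := by
    rw [hk₁, hk₂]
    congr 2
    exact Subtype.ext hp
  have := algHom_ext_of_ker_eq ψ₁ ψ₂ hk
  rw [hψ₁, hψ₂, this]

end Fermat.Agent.JAC.Curves.SectionExt31
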