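/-
Program JAC, S26 track, chapter CURVES, brick S1' (helper31): the stalk map of a `K`-morphism as a
`K`-algebra homomorphism for the structures `Chart31.algebraStalk`, and its compatibility with
composition.
-/
import Mathlib
import Fermat.Agent.JAC.Curves.Chart31

set_option autoImplicit false

universe u

open AlgebraicGeometry CategoryTheory

namespace Fermat.Agent.JAC.Curves.StalkAlg31

open Fermat.Agent.JAC.AV Fermat.Agent.JAC.Curves

variable {K : Type u} [Field K] {A W : Scheme.{u}} (f : A ⟶ Spec (CommRingCat.of K))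
  (h : W ⟶ Spec (CommRingCat.of K)) (σ : W ⟶ A) (hσ : σ ≫ f = h)

include hσ in
/-- The stalk map of a `K`-morphism commutes with the structure maps from `K`. -/
theorem kToΓ_germ_stalkMap (w : W) :
    (Charts66.kToΓ f ⊤ ≫ A.presheaf.germ ⊤ (σ.base w) trivial) ≫ σ.stalkMap w =
      Charts66.kToΓ h ⊤ ≫ W.presheaf.germ ⊤ w trivial := by
  have h1 := Scheme.Hom.germ_stalkMap σ (⊤ : A.Opens) w (by trivial)
  refine (Category.assoc _ _ _).trans ((congrArg (Charts66.kToΓ f ⊤ ≫ ·) h1).trans ?_)
  unfold Charts66.kToΓ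
  subst hσ
  simp only [Category.assoc]
  congr 1
  rw [← Category.assoc]
  congr 1
  rw [Scheme.Hom.app_eq_appLE]
  exact Scheme.Hom.appLE_comp_appLE σ f ⊤ ⊤ (σ ⁻¹ᵁ ⊤) le_top le_rfl

/-- **S1'**: the stalk map of a `K`-morphism as a `K`-algebra homomorphism. -/
noncomputable def stalkMapAlgHom (w : W) :
    letI := Chart31.algebraStalk f (σ.base w)
    letI := Chart31.algebraStalk h w
    A.presheaf.stalk (σ.base w) →ₐ[K] W.presheaf.stalk w :=
  letI := Chart31.algebraStalk f (σ.base w)
  letI := Chart31.algebraStalk h w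
  { (σ.stalkMap w).hom with
    commutes' := fun k => by
      have := kToΓ_germ_stalkMap f h σ hσ w
      exact congrArg (fun m => m.hom k) this }

@[simp]
theorem stalkMapAlgHom_apply (w : W) (a : A.presheaf.stalk (σ.base w)) :
    stalkMapAlgHom f h σ hσ w a = σ.stalkMap w a := rfl

theorem coe_stalkMapAlgHom (w : W) :
    letI := Chart31.algebraStalk f (σ.base w)
    letI := Chart31.algebraStalk h w
    ((stalkMapAlgHom f h σ hσ w : A.presheaf.stalk (σ.base w) →ₐ[K] W.presheaf.stalk w) :
      A.presheaf.stalk (σ.base w) →+* W.presheaf.stalk w) = (σ.stalkMap w).hom := rfl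

/-- Compatibility with composition. -/
theorem stalkMapAlgHom_comp {C : Scheme.{u}} (c : C ⟶ Spec (CommRingCat.of K)) (j : C ⟶ W)
    (hj : j ≫ h = c) (x : C) (a : A.presheaf.stalk (σ.base (j.base x))) :
    stalkMapAlgHom f c (j ≫ σ) (by rw [Category.assoc, hσ, hj]) x a =
      stalkMapAlgHom h c j hj x (stalkMapAlgHom f h σ hσ (j.base x) a) := by
  exact congrArg (fun m => m.hom a) (Scheme.Hom.stalkMap_comp j σ x)

end Fermat.Agent.JAC.Curves.StalkAlg31
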