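/-
JAC / S26 track, chapter CURVES (helper64): stalk maps with a prescribed target point.

For `u : X ⟶ Y`, `x : X`, `y : Y` and `h : u x = y`, `stalkMapAt u x y h : 𝒪_{Y,y} ⟶ 𝒪_{X,x}` is the
stalk map of `u` at `x` precomposed with the identification `𝒪_{Y,y} = 𝒪_{Y,u x}`; this absorbs all
transports along equalities of points.
-/
import Mathlib

set_option autoImplicit false

universe u

open AlgebraicGeometry CategoryTheory TopologicalSpace

namespace Fermat.Agent.JAC.Curves.StalkAt64

variable {X Y Z : Scheme.{u}}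

/-- The stalk map of `u` at `x`, viewed as a map out of the stalk at `y = u x`. -/
noncomputable def stalkMapAt (u : X ⟶ Y) (x : X) (y : Y) (h : u.base x = y) :
    Y.presheaf.stalk y ⟶ X.presheaf.stalk x :=
  Y.presheaf.stalkSpecializes (specializes_of_eq h) ≫ u.stalkMap x

theorem stalkMapAt_rfl (u : X ⟶ Y) (x : X) : stalkMapAt u x (u.base x) rfl = u.stalkMap x := by
  unfold stalkMapAt
  rw [TopCat.Presheaf.stalkSpecializes_refl, Category.id_comp]

/-- Compatibility with germs. -/
theorem germ_stalkMapAt (u : X ⟶ Y) (x : X) (y : Y) (h : u.base x = y) (U : Y.Opens)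
    (hy : y ∈ U) :
    Y.presheaf.germ U y hy ≫ stalkMapAt u x y h =
      u.app U ≫ X.presheaf.germ (u ⁻¹ᵁ U) x (show u.base x ∈ U from h ▸ hy) := by
  subst h
  rw [stalkMapAt_rfl, Scheme.Hom.germ_stalkMap]

/-- Composition. -/
theorem stalkMapAt_comp (u : X ⟶ Y) (v : Y ⟶ Z) (x : X) (y : Y) (z : Z) (h : u.base x = y)
    (h' : v.base y = z) :
    stalkMapAt (u ≫ v) x z (by rw [Scheme.Hom.comp_base, TopCat.comp_app, h, h']) =
      stalkMapAt v y z h' ≫ stalkMapAt u x y h := by
  subst h
  subst h'
  rw [stalkMapAt_rfl, stalkMapAt_rfl]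
  unfold stalkMapAt
  rw [Scheme.Hom.stalkMap_comp]
  have : Z.presheaf.stalkSpecializes (specializes_of_eq
      (show (u ≫ v).base x = v.base (u.base x) by
        rw [Scheme.Hom.comp_base, TopCat.comp_app])) = 𝟙 _ :=
    TopCat.Presheaf.stalkSpecializes_refl _ _
  rw [this]
  exact Category.id_comp _

/-- Congruence in the morphism. -/
theorem stalkMapAt_congr {u u' : X ⟶ Y} (e : u = u') (x : X) (y : Y) (h : u.base x = y) :
    stalkMapAt u x y h = stalkMapAt u' x y (e ▸ h) := by
  subst e
  rfl

/-- The transport is bijective. -/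
theorem bijective_stalkSpecializes_of_eq {y y' : Y} (h : y' = y) :
    Function.Bijective (Y.presheaf.stalkSpecializes (specializes_of_eq h)).hom := by
  subst h
  rw [TopCat.Presheaf.stalkSpecializes_refl]
  exact Function.bijective_id

theorem surjective_stalkMapAt_iff (u : X ⟶ Y) (x : X) (y : Y) (h : u.base x = y) :
    Function.Surjective (stalkMapAt u x y h).hom ↔ Function.Surjective (u.stalkMap x).hom := by
  subst h
  rw [stalkMapAt_rfl]

/-- The kernel of `stalkMapAt`, in terms of germs of an affine chart. -/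
theorem ker_stalkMapAt (u : X ⟶ Y) (x : X) (y : Y) (h : u.base x = y) (U : Y.Opens)
    (hy : y ∈ U) (P : Ideal Γ(Y, U))
    (hker : RingHom.ker (u.stalkMap x).hom =
      P.map (Y.presheaf.germ U (u.base x) (show u.base x ∈ U from h ▸ hy)).hom) :
    RingHom.ker (stalkMapAt u x y h).hom = P.map (Y.presheaf.germ U y hy).hom := by
  subst h
  rw [stalkMapAt_rfl]
  exact hker

instance isLocalHom_stalkMapAt (u : X ⟶ Y) (x : X) (y : Y) (h : u.base x = y) :
    IsLocalHom (stalkMapAt u x y h).hom := by
  subst h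
  rw [stalkMapAt_rfl]
  infer_instance

end Fermat.Agent.JAC.Curves.StalkAt64
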