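/-
JAC / S26 track, chapter CURVES (helper64), brick S3c (scheme half): the stalk map of
`σ : W ⟶ A` at the base point is injective, given axes `j i : C i ⟶ W` through the base point such
that the stalk maps of `j i ≫ σ` are surjective with kernels the coordinate curve ideals.
-/
import Mathlib
import Fermat.Agent.JAC.Curves.Chart31
import Fermat.Agent.JAC.Curves.StalkAt64
import Fermat.Agent.JAC.Curves.AxesInj64
import Fermat.Agent.JAC.Curves.CotDim64

set_option autoImplicit false
set_option linter.style.haveILetI false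

universe u

open AlgebraicGeometry CategoryTheory TopologicalSpace IsLocalRing

namespace Fermat.Agent.JAC.Curves.StalkInj64

open Fermat.Agent.JAC.AV Fermat.Agent.JAC.Curves.Chart31 Fermat.Agent.JAC.Curves.StalkAt64
open Fermat.Agent.JAC.Curves.LocalCurve64

variable {K : Type u} [Field K] {A W : Scheme.{u}}
  (f : A ⟶ Spec (CommRingCat.of K)) (h : W ⟶ Spec (CommRingCat.of K))

/-- The structure maps are compatible with pullback of sections. -/
theorem kToΓ_comp_appLE' (σ : W ⟶ A) (hσ : σ ≫ f = h) (U : A.Opens) (V : W.Opens)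
    (e : V ≤ σ ⁻¹ᵁ U) :
    Charts66.kToΓ f U ≫ σ.appLE U V e = Charts66.kToΓ h V := by
  have h1 : f.appLE ⊤ U le_top ≫ σ.appLE U V e = h.appLE ⊤ V le_top := by
    have h2 := Scheme.Hom.appLE_comp_appLE σ f ⊤ U V le_top e
    refine h2.trans ?_
    simp only [hσ]
  unfold Charts66.kToΓ
  rw [Category.assoc]
  exact congrArg (fun m => (Scheme.ΓSpecIso (CommRingCat.of K)).inv ≫ m) h1

theorem kToΓ_comp_app (σ : W ⟶ A) (hσ : σ ≫ f = h) (U : A.Opens) :
    Charts66.kToΓ f U ≫ σ.app U = Charts66.kToΓ h (σ ⁻¹ᵁ U) := by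
  rw [Scheme.Hom.app_eq_appLE]
  exact kToΓ_comp_appLE' f h σ hσ U _ le_rfl

/-- Stalk maps of `K`-morphisms are `K`-linear. -/
theorem algebraMap_stalkMapAt (σ : W ⟶ A) (hσ : σ ≫ f = h) (x : W) (y : A)
    (hy : σ.base x = y) (a : K) :
    (stalkMapAt σ x y hy).hom ((algebraStalk f y).algebraMap a) =
      (algebraStalk h x).algebraMap a := by
  have h1 : (Charts66.kToΓ f ⊤ ≫ A.presheaf.germ ⊤ y trivial) ≫ stalkMapAt σ x y hy =
      Charts66.kToΓ h ⊤ ≫ W.presheaf.germ ⊤ x trivial := by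
    rw [Category.assoc, germ_stalkMapAt σ x y hy ⊤ trivial, ← Category.assoc,
      kToΓ_comp_app f h σ hσ]
    exact kToΓ_comp_germ h _
  exact congrArg (fun m => m.hom a) h1

section Main

variable (g : ℕ) [SmoothOfRelativeDimension g f] [SmoothOfRelativeDimension g h]
  (ω : Spec (CommRingCat.of K) ⟶ W) (hω : ω ≫ h = 𝟙 _)
  (σ : W ⟶ A) (hσ : σ ≫ f = h) (p : Spec (CommRingCat.of K))

include hω hσ in
theorem comp_section : (ω ≫ σ) ≫ f = 𝟙 _ := by
  rw [Category.assoc, hσ, hω]

include hω hσ in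
/-- **S3c (scheme form).**  `σ : W ⟶ A` a `K`-morphism of smooth `K`-schemes of the same relative
dimension `g`, `w = ω p` a rational point of `W`, `o = σ w`; `t` coordinates of `𝒪_{A,o}`, `P i`
ideals of an affine chart `U ∋ o` generating the coordinate curve ideals; `j i : C i ⟶ W` axes
through `w` such that the stalk map of `ι i = j i ≫ σ` at `x i` is surjective with kernel generated
by `P i`.  Then the stalk map of `σ` at `w` is injective. -/
theorem injective_stalkMapAt_of_axes
    {U : A.Opens} (ho : (ω ≫ σ).base p ∈ U)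
    (t : Fin g → maximalIdeal (A.presheaf.stalk ((ω ≫ σ).base p)))
    (hli : LinearIndependent (ResidueField (A.presheaf.stalk ((ω ≫ σ).base p)))
      fun i => (maximalIdeal (A.presheaf.stalk ((ω ≫ σ).base p))).toCotangent (t i))
    (hsp : ⊤ ≤ Submodule.span (ResidueField (A.presheaf.stalk ((ω ≫ σ).base p)))
      (Set.range fun i => (maximalIdeal (A.presheaf.stalk ((ω ≫ σ).base p))).toCotangent (t i)))
    (P : Fin g → Ideal Γ(A, U))
    (hP : ∀ i, (P i).map (A.presheaf.germ U ((ω ≫ σ).base p) ho).hom =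
      curveIdeal (fun j => (t j : A.presheaf.stalk ((ω ≫ σ).base p))) i)
    (C : Fin g → Scheme.{u}) (j : ∀ i, C i ⟶ W) (x : ∀ i, C i)
    (hjx : ∀ i, (j i).base (x i) = ω.base p)
    (ι : ∀ i, C i ⟶ A) (hι : ∀ i, j i ≫ σ = ι i)
    (hιU : ∀ i, (ι i).base (x i) ∈ U)
    (hsurj : ∀ i, Function.Surjective ((ι i).stalkMap (x i)).hom)
    (hker : ∀ i, RingHom.ker ((ι i).stalkMap (x i)).hom =
      (P i).map (A.presheaf.germ U ((ι i).base (x i)) (hιU i)).hom)
    (how : σ.base (ω.base p) = (ω ≫ σ).base p) :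
    Function.Injective (stalkMapAt σ (ω.base p) ((ω ≫ σ).base p) how).hom := by
  letI algO := algebraStalk f ((ω ≫ σ).base p)
  letI algO' := algebraStalk h (ω.base p)
  obtain ⟨hN, hFS, hres⟩ := stalk_package f g (ω ≫ σ) (comp_section f h ω hω σ hσ) p
  obtain ⟨hN', hFS', hres'⟩ := stalk_package h g ω hω p
  -- the `K`-algebra map `φ`
  let φ : A.presheaf.stalk ((ω ≫ σ).base p) →ₐ[K] W.presheaf.stalk (ω.base p) :=
    { (stalkMapAt σ (ω.base p) ((ω ≫ σ).base p) how).hom with
      commutes' := fun a => algebraMap_stalkMapAt f h σ hσ (ω.base p) ((ω ≫ σ).base p) how a }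
  have hφcoe : ∀ z, φ z = (stalkMapAt σ (ω.base p) ((ω ≫ σ).base p) how).hom z := fun _ => rfl
  have hφ : ∀ z ∈ maximalIdeal (A.presheaf.stalk ((ω ≫ σ).base p)), φ z ∈ maximalIdeal (W.presheaf.stalk (ω.base p)) := by
    intro z hz
    rw [hφcoe]
    exact map_nonunit (stalkMapAt σ (ω.base p) ((ω ≫ σ).base p) how).hom z hz
  -- the cotangent dimension of `𝒪_{W,w}`
  have hfin : Module.finrank (ResidueField (W.presheaf.stalk (ω.base p)))
      (CotangentSpace (W.presheaf.stalk (ω.base p))) = g := by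
    obtain ⟨V, hV, hwV, hsm, hmax, hsurjK, -⟩ := exists_chart h g ω hω p
    letI := Charts66.algebraΓ h V
    letI := W.presheaf.algebra_section_stalk ⟨ω.base p, hwV⟩
    have hst := isScalarTower_stalk h hwV
    have hloc := hV.isLocalization_stalk ⟨ω.base p, hwV⟩
    exact CotDim64.finrank_cotangentSpace_of_isLocalization g
      (hV.primeIdealOf ⟨ω.base p, hwV⟩).asIdeal (W.presheaf.stalk (ω.base p)) hres'
  -- the axes
  let β : ∀ i, W.presheaf.stalk (ω.base p) →+* (C i).presheaf.stalk (x i) :=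
    fun i => (stalkMapAt (j i) (x i) (ω.base p) (hjx i)).hom
  have hιx : ∀ i, (ι i).base (x i) = (ω ≫ σ).base p := by
    intro i
    rw [← hι i, Scheme.Hom.comp_base, TopCat.comp_app, hjx i]
    exact how
  have hα : ∀ i, (β i).comp (φ : A.presheaf.stalk ((ω ≫ σ).base p) →+* W.presheaf.stalk (ω.base p)) =
      (stalkMapAt (ι i) (x i) ((ω ≫ σ).base p) (hιx i)).hom := by
    intro i
    have h1 := stalkMapAt_comp (j i) σ (x i) (ω.base p) ((ω ≫ σ).base p) (hjx i) how
    have h2 := stalkMapAt_congr (hι i) (x i) ((ω ≫ σ).base p)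
      (by rw [Scheme.Hom.comp_base, TopCat.comp_app, hjx i]; exact how)
    rw [h1] at h2
    have h3 := congrArg (fun m => m.hom) h2
    simp only [CommRingCat.hom_comp] at h3
    rw [← h3]
    rfl
  refine AxesInj64.injective_of_axes (K := K) hres hres' φ hφ t hli hsp hfin β ?_ ?_
  · intro i
    rw [hα i]
    exact (surjective_stalkMapAt_iff (ι i) (x i) ((ω ≫ σ).base p) (hιx i)).mpr (hsurj i)
  · intro i
    rw [hα i, ker_stalkMapAt (ι i) (x i) ((ω ≫ σ).base p) (hιx i) U ho (P i) (hker i)]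
    exact hP i

end Main

end Fermat.Agent.JAC.Curves.StalkInj64
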